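import Mathlib

/-!
# A chart over a base ring as a module over the polynomial ring

If `B` is free of finite rank over `k[b]` then `A ⊗ B` is free of the same rank over `A[X]`, and
the image of an idempotent matrix over it is finite projective over `A[X]`.
-/

set_option autoImplicit false
set_option linter.unusedSectionVars false
set_option linter.style.haveILetI false

noncomputable section

open Polynomial TensorProduct

namespace FLTAgent.PicScheme

universe v

/-- `A ⊗ B`, as an algebra over `A[X]` by `X ↦ 1 ⊗ b`. -/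
@[nolint unusedArguments]
def PolyChart (k A : Type v) {B : Type v} [Field k] [CommRing A] [Algebra k A] [CommRing B]
    [Algebra k B] (_b : B) : Type v := A ⊗[k] B

variable {k : Type v} [Field k] {A B : Type v} [CommRing A] [Algebra k A] [CommRing B] [Algebra k B]
variable (b : B)

instance : CommRing (PolyChart k A b) := inferInstanceAs (CommRing (A ⊗[k] B))

instance : Algebra A (PolyChart k A b) := inferInstanceAs (Algebra A (A ⊗[k] B))

namespace PolyChart

/-- An element as an element of the chart. -/
def of (x : A ⊗[k] B) : PolyChart k A b := x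

/-- The value of the variable. -/
def t : PolyChart k A b := of b ((1 : A) ⊗ₜ b)

instance algebraPoly : Algebra A[X] (PolyChart k A b) :=
  (Polynomial.aeval (R := A) (t b)).toRingHom.toAlgebra

theorem algebraMap_poly (p : A[X]) :
    algebraMap A[X] (PolyChart k A b) p = Polynomial.aeval (t b) p := rfl

instance : IsScalarTower A A[X] (PolyChart k A b) :=
  IsScalarTower.of_algebraMap_eq fun a => by
    rw [algebraMap_poly, Polynomial.algebraMap_eq, Polynomial.aeval_C]

theorem X_smul (x : PolyChart k A b) : (X : A[X]) • x = t b * x := by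
  rw [Algebra.smul_def, algebraMap_poly, Polynomial.aeval_X]

variable (k) in
/-- Freeness of finite rank of `B` over `k[b]`. -/
def IsFree : Prop :=
  letI := (Polynomial.aeval (R := k) b).toRingHom.toAlgebra
  Module.Free k[X] B ∧ Module.Finite k[X] B

variable {b} in
theorem exists_gens (hb : IsFree k b) :
    ∃ (r : ℕ) (β : Fin r → B), ∀ (A : Type v) [CommRing A] [Algebra k A],
      Function.Bijective (Fintype.linearCombination A[X] fun i => of (k := k) (A := A) b ((1 : A) ⊗ₜ[k] β i)) := by
  classical
  letI := (Polynomial.aeval (R := k) b).toRingHom.toAlgebra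
  haveI : IsScalarTower k k[X] B := IsScalarTower.of_algebraMap_eq fun a => by
    show _ = Polynomial.aeval b (algebraMap k k[X] a)
    rw [AlgHom.commutes]
  haveI := hb.1
  haveI := hb.2
  obtain ⟨r, β⟩ : ∃ r, Nonempty (Module.Basis (Fin r) k[X] B) :=
    ⟨_, ⟨(Module.Free.chooseBasis k[X] B).reindex (Fintype.equivFin _)⟩⟩
  obtain ⟨β⟩ := β
  refine ⟨r, fun i => β i, fun A _ _ => ?_⟩
  set Φ : (Fin r → A[X]) →ₗ[A[X]] PolyChart k A b :=
    Fintype.linearCombination A[X] fun i => of b ((1 : A) ⊗ₜ β i)
  set βk : Module.Basis (ℕ × Fin r) k B := (Polynomial.basisMonomials k).smulTower β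
  set βA : Module.Basis (ℕ × Fin r) A (PolyChart k A b) := Algebra.TensorProduct.basis A βk
  set γ : Module.Basis (ℕ × Fin r) A (Fin r → A[X]) :=
    (Pi.basis fun _ : Fin r => Polynomial.basisMonomials A).reindex
      ((Equiv.sigmaEquivProd (Fin r) ℕ).trans (Equiv.prodComm _ _))
  have hΦ : ∀ x, Φ (γ x) = βA x := by
    rintro ⟨m, i⟩
    have hγ : γ (m, i) = Pi.single i ((X : A[X]) ^ m) := by
      simp [γ, Pi.basis_apply, Polynomial.X_pow_eq_monomial]
    rw [hγ, Fintype.linearCombination_apply_single]
    have hβ : βA (m, i) = of b ((1 : A) ⊗ₜ (b ^ m * β i)) := by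
      have h1 : βk (m, i) = b ^ m * β i := by
        rw [Module.Basis.smulTower_apply, Polynomial.coe_basisMonomials, Algebra.smul_def]
        show Polynomial.aeval b (Polynomial.monomial m (1 : k)) * _ = _
        rw [Polynomial.aeval_monomial, map_one, one_mul]
      show Algebra.TensorProduct.basis A βk (m, i) = _
      rw [Algebra.TensorProduct.basis_apply, h1]
      rfl
    rw [hβ, Algebra.smul_def, algebraMap_poly, map_pow, Polynomial.aeval_X]
    show ((1 : A) ⊗ₜ[k] b) ^ m * ((1 : A) ⊗ₜ[k] β i) = (1 : A) ⊗ₜ[k] (b ^ m * β i)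
    rw [Algebra.TensorProduct.tmul_pow, one_pow, Algebra.TensorProduct.tmul_mul_tmul, one_mul]
  have hΦA : Φ.restrictScalars A = (γ.equiv βA (Equiv.refl _)).toLinearMap :=
    γ.ext fun x => by
      rw [LinearMap.restrictScalars_apply, hΦ, LinearEquiv.coe_coe, Module.Basis.equiv_apply,
        Equiv.refl_apply]
  have := (γ.equiv βA (Equiv.refl _)).bijective
  rwa [← LinearEquiv.coe_coe, ← hΦA] at this

variable {b} in
theorem free (hb : IsFree k b) :
    ∃ (r : ℕ) (_ : (Fin r → A[X]) ≃ₗ[A[X]] PolyChart k A b), True := by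
  obtain ⟨r, β, h⟩ := exists_gens hb
  exact ⟨r, LinearEquiv.ofBijective _ (h A), trivial⟩

variable {b}

/-- The image of an idempotent matrix over the chart. -/
def image {n : ℕ} (e : Matrix (Fin n) (Fin n) (A ⊗[k] B)) :
    Submodule (PolyChart k A b) (Fin n → PolyChart k A b) :=
  LinearMap.range (Matrix.mulVecLin (R := PolyChart k A b) e)

theorem mem_image {n : ℕ} {e : Matrix (Fin n) (Fin n) (A ⊗[k] B)} (he : e * e = e)
    (x : Fin n → PolyChart k A b) :
    x ∈ image (b := b) e ↔ Matrix.mulVec (α := A ⊗[k] B) e x = x :=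
  ⟨by
    rintro ⟨y, rfl⟩
    exact (Matrix.mulVec_mulVec (α := A ⊗[k] B) y e e).trans (by rw [he]; rfl),
  fun h => ⟨x, h⟩⟩

theorem image_finite_projective (hb : IsFree k b) {n : ℕ}
    {e : Matrix (Fin n) (Fin n) (A ⊗[k] B)} (he : e * e = e) :
    Module.Finite A[X] (image (b := b) e) ∧ Module.Projective A[X] (image (b := b) e) := by
  obtain ⟨r, Φ, -⟩ := free (A := A) hb
  haveI : Module.Free A[X] (PolyChart k A b) := Module.Free.of_equiv Φ
  haveI : Module.Finite A[X] (PolyChart k A b) := Module.Finite.equiv Φ
  set E := ((Matrix.mulVecLin (R := PolyChart k A b) e).rangeRestrict).restrictScalars A[X]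
  refine ⟨Module.Finite.of_surjective E (LinearMap.surjective_rangeRestrict _),
    Module.Projective.of_split ((image (b := b) e).subtype.restrictScalars A[X]) E ?_⟩
  refine LinearMap.ext fun x => Subtype.ext ?_
  exact (mem_image he _).1 x.2

end PolyChart

end FLTAgent.PicScheme
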