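import Mathlib

/-!
# Two-term complexes of bundles on the projective line over a ring

`P0` and `P1` are finite projective modules over the polynomial rings in `x` and `x⁻¹`, both mapped
into a module `P01` on which `u` is multiplication by `x`. The cokernel of the difference map is
finite over the base; when it vanishes the kernel is finite projective and commutes with base
change.
-/

set_option autoImplicit false
set_option linter.unusedSectionVars false
set_option linter.style.haveILetI false

noncomputable section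

open Polynomial

namespace FLTAgent.PicScheme

universe v

variable {A : Type v} [CommRing A]
variable {P0 P1 P01 : Type v} [AddCommGroup P0] [AddCommGroup P1] [AddCommGroup P01]
variable [Module A P0] [Module A[X] P0] [IsScalarTower A A[X] P0]
variable [Module A P1] [Module A[X] P1] [IsScalarTower A A[X] P1] [Module A P01]

variable (A P0 P1 P01) in
/-- A bundle on the projective line over `A`, on the two standard charts. -/
structure TwoTerm where
  u : P01 ≃ₗ[A] P01
  ι0 : P0 →ₗ[A] P01
  ι1 : P1 →ₗ[A] P01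
  ι0_inj : Function.Injective ι0
  ι1_inj : Function.Injective ι1
  ι0_X : ∀ p, ι0 ((X : A[X]) • p) = u (ι0 p)
  ι1_X : ∀ p, ι1 ((X : A[X]) • p) = u.symm (ι1 p)
  gen0 : ∀ z, ∃ n p, (⇑u)^[n] z = ι0 p
  gen1 : ∀ z, ∃ n p, (⇑u.symm)^[n] z = ι1 p

namespace TwoTerm

variable (T : TwoTerm A P0 P1 P01)

/-- The same bundle with the two charts exchanged. -/
def swap : TwoTerm A P1 P0 P01 where
  u := T.u.symm
  ι0 := T.ι1
  ι1 := T.ι0
  ι0_inj := T.ι1_inj
  ι1_inj := T.ι0_inj
  ι0_X := T.ι1_X
  ι1_X := T.ι0_X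
  gen0 := T.gen1
  gen1 := T.gen0

theorem ι0_pow (n : ℕ) (p : P0) : T.ι0 ((X : A[X]) ^ n • p) = (⇑T.u)^[n] (T.ι0 p) := by
  induction n with
  | zero => simp
  | succ n ih => rw [pow_succ', mul_smul, T.ι0_X, ih, Function.iterate_succ_apply']

theorem ι1_pow (n : ℕ) (p : P1) : T.ι1 ((X : A[X]) ^ n • p) = (⇑T.u.symm)^[n] (T.ι1 p) :=
  T.swap.ι0_pow n p

theorem u_symm_iter (n : ℕ) (z : P01) : (⇑T.u)^[n] ((⇑T.u.symm)^[n] z) = z :=
  (Function.LeftInverse.iterate (fun x => T.u.apply_symm_apply x) n) z

theorem symm_u_iter (n : ℕ) (z : P01) : (⇑T.u.symm)^[n] ((⇑T.u)^[n] z) = z :=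
  (Function.LeftInverse.iterate (fun x => T.u.symm_apply_apply x) n) z

theorem iter_add_mem {n m : ℕ} {z : P01} (h : (⇑T.u)^[n] z ∈ LinearMap.range T.ι0) :
    (⇑T.u)^[m + n] z ∈ LinearMap.range T.ι0 := by
  obtain ⟨p, hp⟩ := h
  exact ⟨(X : A[X]) ^ m • p, by rw [T.ι0_pow, hp, Function.iterate_add_apply]⟩

theorem iter_smul (e : P01 ≃ₗ[A] P01) (n : ℕ) (c : A) (z : P01) :
    (⇑e)^[n] (c • z) = c • (⇑e)^[n] z := by
  induction n with
  | zero => rfl
  | succ n ih => rw [Function.iterate_succ_apply', Function.iterate_succ_apply', ih, map_smul]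

theorem iter_sum {ι : Type*} (e : P01 ≃ₗ[A] P01) (n : ℕ) (F : Finset ι) (z : ι → P01) :
    (⇑e)^[n] (∑ i ∈ F, z i) = ∑ i ∈ F, (⇑e)^[n] (z i) := by
  induction n with
  | zero => rfl
  | succ n ih => simp only [Function.iterate_succ_apply', ih, map_sum]

/-- The difference map. -/
def δ : P0 × P1 →ₗ[A] P01 := T.ι0.coprod (-T.ι1)

theorem δ_apply (h : P0 × P1) : T.δ h = T.ι0 h.1 - T.ι1 h.2 := by
  simp [δ, sub_eq_add_neg]

theorem mem_ker {h : P0 × P1} : h ∈ LinearMap.ker T.δ ↔ T.ι0 h.1 = T.ι1 h.2 := by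
  rw [LinearMap.mem_ker, T.δ_apply, sub_eq_zero]

theorem range_δ : LinearMap.range T.δ = LinearMap.range T.ι0 ⊔ LinearMap.range T.ι1 := by
  rw [δ, LinearMap.range_coprod, LinearMap.range_neg]

theorem finite_coker [Module.Finite A[X] P0] :
    Module.Finite A (P01 ⧸ LinearMap.range T.δ) := by
  classical
  obtain ⟨r, f, hf⟩ := Module.Finite.exists_fin' A[X] P0
  set v : Fin r → P0 := fun i => f (Pi.single i 1)
  choose n q hq using fun i => T.gen1 (T.ι0 (v i))
  set S : Finset P01 := Finset.univ.biUnion fun i =>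
    (Finset.range (n i)).image fun m => (⇑T.u.symm)^[m] (T.ι0 (v i))
  set W := Submodule.span A (S : Set P01) ⊔ LinearMap.range T.δ with hWdef
  have hW0 : LinearMap.range T.ι0 ≤ W := by
    rw [hWdef, T.range_δ]; exact le_sup_of_le_right le_sup_left
  have hW1 : LinearMap.range T.ι1 ≤ W := by
    rw [hWdef, T.range_δ]; exact le_sup_of_le_right le_sup_right
  have hneg : ∀ i m, (⇑T.u.symm)^[m] (T.ι0 (v i)) ∈ W := fun i m => by
    by_cases hm : m < n i
    · exact le_sup_left (a := Submodule.span A (S : Set P01)) (Submodule.subset_span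
        (Finset.mem_coe.2 (Finset.mem_biUnion.2 ⟨i, Finset.mem_univ _,
          Finset.mem_image.2 ⟨m, Finset.mem_range.2 hm, rfl⟩⟩)))
    · refine hW1 ⟨(X : A[X]) ^ (m - n i) • q i, ?_⟩
      rw [T.ι1_pow, ← hq i, ← Function.iterate_add_apply, Nat.sub_add_cancel (Nat.le_of_not_lt hm)]
  have hk : ∀ (k : ℕ) (i : Fin r) (a : A[X]), (⇑T.u.symm)^[k] (T.ι0 (a • v i)) ∈ W := by
    intro k i a
    induction a using Polynomial.induction_on' with
    | add a b ha hb =>
      rw [add_smul, map_add, iterate_map_add]; exact W.add_mem ha hb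
    | monomial j c =>
      rw [← Polynomial.C_mul_X_pow_eq_monomial, mul_smul, ← Polynomial.algebraMap_eq,
        algebraMap_smul, map_smul]
      rw [iter_smul]
      refine W.smul_mem c ?_
      rcases le_or_gt k j with h | h
      · refine hW0 ⟨(X : A[X]) ^ (j - k) • v i, ?_⟩
        rw [T.ι0_pow, T.ι0_pow]
        conv_rhs => rw [← Nat.add_sub_cancel' h, Function.iterate_add_apply, T.symm_u_iter]
      · rw [T.ι0_pow, ← Nat.sub_add_cancel h.le, Function.iterate_add_apply, T.symm_u_iter]
        exact hneg i _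
  have hall : W = ⊤ := by
    refine eq_top_iff.2 fun z _ => ?_
    obtain ⟨k, p, hp⟩ := T.gen0 z
    obtain ⟨g, rfl⟩ := hf p
    have : z = (⇑T.u.symm)^[k] (T.ι0 (f g)) := by rw [← hp, T.symm_u_iter]
    rw [this, ← Finset.univ_sum_single g, map_sum, map_sum, iter_sum]
    refine W.sum_mem fun i _ => ?_
    rw [show Pi.single i (g i) = g i • Pi.single i (1 : A[X]) from by
      rw [← Pi.single_smul, smul_eq_mul, mul_one], map_smul]
    exact hk k i (g i)
  refine ⟨⟨S.image (LinearMap.range T.δ).mkQ, ?_⟩⟩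
  rw [Finset.coe_image, Submodule.span_image]
  refine eq_top_iff.2 fun x _ => ?_
  obtain ⟨z, rfl⟩ := Submodule.mkQ_surjective _ x
  obtain ⟨a, ha, b, hb, rfl⟩ := Submodule.mem_sup.1 (hall ▸ (Submodule.mem_top : z ∈ ⊤) : z ∈ W)
  refine ⟨a, ha, ?_⟩
  rw [map_add, (Submodule.Quotient.mk_eq_zero _).2 hb |> fun h => show (LinearMap.range T.δ).mkQ b = 0
    from h, add_zero]

/-- If the cokernel vanishes on the fibre at a prime, it vanishes near it. -/
theorem exists_smul_mem_range [Module.Finite A[X] P0] (p : PrimeSpectrum A)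
    (h : Subsingleton (TensorProduct A p.asIdeal.ResidueField (P01 ⧸ LinearMap.range T.δ))) :
    ∃ f ∉ p.asIdeal, ∀ z, f • z ∈ LinearMap.range T.δ := by
  haveI := T.finite_coker
  have hp : p ∉ Module.support A (P01 ⧸ LinearMap.range T.δ) := by
    rw [Module.mem_support_iff_nontrivial_residueField_tensorProduct, not_nontrivial_iff_subsingleton]
    exact h
  rw [Module.support_eq_zeroLocus] at hp
  obtain ⟨f, hf, hfp⟩ := Set.not_subset.1 hp
  refine ⟨f, hfp, fun z => ?_⟩
  have := Module.mem_annihilator.1 hf ((LinearMap.range T.δ).mkQ z)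
  rwa [← map_smul, Submodule.mkQ_apply, Submodule.Quotient.mk_eq_zero] at this

/-- Sections have bounded degree on each chart. -/
theorem exists_fg_bound [Module.Finite A[X] P0] [Module.Projective A[X] P0]
    [Module.Finite A[X] P1] :
    ∃ G : Submodule A P0, G.FG ∧ ∀ h ∈ LinearMap.ker T.δ, h.1 ∈ G := by
  classical
  obtain ⟨r, f, hf⟩ := Module.Finite.exists_fin' A[X] P0
  obtain ⟨s, hs⟩ := Module.projective_lifting_property f LinearMap.id hf
  obtain ⟨m, g, hg⟩ := Module.Finite.exists_fin' A[X] P1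
  set w : Fin m → P1 := fun i => g (Pi.single i 1)
  choose n a hn using fun i => T.gen0 (T.ι1 (w i))
  set N := Finset.univ.sup n
  have hN : ∀ i, ∃ b, T.ι0 b = (⇑T.u)^[N] (T.ι1 (w i)) := fun i => by
    rw [show N = (N - n i) + n i from (Nat.sub_add_cancel (Finset.le_sup (f := n) (Finset.mem_univ i))).symm]
    exact T.iter_add_mem ⟨a i, (hn i).symm⟩
  choose b hb using hN
  set d := Finset.univ.sup fun ij : Fin m × Fin r => (s (b ij.1) ij.2).natDegree
  refine ⟨Submodule.span A (Set.range fun x : Fin r × Fin (d + 1) =>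
    f (Pi.single x.1 ((X : A[X]) ^ (x.2 : ℕ)))), Submodule.fg_span (Set.finite_range _),
    fun h hh => ?_⟩
  rw [T.mem_ker] at hh
  obtain ⟨q, hq⟩ := hg h.2
  set D := Finset.univ.sup fun i : Fin m => (q i).natDegree
  -- `X ^ (N + D) • h.1` is a combination of the `b i` with coefficients of degree at most `D`
  have key : (X : A[X]) ^ (N + D) • h.1 = ∑ i, (∑ k ∈ Finset.range (D + 1), Polynomial.monomial (D - k) ((q i).coeff k)) • b i := by
    apply T.ι0_inj
    rw [T.ι0_pow, hh, ← hq, ← Finset.univ_sum_single q, map_sum, map_sum, iter_sum, map_sum]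
    refine Finset.sum_congr rfl fun i _ => ?_
    rw [Finset.univ_sum_single]
    have hi : (q i).natDegree ≤ D := Finset.le_sup (f := fun i => (q i).natDegree) (Finset.mem_univ i)
    rw [show g (Pi.single i (q i)) = q i • w i from by
      rw [← map_smul, ← Pi.single_smul, smul_eq_mul, mul_one]]
    conv_lhs => rw [(q i).as_sum_range' (D + 1) (Nat.lt_succ_of_le hi)]
    rw [Finset.sum_smul, map_sum, iter_sum, Finset.sum_smul, map_sum]
    refine Finset.sum_congr rfl fun k hk => ?_
    have hk' : k ≤ D := Nat.le_of_lt_succ (Finset.mem_range.1 hk)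
    rw [← Polynomial.C_mul_X_pow_eq_monomial, ← Polynomial.C_mul_X_pow_eq_monomial,
      ← Polynomial.algebraMap_eq, mul_smul, mul_smul,
      algebraMap_smul, algebraMap_smul, T.ι1.map_smul, T.ι0.map_smul, T.ι1_pow, T.ι0_pow, hb,
      iter_smul]
    rw [show N + D = (D - k) + N + k by omega, Function.iterate_add_apply, T.u_symm_iter,
      Function.iterate_add_apply]
  have hdeg : ∀ j, (s h.1 j).natDegree ≤ d := by
    intro j
    rcases eq_or_ne (s h.1 j) 0 with h0 | h0
    · simp [h0]
    have h1 : (X : A[X]) ^ (N + D) * s h.1 j =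
        ∑ i, (∑ k ∈ Finset.range (D + 1), Polynomial.monomial (D - k) ((q i).coeff k)) * s (b i) j := by
      have := congrArg (fun p => s p j) key
      simpa [map_smul, map_sum, Finset.sum_apply] using this
    have h2 : ((X : A[X]) ^ (N + D) * s h.1 j).natDegree ≤ D + d := by
      rw [h1]
      refine Polynomial.natDegree_sum_le_of_forall_le _ _ fun i _ => ?_
      refine Polynomial.natDegree_mul_le.trans (add_le_add ?_
        (Finset.le_sup (f := fun ij : Fin m × Fin r => (s (b ij.1) ij.2).natDegree)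
          (Finset.mem_univ (i, j))))
      exact Polynomial.natDegree_sum_le_of_forall_le _ _ fun k _ =>
        (Polynomial.natDegree_monomial_le _).trans (Nat.sub_le _ _)
    haveI : Nontrivial A := Polynomial.nontrivial_iff.1 (nontrivial_of_ne _ _ h0)
    rw [(Polynomial.monic_X_pow (R := A) (N + D)).natDegree_mul' h0, Polynomial.natDegree_X_pow] at h2
    omega
  rw [show h.1 = f (s h.1) from (LinearMap.congr_fun hs h.1).symm, ← Finset.univ_sum_single (s h.1),
    map_sum]
  refine Submodule.sum_mem _ fun j _ => ?_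
  rw [(s h.1 j).as_sum_range' (d + 1) (Nat.lt_succ_of_le (hdeg j)),
    ← LinearMap.single_apply (R := A[X]) (φ := fun _ : Fin r => A[X]), map_sum, map_sum]
  refine Submodule.sum_mem _ fun k hk => ?_
  rw [LinearMap.single_apply, ← Polynomial.C_mul_X_pow_eq_monomial, ← smul_eq_mul, Pi.single_smul,
    map_smul, ← Polynomial.algebraMap_eq, algebraMap_smul]
  exact Submodule.smul_mem _ _ (Submodule.subset_span ⟨(j, ⟨k, Finset.mem_range.1 hk⟩), rfl⟩)

variable [Module.Finite A[X] P0] [Module.Projective A[X] P0]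
  [Module.Finite A[X] P1] [Module.Projective A[X] P1]

theorem _root_.FLTAgent.PicScheme.projective_restrict {M : Type v} [AddCommGroup M] [Module A M]
    [Module A[X] M] [IsScalarTower A A[X] M] [Module.Finite A[X] M] [Module.Projective A[X] M] :
    Module.Projective A M := by
  obtain ⟨r, f, hf⟩ := Module.Finite.exists_fin' A[X] M
  obtain ⟨s, hs⟩ := Module.projective_lifting_property f LinearMap.id hf
  exact Module.Projective.of_split (s.restrictScalars A) (f.restrictScalars A)
    (LinearMap.ext fun x => LinearMap.congr_fun hs x)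

/-- If the cokernel vanishes, the sections form a finite projective module which is a direct
summand of the two charts. -/
theorem sections [Module.Projective A P01] (hsurj : Function.Surjective T.δ) :
    ∃ π : P0 × P1 →ₗ[A] LinearMap.ker T.δ, π ∘ₗ (LinearMap.ker T.δ).subtype = LinearMap.id ∧
      Module.Finite A (LinearMap.ker T.δ) ∧ Module.Projective A (LinearMap.ker T.δ) := by
  obtain ⟨σ, hσ⟩ := Module.projective_lifting_property T.δ LinearMap.id hsurj
  have hσ' : ∀ z, T.δ (σ z) = z := fun z => LinearMap.congr_fun hσ z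
  set π := (LinearMap.id - σ ∘ₗ T.δ).codRestrict (LinearMap.ker T.δ) (fun h => by simp [hσ'])
  have hπ : π ∘ₗ (LinearMap.ker T.δ).subtype = LinearMap.id := LinearMap.ext fun h =>
    Subtype.ext (by simp [π, LinearMap.mem_ker.1 h.2])
  refine ⟨π, hπ, ?_, ?_⟩
  · obtain ⟨G0, hG0, hb0⟩ := T.exists_fg_bound
    obtain ⟨G1, hG1, hb1⟩ := T.swap.exists_fg_bound
    refine ⟨?_⟩
    rw [show (⊤ : Submodule A (LinearMap.ker T.δ)) = (G0.prod G1).map π from ?_]
    · exact (hG0.prod hG1).map π
    refine (eq_top_iff.2 fun h _ => ⟨h.1, ⟨hb0 _ h.2, hb1 (h.1.2, h.1.1) ?_⟩, ?_⟩).symm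
    · rw [T.swap.mem_ker]; exact (T.mem_ker.1 h.2).symm
    · exact LinearMap.congr_fun hπ h
  · haveI : Module.Projective A P0 := projective_restrict
    haveI : Module.Projective A P1 := projective_restrict
    exact Module.Projective.of_split _ π hπ

/-- The sections of a bundle with vanishing cokernel commute with base change. -/
theorem sections_baseChange [Module.Projective A P01] (hsurj : Function.Surjective T.δ)
    (A' : Type v) [CommRing A'] [Algebra A A'] :
    Function.Surjective (T.δ.baseChange A') ∧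
      Function.Injective ((LinearMap.ker T.δ).subtype.baseChange A') ∧
      LinearMap.range ((LinearMap.ker T.δ).subtype.baseChange A') =
        LinearMap.ker (T.δ.baseChange A') := by
  obtain ⟨σ, hσ⟩ := Module.projective_lifting_property T.δ LinearMap.id hsurj
  set ι := (LinearMap.ker T.δ).subtype
  set π := (LinearMap.id - σ ∘ₗ T.δ).codRestrict (LinearMap.ker T.δ) (fun h => by
    simp [show T.δ (σ (T.δ h)) = T.δ h from LinearMap.congr_fun hσ _])
  have h1 : ι ∘ₗ π + σ ∘ₗ T.δ = LinearMap.id := LinearMap.ext fun h => by simp [ι, π]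
  have h2 : π ∘ₗ ι = LinearMap.id := LinearMap.ext fun h =>
    Subtype.ext (by simp [ι, π, LinearMap.mem_ker.1 h.2])
  have hc : T.δ.baseChange A' ∘ₗ σ.baseChange A' = LinearMap.id := by
    rw [← LinearMap.baseChange_comp, hσ, LinearMap.baseChange_id]
  have hi : π.baseChange A' ∘ₗ ι.baseChange A' = LinearMap.id := by
    rw [← LinearMap.baseChange_comp, h2, LinearMap.baseChange_id]
  refine ⟨fun z => ⟨σ.baseChange A' z, LinearMap.congr_fun hc z⟩,
    Function.LeftInverse.injective (g := π.baseChange A') (LinearMap.congr_fun hi), le_antisymm ?_ ?_⟩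
  · rintro _ ⟨x, rfl⟩
    have : T.δ ∘ₗ ι = 0 := LinearMap.ext fun h => LinearMap.mem_ker.1 h.2
    rw [LinearMap.mem_ker, ← LinearMap.comp_apply, ← LinearMap.baseChange_comp, this,
      LinearMap.baseChange_zero, LinearMap.zero_apply]
  · intro x hx
    refine ⟨π.baseChange A' x, ?_⟩
    have h3 := congrArg (fun f => f.baseChange A' x) h1
    simp only [LinearMap.baseChange_add, LinearMap.add_apply, LinearMap.baseChange_comp,
      LinearMap.comp_apply, LinearMap.baseChange_id, LinearMap.id_apply] at h3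
    rwa [LinearMap.mem_ker.1 hx, map_zero, add_zero] at h3

end TwoTerm

end FLTAgent.PicScheme
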