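import Fermat.Agent.PicScheme.Datum
import Fermat.Agent.PicScheme.TwoTerm
import Fermat.Agent.PicScheme.PolyChart

/-!
# A datum as a two-term complex
-/

set_option autoImplicit false
set_option linter.unusedSectionVars false
set_option linter.style.haveILetI false

noncomputable section

universe u

open Polynomial TensorProduct Matrix

namespace FLTAgent.PicScheme

variable {k : Type u} [Field k] {X : Charts k} {A : Type u} [CommRing A] [Algebra k A]

/-- Both charts are free over the polynomial rings. -/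
def Charts.IsFree (X : Charts k) : Prop := PolyChart.IsFree k X.f ∧ PolyChart.IsFree k X.g

theorem Charts.isFree (X : Charts k) : X.IsFree :=
  ⟨⟨X.free₁, X.finite₁⟩, ⟨X.free₂, X.finite₂⟩⟩

namespace Charts

variable (X) (A)

/-- The coordinate on the overlap. -/
def t₀ : X.R₀ A := X.res₁ A ((1 : A) ⊗ₜ X.f)

/-- The inverse coordinate on the overlap. -/
def s₀ : X.R₀ A := X.res₂ A ((1 : A) ⊗ₜ X.g)

theorem t₀_mul_s₀ : X.t₀ A * X.s₀ A = 1 := by
  simp only [t₀, s₀, Charts.res₁, Charts.res₂, Algebra.TensorProduct.map_tmul, AlgHom.id_apply,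
    Algebra.TensorProduct.tmul_mul_tmul, one_mul, X.mul_eq_one]
  rfl

theorem s₀_mul_t₀ : X.s₀ A * X.t₀ A = 1 := by rw [mul_comm, t₀_mul_s₀]

theorem exists_res₁ (y : X.R₀ A) : ∃ (N : ℕ) (x : X.R₁ A), X.t₀ A ^ N * y = X.res₁ A x := by
  induction y using TensorProduct.induction_on with
  | zero => exact ⟨0, 0, by simp⟩
  | tmul a c =>
    letI := X.ι₁.toRingHom.toAlgebra
    haveI := X.away₁
    obtain ⟨⟨z, ⟨_, N, rfl⟩⟩, hz⟩ := IsLocalization.surj (Submonoid.powers X.f) c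
    refine ⟨N, a ⊗ₜ z, ?_⟩
    simp only [t₀, Charts.res₁, Algebra.TensorProduct.map_tmul, AlgHom.id_apply,
      Algebra.TensorProduct.tmul_pow, one_pow, Algebra.TensorProduct.tmul_mul_tmul, one_mul]
    congr 1
    rw [mul_comm, ← map_pow]
    exact hz
  | add y y' hy hy' =>
    obtain ⟨N, x, hx⟩ := hy
    obtain ⟨N', x', hx'⟩ := hy'
    refine ⟨N + N', ((1 : A) ⊗ₜ X.f) ^ N' * x + ((1 : A) ⊗ₜ X.f) ^ N * x', ?_⟩
    rw [map_add, map_mul, map_mul, map_pow, map_pow, ← hx, ← hx', ← t₀]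
    ring

theorem exists_res₂ (y : X.R₀ A) : ∃ (N : ℕ) (x : X.R₂ A), X.s₀ A ^ N * y = X.res₂ A x := by
  induction y using TensorProduct.induction_on with
  | zero => exact ⟨0, 0, by simp⟩
  | tmul a c =>
    letI := X.ι₂.toRingHom.toAlgebra
    haveI := X.away₂
    obtain ⟨⟨z, ⟨_, N, rfl⟩⟩, hz⟩ := IsLocalization.surj (Submonoid.powers X.g) c
    refine ⟨N, a ⊗ₜ z, ?_⟩
    simp only [s₀, Charts.res₂, Algebra.TensorProduct.map_tmul, AlgHom.id_apply,
      Algebra.TensorProduct.tmul_pow, one_pow, Algebra.TensorProduct.tmul_mul_tmul, one_mul]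
    congr 1
    rw [mul_comm, ← map_pow]
    exact hz
  | add y y' hy hy' =>
    obtain ⟨N, x, hx⟩ := hy
    obtain ⟨N', x', hx'⟩ := hy'
    refine ⟨N + N', ((1 : A) ⊗ₜ X.g) ^ N' * x + ((1 : A) ⊗ₜ X.g) ^ N * x', ?_⟩
    rw [map_add, map_mul, map_mul, map_pow, map_pow, ← hx, ← hx', ← s₀]
    ring

theorem mul_self_cancel {B : Type u} [CommRing B] [Algebra k B] {b : B} (hb : PolyChart.IsFree k b)
    {x : B} (h : b * x = 0) : x = 0 := by
  letI := (Polynomial.aeval (R := k) b).toRingHom.toAlgebra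
  haveI := hb.1
  have h1 : (Polynomial.X : k[X]) • x = 0 := by
    rw [Algebra.smul_def]
    show Polynomial.aeval b (Polynomial.X : k[X]) * x = 0
    rw [Polynomial.aeval_X, h]
  exact (smul_eq_zero.1 h1).resolve_left Polynomial.X_ne_zero

theorem res₁_injective (hX : X.IsFree) : Function.Injective (X.res₁ A) := by
  have h : Function.Injective X.ι₁ := by
    letI := X.ι₁.toRingHom.toAlgebra
    haveI := X.away₁
    refine (injective_iff_map_eq_zero _).2 fun x hx => ?_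
    obtain ⟨⟨_, N, rfl⟩, hc⟩ := (IsLocalization.map_eq_zero_iff (Submonoid.powers X.f) X.B₀ x).1 hx
    change X.f ^ N * x = 0 at hc
    induction N generalizing x with
    | zero => simpa using hc
    | succ N ih =>
      exact mul_self_cancel hX.1 (ih (X.f * x) (by rw [map_mul, hx, mul_zero])
        (by rw [← mul_assoc, ← pow_succ]; exact hc))
  exact Module.Flat.lTensor_preserves_injective_linearMap X.ι₁.toLinearMap h

theorem res₂_injective (hX : X.IsFree) : Function.Injective (X.res₂ A) := by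
  have h : Function.Injective X.ι₂ := by
    letI := X.ι₂.toRingHom.toAlgebra
    haveI := X.away₂
    refine (injective_iff_map_eq_zero _).2 fun x hx => ?_
    obtain ⟨⟨_, N, rfl⟩, hc⟩ := (IsLocalization.map_eq_zero_iff (Submonoid.powers X.g) X.B₀ x).1 hx
    change X.g ^ N * x = 0 at hc
    induction N generalizing x with
    | zero => simpa using hc
    | succ N ih =>
      exact mul_self_cancel hX.2 (ih (X.g * x) (by rw [map_mul, hx, mul_zero])
        (by rw [← mul_assoc, ← pow_succ]; exact hc))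
  exact Module.Flat.lTensor_preserves_injective_linearMap X.ι₂.toLinearMap h

end Charts

namespace Datum

variable (L : Datum X A)

/-- The first chart of the bundle. -/
abbrev P₁ : Type u := PolyChart.image (b := X.f) L.e₁

/-- The second chart of the bundle. -/
abbrev P₂ : Type u := PolyChart.image (b := X.g) L.e₂

/-- A section on the first chart. -/
def sec₁ (p : L.P₁) : Fin L.n₁ → X.R₁ A := p.1

/-- A section on the second chart. -/
def sec₂ (p : L.P₂) : Fin L.n₂ → X.R₂ A := p.1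

theorem e₁_sec (p : L.P₁) : L.e₁ *ᵥ L.sec₁ p = L.sec₁ p :=
  (PolyChart.mem_image L.rank₁.idem _).1 p.2

theorem e₂_sec (p : L.P₂) : L.e₂ *ᵥ L.sec₂ p = L.sec₂ p :=
  (PolyChart.mem_image L.rank₂.idem _).1 p.2

theorem res₁_mulVec (x : Fin L.n₁ → X.R₁ A) :
    X.res₁ A ∘ (L.e₁ *ᵥ x) = L.e₁.map (X.res₁ A) *ᵥ (X.res₁ A ∘ x) :=
  funext fun i => RingHom.map_mulVec (X.res₁ A).toRingHom L.e₁ x i

theorem res₂_mulVec (x : Fin L.n₂ → X.R₂ A) :
    X.res₂ A ∘ (L.e₂ *ᵥ x) = L.e₂.map (X.res₂ A) *ᵥ (X.res₂ A ∘ x) :=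
  funext fun i => RingHom.map_mulVec (X.res₂ A).toRingHom L.e₂ x i

theorem e₂_u : L.e₂.map (X.res₂ A) * L.u = L.u := by
  rw [← L.uv, Matrix.mul_assoc, L.vu, L.u_cut]

theorem mem_overlap {z : Fin L.n₂ → X.R₀ A} :
    z ∈ L.overlap ↔ L.e₂.map (X.res₂ A) *ᵥ z = z := by
  refine ⟨?_, fun h => ⟨z, h⟩⟩
  rintro ⟨y, rfl⟩
  simp only [LinearMap.restrictScalars_apply, Matrix.mulVecLin_apply]
  rw [Matrix.mulVec_mulVec, ← Matrix.map_mul, L.rank₂.idem]

theorem u_mem (z : Fin L.n₁ → X.R₀ A) : L.u *ᵥ z ∈ L.overlap :=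
  L.mem_overlap.2 (by rw [Matrix.mulVec_mulVec, L.e₂_u])

theorem res₂_mem (p : L.P₂) : X.res₂ A ∘ L.sec₂ p ∈ L.overlap :=
  L.mem_overlap.2 (by rw [← L.res₂_mulVec, L.e₂_sec])

theorem smul_overlap (c : X.R₀ A) (z : L.overlap) : c • z.1 ∈ L.overlap :=
  L.mem_overlap.2 (by rw [Matrix.mulVec_smul, L.mem_overlap.1 z.2])

/-- Multiplication by the coordinate on the overlap. -/
def shift : L.overlap ≃ₗ[A] L.overlap where
  toFun z := ⟨X.t₀ A • z.1, L.smul_overlap _ z⟩
  map_add' z w := Subtype.ext (smul_add _ _ _)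
  map_smul' c z := Subtype.ext (smul_comm _ _ _)
  invFun z := ⟨X.s₀ A • z.1, L.smul_overlap _ z⟩
  left_inv z := Subtype.ext (by
    show X.s₀ A • X.t₀ A • z.1 = z.1
    rw [smul_smul, X.s₀_mul_t₀, one_smul])
  right_inv z := Subtype.ext (by
    show X.t₀ A • X.s₀ A • z.1 = z.1
    rw [smul_smul, X.t₀_mul_s₀, one_smul])

theorem shift_iter (n : ℕ) (z : L.overlap) : ((⇑L.shift)^[n] z).1 = X.t₀ A ^ n • z.1 := by
  induction n with
  | zero => simp
  | succ n ih =>
    rw [Function.iterate_succ_apply', pow_succ', mul_smul, ← ih]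
    rfl

theorem shift_symm_iter (n : ℕ) (z : L.overlap) :
    ((⇑L.shift.symm)^[n] z).1 = X.s₀ A ^ n • z.1 := by
  induction n with
  | zero => simp
  | succ n ih =>
    rw [Function.iterate_succ_apply', pow_succ', mul_smul, ← ih]
    rfl

/-- The two-term complex of a datum. -/
def twoTerm (hX : X.IsFree) : TwoTerm A L.P₁ L.P₂ L.overlap where
  u := L.shift
  ι0 :=
    { toFun := fun p => ⟨L.u *ᵥ (X.res₁ A ∘ L.sec₁ p), L.u_mem _⟩
      map_add' := fun p q => Subtype.ext (by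
        show L.u *ᵥ (X.res₁ A ∘ (L.sec₁ p + L.sec₁ q)) = _
        rw [show X.res₁ A ∘ (L.sec₁ p + L.sec₁ q) = X.res₁ A ∘ L.sec₁ p + X.res₁ A ∘ L.sec₁ q from
          funext fun i => map_add (X.res₁ A) _ _, Matrix.mulVec_add]
        rfl)
      map_smul' := fun c p => Subtype.ext (by
        show L.u *ᵥ (X.res₁ A ∘ (c • L.sec₁ p)) = _
        rw [show X.res₁ A ∘ (c • L.sec₁ p) = c • (X.res₁ A ∘ L.sec₁ p) from
          funext fun i => map_smul (X.res₁ A) c _, Matrix.mulVec_smul]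
        rfl) }
  ι1 :=
    { toFun := fun p => ⟨X.res₂ A ∘ L.sec₂ p, L.res₂_mem p⟩
      map_add' := fun p q => Subtype.ext (funext fun i => map_add (X.res₂ A) _ _)
      map_smul' := fun c p => Subtype.ext (funext fun i => map_smul (X.res₂ A) c _) }
  ι0_inj p q hpq := by
    have h := congrArg (fun z : L.overlap => L.v *ᵥ z.1) hpq
    simp only [LinearMap.coe_mk, AddHom.coe_mk, Matrix.mulVec_mulVec, L.vu,
      ← L.res₁_mulVec, L.e₁_sec] at h
    exact Subtype.ext (funext fun i => X.res₁_injective A hX (congrFun h i))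
  ι1_inj p q hpq := by
    have h := congrArg Subtype.val hpq
    exact Subtype.ext (funext fun i => X.res₂_injective A hX (congrFun h i))
  ι0_X p := Subtype.ext (by
    show L.u *ᵥ (X.res₁ A ∘ L.sec₁ ((Polynomial.X : A[X]) • p)) = X.t₀ A • (L.u *ᵥ (X.res₁ A ∘ L.sec₁ p))
    rw [← Matrix.mulVec_smul]
    congr 1
    funext i
    show X.res₁ A (((Polynomial.X : A[X]) • (p.1 i : PolyChart k A X.f) : PolyChart k A X.f)) = _
    rw [PolyChart.X_smul]
    exact map_mul (X.res₁ A) _ _)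
  ι1_X p := Subtype.ext (funext fun i => by
    show X.res₂ A (((Polynomial.X : A[X]) • (p.1 i : PolyChart k A X.g) : PolyChart k A X.g)) = _
    rw [PolyChart.X_smul]
    exact map_mul (X.res₂ A) _ _)
  gen0 z := by
    choose N x hx using fun i => X.exists_res₁ A ((L.v *ᵥ z.1) i)
    set M := Finset.univ.sup N
    set x' : Fin L.n₁ → X.R₁ A := fun i => ((1 : A) ⊗ₜ X.f) ^ (M - N i) * x i
    have hx' : X.res₁ A ∘ x' = X.t₀ A ^ M • (L.v *ᵥ z.1) := funext fun i => by
      simp only [Function.comp_apply, x', map_mul, map_pow, ← hx i, Pi.smul_apply, smul_eq_mul]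
      rw [← Charts.t₀, ← mul_assoc, ← pow_add,
        Nat.sub_add_cancel (Finset.le_sup (f := N) (Finset.mem_univ i))]
    refine ⟨M, ⟨L.e₁ *ᵥ x', ⟨x', rfl⟩⟩, Subtype.ext ?_⟩
    rw [L.shift_iter]
    show _ = L.u *ᵥ (X.res₁ A ∘ (L.e₁ *ᵥ x'))
    rw [L.res₁_mulVec, hx', Matrix.mulVec_mulVec, L.u_cut, Matrix.mulVec_smul, Matrix.mulVec_mulVec,
      L.uv, L.mem_overlap.1 z.2]
  gen1 z := by
    choose N x hx using fun i => X.exists_res₂ A (z.1 i)
    set M := Finset.univ.sup N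
    set x' : Fin L.n₂ → X.R₂ A := fun i => ((1 : A) ⊗ₜ X.g) ^ (M - N i) * x i
    have hx' : X.res₂ A ∘ x' = X.s₀ A ^ M • z.1 := funext fun i => by
      simp only [Function.comp_apply, x', map_mul, map_pow, ← hx i, Pi.smul_apply, smul_eq_mul]
      rw [← Charts.s₀, ← mul_assoc, ← pow_add,
        Nat.sub_add_cancel (Finset.le_sup (f := N) (Finset.mem_univ i))]
    refine ⟨M, ⟨L.e₂ *ᵥ x', ⟨x', rfl⟩⟩, Subtype.ext ?_⟩
    rw [L.shift_symm_iter]
    show _ = X.res₂ A ∘ (L.e₂ *ᵥ x')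
    rw [L.res₂_mulVec, hx', Matrix.mulVec_smul, L.mem_overlap.1 z.2]

theorem delta_eq (hX : X.IsFree) (x : Fin L.n₁ → X.R₁ A) (y : Fin L.n₂ → X.R₂ A) :
    L.delta (x, y) =
      ((L.twoTerm hX).δ (⟨L.e₁ *ᵥ x, ⟨x, rfl⟩⟩, ⟨L.e₂ *ᵥ y, ⟨y, rfl⟩⟩) : L.overlap).1 := by
  rw [TwoTerm.δ_apply, AddSubgroupClass.coe_sub]
  show L.u *ᵥ (X.res₁ A ∘ x) - L.e₂.map (X.res₂ A) *ᵥ (X.res₂ A ∘ y) =
    L.u *ᵥ (X.res₁ A ∘ (L.e₁ *ᵥ x)) - X.res₂ A ∘ (L.e₂ *ᵥ y)
  rw [L.res₁_mulVec, L.res₂_mulVec, Matrix.mulVec_mulVec, L.u_cut]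

/-- The range of the difference map, inside the overlap. -/
theorem range_delta (hX : X.IsFree) :
    LinearMap.range (L.twoTerm hX).δ = (LinearMap.range L.delta).comap L.overlap.subtype := by
  ext z
  constructor
  · rintro ⟨⟨p, q⟩, rfl⟩
    refine ⟨(L.sec₁ p, L.sec₂ q), ?_⟩
    rw [L.delta_eq hX]
    congr 3 <;> exact Subtype.ext (by first | exact L.e₁_sec p | exact L.e₂_sec q)
  · rintro ⟨⟨x, y⟩, h⟩
    exact ⟨(⟨L.e₁ *ᵥ x, ⟨x, rfl⟩⟩, ⟨L.e₂ *ᵥ y, ⟨y, rfl⟩⟩), Subtype.ext ((L.delta_eq hX x y).symm.trans h)⟩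

/-- The kernel is the module of global sections. -/
def kerEquiv (hX : X.IsFree) : LinearMap.ker (L.twoTerm hX).δ ≃ₗ[A] L.H0 where
  toFun h := ⟨(L.sec₁ h.1.1, L.sec₂ h.1.2), L.e₁_sec _, L.e₂_sec _, by
    have := congrArg Subtype.val ((L.twoTerm hX).mem_ker.1 h.2)
    exact this⟩
  map_add' _ _ := rfl
  map_smul' _ _ := rfl
  invFun h := ⟨(⟨h.1.1, ⟨h.1.1, h.2.1⟩⟩, ⟨h.1.2, ⟨h.1.2, h.2.2.1⟩⟩),
    (L.twoTerm hX).mem_ker.2 (Subtype.ext h.2.2.2)⟩
  left_inv _ := rfl
  right_inv _ := rfl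

theorem overlap_projective : Module.Projective A L.overlap := by
  haveI : Module.Free A (X.R₀ A) := inferInstance
  refine Module.Projective.of_split L.overlap.subtype
    (((L.e₂.map (X.res₂ A)).mulVecLin.restrictScalars A).codRestrict L.overlap fun z => ⟨z, rfl⟩) ?_
  exact LinearMap.ext fun z => Subtype.ext (L.mem_overlap.1 z.2)

theorem finite_coker (hX : X.IsFree) :
    Module.Finite A (L.overlap ⧸ (LinearMap.range L.delta).comap L.overlap.subtype) := by
  haveI := (PolyChart.image_finite_projective (A := A) hX.1 L.rank₁.idem).1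
  rw [← L.range_delta hX]
  exact (L.twoTerm hX).finite_coker

/-- With vanishing cokernel the sections are finite projective. -/
theorem H0_finite_projective (hX : X.IsFree) (h : L.overlap ≤ LinearMap.range L.delta) :
    Module.Finite A L.H0 ∧ Module.Projective A L.H0 := by
  obtain ⟨i1, i2⟩ := PolyChart.image_finite_projective (A := A) hX.1 L.rank₁.idem
  obtain ⟨i3, i4⟩ := PolyChart.image_finite_projective (A := A) hX.2 L.rank₂.idem
  haveI := L.overlap_projective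
  have hs : Function.Surjective (L.twoTerm hX).δ := fun z => by
    have : z ∈ LinearMap.range (L.twoTerm hX).δ := by rw [L.range_delta hX]; exact h z.2
    exact this
  obtain ⟨π, -, hf, hp⟩ := (L.twoTerm hX).sections hs
  exact ⟨Module.Finite.equiv (L.kerEquiv hX), Module.Projective.of_equiv (L.kerEquiv hX)⟩

end Datum

end FLTAgent.PicScheme
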