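import Fermat.Agent.PicScheme.Datum
import Fermat.Prelude.Def_AlgebraicGeometry_RelativePicardFunctor
import Fermat.Prelude.Def_AlgebraicGeometry_RepresentsRelSubPic
import Fermat.Prelude.Def_AlgebraicGeometry_RelPicardAlgEquivZeroCut

/-!
# The layers of the construction of the Picard scheme of degree zero

`Frame`: the curve as two charts. `Dict`: line bundles over affine bases as matrices.
`Rep`: a scheme representing classes of degree zero.
-/

set_option autoImplicit false
set_option linter.checkUnivs false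

noncomputable section

universe u

open CategoryTheory CategoryTheory.Limits AlgebraicGeometry AlgebraicGeometry.RelPicard
  NeronModelInfra GoodReductionJacobian

namespace FLTAgent.PicScheme

variable {k : Type u} [Field k]

/-- The base morphism of an algebra. -/
def specT (k : Type u) [Field k] (A : Type u) [CommRing A] [Algebra k A] :
    Spec (CommRingCat.of A) ⟶ Spec (CommRingCat.of k) :=
  Spec.map (CommRingCat.ofHom (algebraMap k A))

/-- The morphism of base schemes of a homomorphism of algebras. -/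
def specHom {A A' : Type u} [CommRing A] [Algebra k A] [CommRing A'] [Algebra k A']
    (φ : A →ₐ[k] A') : SchemeHomOver (specT k A') (specT k A) :=
  ⟨Spec.map (CommRingCat.ofHom φ.toRingHom), by
    rw [specT, specT, ← Spec.map_comp, ← CommRingCat.ofHom_comp]
    exact congrArg (fun z => Spec.map (CommRingCat.ofHom z)) φ.comp_algebraMap⟩

variable {C : Scheme.{u}} (c : C ⟶ Spec (CommRingCat.of k))
  (ε : SchemeHomOver (𝟙 (Spec (CommRingCat.of k))) c)

/-- The curve covered by the two charts of `X`. -/
structure Frame where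
  X : Charts k
  j₁ : SchemeHomOver (specT k X.B₁) c
  j₂ : SchemeHomOver (specT k X.B₂) c
  open₁ : IsOpenImmersion j₁.1
  open₂ : IsOpenImmersion j₂.1
  cover : ∀ x : C, x ∈ j₁.1.opensRange ∨ x ∈ j₂.1.opensRange
  inter : IsPullback (specHom X.ι₁).1 (specHom X.ι₂).1 j₁.1 j₂.1
  point : (specHom X.pt).1 ≫ j₁.1 = specT k k ≫ ε.1

/-- Layer F: the curve has a frame. -/
def TargetFrame : Prop :=
  ∀ (k : Type u) [Field k] [IsAlgClosed k] {C : Scheme.{u}} (c : C ⟶ Spec (CommRingCat.of k))
    [IsProper c] [SmoothOfRelativeDimension 1 c] [IsIntegral C]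
    (ε : SchemeHomOver (𝟙 (Spec (CommRingCat.of k))) c), Nonempty (Frame c ε)

variable {c ε}

/-- Line bundles over affine bases as classes of data. -/
structure Dict (F : Frame c ε) where
  cls : ∀ (A : Type u) [CommRing A] [Algebra k A],
    RigidifiedLineBundle c ε (specT k A) → Cls F.X A
  map : ∀ {A A' : Type u} [CommRing A] [Algebra k A] [CommRing A'] [Algebra k A'],
    (A →ₐ[k] A') → Cls F.X A → Cls F.X A'
  map_mk : ∀ {A A' : Type u} [CommRing A] [Algebra k A] [CommRing A'] [Algebra k A']
    (φ : A →ₐ[k] A') (L : RigDatum F.X A) (h : (L.1.map φ).IsRigidifiable),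
      map φ (Quot.mk _ L) = Quot.mk _ ⟨L.1.map φ, h⟩
  cls_eq_iff : ∀ (A : Type u) [CommRing A] [Algebra k A]
    (M M' : RigidifiedLineBundle c ε (specT k A)),
      cls A M = cls A M' ↔ Nonempty (M.L ≅ M'.L)
  cls_surjective : ∀ (A : Type u) [CommRing A] [Algebra k A], Function.Surjective (cls A)
  cls_pullback : ∀ {A A' : Type u} [CommRing A] [Algebra k A] [CommRing A'] [Algebra k A']
    (φ : A →ₐ[k] A') (M : RigidifiedLineBundle c ε (specT k A)),
      cls A' (M.pullbackAlong (specHom φ)) = map φ (cls A M)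
  cls_unit : ∀ (A : Type u) [CommRing A] [Algebra k A],
    ∃ h, cls A (RigidifiedLineBundle.unit (specT k A)) = Quot.mk _ ⟨Datum.one F.X A, h⟩

/-- Layer A, first half: the dictionary exists. -/
def TargetDict : Prop :=
  ∀ {k : Type u} [Field k] [IsAlgClosed k] {C : Scheme.{u}} {c : C ⟶ Spec (CommRingCat.of k)}
    [IsProper c] [SmoothOfRelativeDimension 1 c] [IsIntegral C]
    {ε : SchemeHomOver (𝟙 (Spec (CommRingCat.of k))) c} (F : Frame c ε), Nonempty (Dict F)

/-- Layer A, second half: rigidified bundles are local on the base and glue from affine pieces. -/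
def TargetDescent : Prop :=
  ∀ {k : Type u} [Field k] [IsAlgClosed k] {C : Scheme.{u}} {c : C ⟶ Spec (CommRingCat.of k)}
    [IsProper c] [SmoothOfRelativeDimension 1 c] [IsIntegral C]
    {ε : SchemeHomOver (𝟙 (Spec (CommRingCat.of k))) c} (F : Frame c ε) (Δ : Dict F)
    {T : Scheme.{u}} (t : T ⟶ Spec (CommRingCat.of k)),
    (∀ M M' : RigidifiedLineBundle c ε t,
      (∀ (A : Type u) [CommRing A] [Algebra k A] (p : SchemeHomOver (specT k A) t),
        Δ.cls A (M.pullbackAlong p) = Δ.cls A (M'.pullbackAlong p)) → Nonempty (M.L ≅ M'.L)) ∧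
    ∀ ξ : ∀ (A : Type u) [CommRing A] [Algebra k A], SchemeHomOver (specT k A) t → Cls F.X A,
      (∀ {A A' : Type u} [CommRing A] [Algebra k A] [CommRing A'] [Algebra k A']
        (φ : A →ₐ[k] A') (p : SchemeHomOver (specT k A) t),
          ξ A' (postComp p (specHom φ)) = Δ.map φ (ξ A p)) →
      ∃ M : RigidifiedLineBundle c ε t,
        ∀ (A : Type u) [CommRing A] [Algebra k A] (p : SchemeHomOver (specT k A) t),
          Δ.cls A (M.pullbackAlong p) = ξ A p

/-- Classes of degree zero at every geometric point. -/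
def Cls.IsZero {X : Charts k} {A : Type u} [CommRing A] [Algebra k A] (x : Cls X A) : Prop :=
  ∃ L : RigDatum X A, Quot.mk _ L = x ∧ L.1.IsDegZero

/-- A scheme representing the classes of degree zero. -/
structure Rep {F : Frame c ε} (Δ : Dict F) where
  D : RelativePic0Designation k c
  lft : LocallyOfFiniteType D.toBase
  η : ∀ (A : Type u) [CommRing A] [Algebra k A], SchemeHomOver (specT k A) D.toBase → Cls F.X A
  η_injective : ∀ (A : Type u) [CommRing A] [Algebra k A], Function.Injective (η A)
  η_zero : ∀ (A : Type u) [CommRing A] [Algebra k A] (p : SchemeHomOver (specT k A) D.toBase),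
    (η A p).IsZero
  η_surj : ∀ (A : Type u) [CommRing A] [Algebra k A] (x : Cls F.X A), x.IsZero → ∃ p, η A p = x
  η_map : ∀ {A A' : Type u} [CommRing A] [Algebra k A] [CommRing A'] [Algebra k A']
    (φ : A →ₐ[k] A') (p : SchemeHomOver (specT k A) D.toBase),
      η A' (postComp p (specHom φ)) = Δ.map φ (η A p)
  η_base : ∀ (A : Type u) [CommRing A] [Algebra k A],
    ∃ h, η A ⟨specT k A ≫ D.zeroSection, by
      rw [Category.assoc, D.zeroSection_toBase, Category.comp_id]⟩ =
        Quot.mk _ ⟨Datum.one F.X A, h⟩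

/-- Layers B, C, D: representability. -/
def TargetRep : Prop :=
  ∀ {k : Type u} [Field k] [IsAlgClosed k] {C : Scheme.{u}} {c : C ⟶ Spec (CommRingCat.of k)}
    [IsProper c] [SmoothOfRelativeDimension 1 c] [IsIntegral C]
    {ε : SchemeHomOver (𝟙 (Spec (CommRingCat.of k))) c} (F : Frame c ε) (Δ : Dict F),
    Nonempty (Rep Δ)

/-- Layer E: geometric properties of a representing scheme. -/
def TargetProps : Prop :=
  ∀ {k : Type u} [Field k] [IsAlgClosed k] {C : Scheme.{u}} {c : C ⟶ Spec (CommRingCat.of k)}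
    [IsProper c] [SmoothOfRelativeDimension 1 c] [IsIntegral C]
    {ε : SchemeHomOver (𝟙 (Spec (CommRingCat.of k))) c} {F : Frame c ε} {Δ : Dict F} (R : Rep Δ),
    Smooth R.D.toBase ∧ IsProper R.D.toBase ∧ GeometricallyConnected R.D.toBase ∧
      GeometricallyIntegral R.D.toBase

/-- Layer G: algebraic equivalence to zero on the fibres is degree zero. -/
def TargetDegree : Prop :=
  ∀ {k : Type u} [Field k] [IsAlgClosed k] {C : Scheme.{u}} {c : C ⟶ Spec (CommRingCat.of k)}
    [IsProper c] [SmoothOfRelativeDimension 1 c] [IsIntegral C]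
    {ε : SchemeHomOver (𝟙 (Spec (CommRingCat.of k))) c} {F : Frame c ε} {Δ : Dict F} (R : Rep Δ),
    Smooth R.D.toBase → IsProper R.D.toBase → GeometricallyConnected R.D.toBase →
    GeometricallyIntegral R.D.toBase →
    ∀ {T : Scheme.{u}} (t : T ⟶ Spec (CommRingCat.of k)) (M : RigidifiedLineBundle c ε t),
      FibrewiseAlgEquivZero M ↔
        ∀ (A : Type u) [CommRing A] [Algebra k A] (p : SchemeHomOver (specT k A) t),
          (Δ.cls A (M.pullbackAlong p)).IsZero

end FLTAgent.PicScheme
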