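import Fermat.Agent.PicScheme.Tensor

/-!
# The group of classes of rigidifiable data
-/

set_option autoImplicit false

noncomputable section

universe u

open TensorProduct Matrix
open scoped TensorProduct Kronecker

namespace FLTAgent.PicScheme

variable {k : Type u} [Field k] {X : Charts k} {A A' : Type u}
  [CommRing A] [Algebra k A] [CommRing A'] [Algebra k A']

namespace Datum

theorem u_cutLeft (L : Datum X A) : L.e₂.map (X.res₂ A) * L.u = L.u := by
  rw [← L.uv, Matrix.mul_assoc, L.vu, L.u_cut]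

theorem v_cutLeft (L : Datum X A) : L.e₁.map (X.res₁ A) * L.v = L.v := by
  rw [← L.vu, Matrix.mul_assoc, L.uv, L.v_cut]

/-- Data differing by numberings of the rows are isomorphic. -/
def isoOfEquiv (L L' : Datum X A) (σ : Fin L.n₁ ≃ Fin L'.n₁) (τ : Fin L.n₂ ≃ Fin L'.n₂)
    (h₁ : ∀ i j, L'.e₁ (σ i) (σ j) = L.e₁ i j) (h₂ : ∀ i j, L'.e₂ (τ i) (τ j) = L.e₂ i j)
    (hu : ∀ i j, L'.u (τ i) (σ j) = L.u i j) : Iso L L' where
  a₁ := L.e₁.submatrix σ.symm id
  b₁ := L.e₁.submatrix id σ.symm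
  a₂ := L.e₂.submatrix τ.symm id
  b₂ := L.e₂.submatrix id τ.symm
  ab₁ := by
    rw [← Matrix.submatrix_mul _ _ _ _ _ Function.bijective_id, L.rank₁.idem]
    ext i j
    rw [Matrix.submatrix_apply, ← h₁, Equiv.apply_symm_apply, Equiv.apply_symm_apply]
  ba₁ := by
    rw [← Matrix.submatrix_mul _ _ _ _ _ σ.symm.bijective, L.rank₁.idem, Matrix.submatrix_id_id]
  ab₂ := by
    rw [← Matrix.submatrix_mul _ _ _ _ _ Function.bijective_id, L.rank₂.idem]
    ext i j
    rw [Matrix.submatrix_apply, ← h₂, Equiv.apply_symm_apply, Equiv.apply_symm_apply]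
  ba₂ := by
    rw [← Matrix.submatrix_mul _ _ _ _ _ τ.symm.bijective, L.rank₂.idem, Matrix.submatrix_id_id]
  compat := by
    have e : L'.u = L.u.submatrix τ.symm σ.symm := by
      ext i j
      rw [Matrix.submatrix_apply, ← hu, Equiv.apply_symm_apply, Equiv.apply_symm_apply]
    rw [e, ← Matrix.submatrix_map, ← Matrix.submatrix_map,
      ← Matrix.submatrix_mul _ _ _ _ _ σ.symm.bijective, L.u_cut]
    conv_lhs => rw [← Matrix.submatrix_id_id (L.e₁.map (X.res₁ A))]
    rw [← Matrix.submatrix_mul _ _ _ _ _ Function.bijective_id, L.u_cut]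
    conv_rhs => rw [← Matrix.submatrix_id_id L.u]
    rw [← Matrix.submatrix_mul _ _ _ _ _ Function.bijective_id, L.u_cutLeft]

/-- The numbering of a commuted product. -/
def swapEquiv (a b : ℕ) : Fin (a * b) ≃ Fin (b * a) :=
  finProdFinEquiv.symm.trans ((Equiv.prodComm _ _).trans finProdFinEquiv)

theorem swapEquiv_apply {a b : ℕ} (i : Fin a) (j : Fin b) :
    swapEquiv a b (finProdFinEquiv (i, j)) = finProdFinEquiv (j, i) := by
  rw [swapEquiv, Equiv.trans_apply, Equiv.symm_apply_apply, Equiv.trans_apply, Equiv.prodComm_apply,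
    Prod.swap_prod_mk]

theorem kr_comm {R : Type*} [CommRing R] {a b a' b' : ℕ} (M : Matrix (Fin a) (Fin a') R)
    (N : Matrix (Fin b) (Fin b') R) (x : Fin (a * b)) (y : Fin (a' * b')) :
    kr N M (swapEquiv a b x) (swapEquiv a' b' y) = kr M N x y := by
  obtain ⟨⟨i, j⟩, rfl⟩ := finProdFinEquiv.surjective x
  obtain ⟨⟨i', j'⟩, rfl⟩ := finProdFinEquiv.surjective y
  rw [swapEquiv_apply, swapEquiv_apply, kr_apply, kr_apply, mul_comm]

/-- The product is commutative. -/
def tensorCommIso (L M : Datum X A) : Iso (L.tensor M) (M.tensor L) :=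
  isoOfEquiv _ _ (swapEquiv L.n₁ M.n₁) (swapEquiv L.n₂ M.n₂)
    (fun i j => kr_comm L.e₁ M.e₁ i j) (fun i j => kr_comm L.e₂ M.e₂ i j)
    (fun i j => kr_comm L.u M.u i j)

/-- The numbering of a triple product. -/
def assocEquiv (a b c : ℕ) : Fin (a * b * c) ≃ Fin (a * (b * c)) :=
  finProdFinEquiv.symm.trans ((Equiv.prodCongr finProdFinEquiv.symm (Equiv.refl _)).trans
    ((Equiv.prodAssoc _ _ _).trans
      ((Equiv.prodCongr (Equiv.refl _) finProdFinEquiv).trans finProdFinEquiv)))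

theorem assocEquiv_apply {a b c : ℕ} (i : Fin a) (j : Fin b) (l : Fin c) :
    assocEquiv a b c (finProdFinEquiv (finProdFinEquiv (i, j), l)) =
      finProdFinEquiv (i, finProdFinEquiv (j, l)) := by
  simp [assocEquiv]

theorem kr_assoc {R : Type*} [CommRing R] {a b c a' b' c' : ℕ}
    (M : Matrix (Fin a) (Fin a') R) (N : Matrix (Fin b) (Fin b') R)
    (P : Matrix (Fin c) (Fin c') R) (x : Fin (a * b * c)) (y : Fin (a' * b' * c')) :
    kr M (kr N P) (assocEquiv a b c x) (assocEquiv a' b' c' y) = kr (kr M N) P x y := by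
  obtain ⟨⟨x, l⟩, rfl⟩ := finProdFinEquiv.surjective x
  obtain ⟨⟨i, j⟩, rfl⟩ := finProdFinEquiv.surjective x
  obtain ⟨⟨y, l'⟩, rfl⟩ := finProdFinEquiv.surjective y
  obtain ⟨⟨i', j'⟩, rfl⟩ := finProdFinEquiv.surjective y
  simp [assocEquiv_apply, mul_assoc]

/-- The product is associative. -/
def tensorAssocIso (L M N : Datum X A) : Iso ((L.tensor M).tensor N) (L.tensor (M.tensor N)) :=
  isoOfEquiv _ _ (assocEquiv L.n₁ M.n₁ N.n₁) (assocEquiv L.n₂ M.n₂ N.n₂)
    (fun i j => kr_assoc L.e₁ M.e₁ N.e₁ i j) (fun i j => kr_assoc L.e₂ M.e₂ N.e₂ i j)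
    (fun i j => kr_assoc L.u M.u N.u i j)

theorem kr_one_left {R : Type*} [CommRing R] {a a' : ℕ} (M : Matrix (Fin a) (Fin a') R)
    (i : Fin (1 * a)) (j : Fin (1 * a')) :
    M (finCongr (one_mul a) i) (finCongr (one_mul a') j) =
      kr (1 : Matrix (Fin 1) (Fin 1) R) M i j := by
  obtain ⟨⟨o, i⟩, rfl⟩ := finProdFinEquiv.surjective i
  obtain ⟨⟨o', j⟩, rfl⟩ := finProdFinEquiv.surjective j
  obtain rfl : o = 0 := Subsingleton.elim _ _
  obtain rfl : o' = 0 := Subsingleton.elim _ _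
  refine Eq.trans ?_ (kr_apply (1 : Matrix (Fin 1) (Fin 1) R) M 0 i 0 j).symm
  refine Eq.trans ?_ ((congrArg (· * M i j) (Matrix.one_apply_eq 0)).trans (one_mul _)).symm
  congr 1 <;> ext <;> simp

/-- The trivial datum is neutral. -/
def oneTensorIso (L : Datum X A) : Iso ((Datum.one X A).tensor L) L :=
  isoOfEquiv _ _ (finCongr (one_mul L.n₁)) (finCongr (one_mul L.n₂))
    (fun i j => kr_one_left L.e₁ i j) (fun i j => kr_one_left L.e₂ i j)
    (fun i j => kr_one_left L.u i j)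

/-- Isomorphisms respect inverses. -/
def Iso.dual {L L' : Datum X A} (φ : Iso L L') : Iso L.dual L'.dual where
  a₁ := φ.b₁.transpose
  b₁ := φ.a₁.transpose
  a₂ := φ.b₂.transpose
  b₂ := φ.a₂.transpose
  ab₁ := (Matrix.transpose_mul _ _).symm.trans (congrArg Matrix.transpose φ.ab₁)
  ba₁ := (Matrix.transpose_mul _ _).symm.trans (congrArg Matrix.transpose φ.ba₁)
  ab₂ := (Matrix.transpose_mul _ _).symm.trans (congrArg Matrix.transpose φ.ab₂)
  ba₂ := (Matrix.transpose_mul _ _).symm.trans (congrArg Matrix.transpose φ.ba₂)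
  compat := by
    show L'.v.transpose * φ.b₁.transpose.map (X.res₁ A) * L.e₁.transpose.map (X.res₁ A) =
      φ.b₂.transpose.map (X.res₂ A) * L.v.transpose
    rw [Matrix.transpose_map, Matrix.transpose_map, Matrix.transpose_map, ← Matrix.transpose_mul,
      ← Matrix.transpose_mul, ← Matrix.transpose_mul]
    refine congrArg Matrix.transpose ?_
    set r₁ := X.res₁ A
    set r₂ := X.res₂ A
    have hb : φ.b₂.map r₂ * L'.e₂.map r₂ = L.e₂.map r₂ * φ.b₂.map r₂ := by
      rw [← Matrix.map_mul, ← Matrix.map_mul, ← φ.ab₂, ← φ.ba₂, Matrix.mul_assoc]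
    have h := congrArg (fun M => L.v * M * L'.v) φ.symm.compat
    change L.v * (L.u * φ.b₁.map r₁ * L'.e₁.map r₁) * L'.v =
      L.v * (φ.b₂.map r₂ * L'.u) * L'.v at h
    simp only [← Matrix.mul_assoc] at h
    rw [L.vu, Matrix.mul_assoc _ (L'.e₁.map r₁), L'.v_cutLeft, Matrix.mul_assoc _ L'.u, L'.uv,
      Matrix.mul_assoc L.v, hb, ← Matrix.mul_assoc, L.v_cut] at h
    rw [← Matrix.mul_assoc]
    exact h

theorem one_isRigidifiable : (Datum.one X A).IsRigidifiable :=
  ⟨fun _ => 1, fun _ => 1, by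
    show ∑ _x : Fin 1, (1 : A) * 1 = 1
    simp, Matrix.ext fun i j => (((congrArg (Algebra.TensorProduct.lift (AlgHom.id A A)
      ((Algebra.ofId k A).comp X.pt) (fun _ _ => Commute.all _ _)) ((congrArg ((1 : Matrix (Fin 1) (Fin 1) (X.R₁ A)) i)
      (Subsingleton.elim (α := Fin 1) i j).symm).trans (Matrix.one_apply_eq i))).trans
        (map_one _)).trans (one_mul (1 : A)).symm)⟩

theorem IsRigidifiable.dual {L : Datum X A} (h : L.IsRigidifiable) : L.dual.IsRigidifiable := by
  obtain ⟨a, b, hab, he⟩ := h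
  refine ⟨b, a, (dotProduct_comm _ _).trans hab, ?_⟩
  show L.e₁.transpose.map _ = _
  rw [Matrix.transpose_map, he, Matrix.transpose_vecMulVec]
  rfl

theorem IsRigidifiable.tensor {L M : Datum X A} (h : L.IsRigidifiable) (h' : M.IsRigidifiable) :
    (L.tensor M).IsRigidifiable := by
  obtain ⟨a, b, hab, he⟩ := h
  obtain ⟨a', b', hab', he'⟩ := h'
  refine ⟨fun x => a (finProdFinEquiv.symm x).1 * a' (finProdFinEquiv.symm x).2,
    fun x => b (finProdFinEquiv.symm x).1 * b' (finProdFinEquiv.symm x).2, ?_, ?_⟩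
  · show ∑ x : Fin (L.n₁ * M.n₁), _ = (1 : A)
    rw [← finProdFinEquiv.sum_comp, Fintype.sum_prod_type]
    refine Eq.trans (b := (b ⬝ᵥ a) * (b' ⬝ᵥ a')) ?_ (by rw [hab, hab', one_mul])
    simp only [dotProduct, Finset.sum_mul_sum, Equiv.symm_apply_apply]
    exact Finset.sum_congr rfl fun i _ => Finset.sum_congr rfl fun j _ => by ring
  · show (kr L.e₁ M.e₁).map _ = _
    rw [kr_map, he, he']
    ext x y
    obtain ⟨⟨i, i'⟩, rfl⟩ := finProdFinEquiv.surjective x
    obtain ⟨⟨j, j'⟩, rfl⟩ := finProdFinEquiv.surjective y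
    simp only [kr_apply, Matrix.vecMulVec_apply]
    show _ = a (finProdFinEquiv.symm (finProdFinEquiv (i, i'))).1 *
      a' (finProdFinEquiv.symm (finProdFinEquiv (i, i'))).2 *
      (b (finProdFinEquiv.symm (finProdFinEquiv (j, j'))).1 *
        b' (finProdFinEquiv.symm (finProdFinEquiv (j, j'))).2)
    simp only [Equiv.symm_apply_apply]
    ring

theorem map_one' (f : A →ₐ[k] A') : (Datum.one X A).map f = Datum.one X A' := by
  simp [Datum.map, Datum.one]

end Datum

namespace Cls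

instance : One (Cls X A) := ⟨Quot.mk _ ⟨Datum.one X A, Datum.one_isRigidifiable⟩⟩

instance : Mul (Cls X A) :=
  ⟨Quot.map₂ (fun L M => ⟨L.1.tensor M.1, L.2.tensor M.2⟩)
    (fun L _ _ h => ⟨(Datum.Iso.refl L.1).tensor h.some⟩)
    (fun _ _ M h => ⟨h.some.tensor (Datum.Iso.refl M.1)⟩)⟩

instance : Inv (Cls X A) :=
  ⟨Quot.map (fun L => ⟨L.1.dual, L.2.dual⟩) fun _ _ h => ⟨h.some.dual⟩⟩

/-- The class of a rigidifiable datum. -/
def of (L : RigDatum X A) : Cls X A := Quot.mk _ L

theorem one_eq : (1 : Cls X A) = Quot.mk _ ⟨Datum.one X A, Datum.one_isRigidifiable⟩ := rfl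

theorem of_mul (L M : RigDatum X A) :
    Cls.of L * Cls.of M = Quot.mk _ ⟨L.1.tensor M.1, L.2.tensor M.2⟩ := rfl

theorem of_inv (L : RigDatum X A) : (Cls.of L)⁻¹ = Quot.mk _ ⟨L.1.dual, L.2.dual⟩ := rfl

instance : CommGroup (Cls X A) where
  mul_assoc x y z := by
    induction x using Quot.ind; induction y using Quot.ind; induction z using Quot.ind
    exact Quot.sound ⟨Datum.tensorAssocIso _ _ _⟩
  one_mul x := by
    induction x using Quot.ind
    exact Quot.sound ⟨Datum.oneTensorIso _⟩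
  mul_one x := by
    induction x using Quot.ind
    exact Quot.sound ⟨(Datum.tensorCommIso _ _).trans (Datum.oneTensorIso _)⟩
  inv_mul_cancel x := by
    induction x using Quot.ind
    exact Quot.sound ⟨(Datum.tensorCommIso _ _).trans (Datum.tensorDualIso _)⟩
  mul_comm x y := by
    induction x using Quot.ind; induction y using Quot.ind
    exact Quot.sound ⟨Datum.tensorCommIso _ _⟩

theorem map_one (f : A →ₐ[k] A') : Cls.map f (1 : Cls X A) = 1 :=
  congrArg (Quot.mk _) (Subtype.ext (Datum.map_one' f))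

theorem map_mul (f : A →ₐ[k] A') (x y : Cls X A) :
    Cls.map f (x * y) = Cls.map f x * Cls.map f y := by
  induction x using Quot.ind; induction y using Quot.ind
  exact congrArg (Quot.mk _) (Subtype.ext (Datum.map_tensor _ _ f))

theorem map_inv (f : A →ₐ[k] A') (x : Cls X A) : Cls.map f x⁻¹ = (Cls.map f x)⁻¹ := by
  induction x using Quot.ind
  exact congrArg (Quot.mk _) (Subtype.ext (Datum.map_dual _ f))

/-- Base change of classes as a homomorphism. -/
def mapHom (f : A →ₐ[k] A') : Cls X A →* Cls X A' where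
  toFun := Cls.map f
  map_one' := Cls.map_one f
  map_mul' := Cls.map_mul f

end Cls

end FLTAgent.PicScheme
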