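import Fermat.Agent.PicScheme.Datum

/-!
# Isomorphisms, base change and products of data
-/

set_option autoImplicit false

noncomputable section

universe u

open TensorProduct Matrix
open scoped TensorProduct Kronecker

namespace FLTAgent.PicScheme

variable {k : Type u} [Field k] {X : Charts k} {A A' A'' : Type u}
  [CommRing A] [Algebra k A] [CommRing A'] [Algebra k A'] [CommRing A''] [Algebra k A'']

/-- A rank one idempotent absorbs matrices between images. -/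
theorem IsRankOne.mul_mul {R : Type*} [CommRing R] {n m : ℕ} {e : Matrix (Fin n) (Fin n) R}
    (h : IsRankOne e) (a : Matrix (Fin m) (Fin n) R) : a * e * e = a * e := by
  rw [Matrix.mul_assoc, h.idem]

namespace Datum

namespace Iso

variable {L L' L'' : Datum X A}

/-- An isomorphism with its matrices cut down to the images. -/
theorem cut₁ (φ : Iso L L') : L'.e₁ * φ.a₁ * L.e₁ = φ.a₁ * L.e₁ := by
  rw [← φ.ab₁, Matrix.mul_assoc φ.a₁, φ.ba₁, Matrix.mul_assoc, L.rank₁.idem]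

theorem cut₂ (φ : Iso L L') : L'.e₂ * φ.a₂ * L.e₂ = φ.a₂ * L.e₂ := by
  rw [← φ.ab₂, Matrix.mul_assoc φ.a₂, φ.ba₂, Matrix.mul_assoc, L.rank₂.idem]

/-- The identity. -/
def refl (L : Datum X A) : Iso L L where
  a₁ := L.e₁
  b₁ := L.e₁
  a₂ := L.e₂
  b₂ := L.e₂
  ab₁ := L.rank₁.idem
  ba₁ := L.rank₁.idem
  ab₂ := L.rank₂.idem
  ba₂ := L.rank₂.idem
  compat := by
    rw [L.u_cut, L.u_cut, ← L.uv, Matrix.mul_assoc, L.vu, L.u_cut]

/-- The inverse. -/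
def symm (φ : Iso L L') : Iso L' L where
  a₁ := φ.b₁
  b₁ := φ.a₁
  a₂ := φ.b₂
  b₂ := φ.a₂
  ab₁ := φ.ba₁
  ba₁ := φ.ab₁
  ab₂ := φ.ba₂
  ba₂ := φ.ab₂
  compat := by
    set r₁ := X.res₁ A
    set r₂ := X.res₂ A
    have hab : φ.a₁.map r₁ * φ.b₁.map r₁ = L'.e₁.map r₁ := by rw [← Matrix.map_mul, φ.ab₁]
    have hba : φ.b₂.map r₂ * φ.a₂.map r₂ = L.e₂.map r₂ := by rw [← Matrix.map_mul, φ.ba₂]
    have hc : L.e₁.map r₁ * φ.b₁.map r₁ * L'.e₁.map r₁ = φ.b₁.map r₁ * L'.e₁.map r₁ := by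
      rw [← Matrix.map_mul, ← Matrix.map_mul, ← Matrix.map_mul, ← φ.ba₁, Matrix.mul_assoc φ.b₁,
        φ.ab₁, Matrix.mul_assoc, L'.rank₁.idem]
    have he : L'.e₂.map r₂ * L'.u = L'.u := by
      rw [← L'.uv, Matrix.mul_assoc, L'.vu, L'.u_cut]
    have h := congrArg (fun M => φ.b₂.map r₂ * M * (φ.b₁.map r₁ * L'.e₁.map r₁)) φ.compat
    simp only [← Matrix.mul_assoc] at h
    rw [hba] at h
    have hl : L.e₂.map r₂ * L.u = L.u := by rw [← L.uv, Matrix.mul_assoc, L.vu, L.u_cut]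
    rw [hl] at h
    rw [← h]
    simp only [Matrix.mul_assoc]
    rw [← Matrix.mul_assoc (L.e₁.map r₁), hc, ← Matrix.mul_assoc (φ.a₁.map r₁), hab,
      ← Matrix.map_mul, L'.rank₁.idem, L'.u_cut]

/-- The composite. -/
def trans (φ : Iso L L') (ψ : Iso L' L'') : Iso L L'' where
  a₁ := ψ.a₁ * L'.e₁ * φ.a₁
  b₁ := φ.b₁ * L'.e₁ * ψ.b₁
  a₂ := ψ.a₂ * L'.e₂ * φ.a₂
  b₂ := φ.b₂ * L'.e₂ * ψ.b₂
  ab₁ := by
    calc ψ.a₁ * L'.e₁ * φ.a₁ * (φ.b₁ * L'.e₁ * ψ.b₁)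
        = ψ.a₁ * L'.e₁ * (φ.a₁ * φ.b₁) * L'.e₁ * ψ.b₁ := by simp only [Matrix.mul_assoc]
      _ = ψ.a₁ * ψ.b₁ * (ψ.a₁ * ψ.b₁) := by
        rw [φ.ab₁, L'.rank₁.mul_mul, L'.rank₁.mul_mul, ← ψ.ba₁]; simp only [Matrix.mul_assoc]
      _ = L''.e₁ := by rw [ψ.ab₁, L''.rank₁.idem]
  ba₁ := by
    calc φ.b₁ * L'.e₁ * ψ.b₁ * (ψ.a₁ * L'.e₁ * φ.a₁)
        = φ.b₁ * L'.e₁ * (ψ.b₁ * ψ.a₁) * L'.e₁ * φ.a₁ := by simp only [Matrix.mul_assoc]
      _ = φ.b₁ * φ.a₁ * (φ.b₁ * φ.a₁) := by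
        rw [ψ.ba₁, L'.rank₁.mul_mul, L'.rank₁.mul_mul, ← φ.ab₁]; simp only [Matrix.mul_assoc]
      _ = L.e₁ := by rw [φ.ba₁, L.rank₁.idem]
  ab₂ := by
    calc ψ.a₂ * L'.e₂ * φ.a₂ * (φ.b₂ * L'.e₂ * ψ.b₂)
        = ψ.a₂ * L'.e₂ * (φ.a₂ * φ.b₂) * L'.e₂ * ψ.b₂ := by simp only [Matrix.mul_assoc]
      _ = ψ.a₂ * ψ.b₂ * (ψ.a₂ * ψ.b₂) := by
        rw [φ.ab₂, L'.rank₂.mul_mul, L'.rank₂.mul_mul, ← ψ.ba₂]; simp only [Matrix.mul_assoc]
      _ = L''.e₂ := by rw [ψ.ab₂, L''.rank₂.idem]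
  ba₂ := by
    calc φ.b₂ * L'.e₂ * ψ.b₂ * (ψ.a₂ * L'.e₂ * φ.a₂)
        = φ.b₂ * L'.e₂ * (ψ.b₂ * ψ.a₂) * L'.e₂ * φ.a₂ := by simp only [Matrix.mul_assoc]
      _ = φ.b₂ * φ.a₂ * (φ.b₂ * φ.a₂) := by
        rw [ψ.ba₂, L'.rank₂.mul_mul, L'.rank₂.mul_mul, ← φ.ab₂]; simp only [Matrix.mul_assoc]
      _ = L.e₂ := by rw [φ.ba₂, L.rank₂.idem]
  compat := by
    set r₁ := X.res₁ A
    set r₂ := X.res₂ A
    have hcut : L'.e₁.map r₁ * φ.a₁.map r₁ * L.e₁.map r₁ = φ.a₁.map r₁ * L.e₁.map r₁ := by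
      rw [← Matrix.map_mul, ← Matrix.map_mul, φ.cut₁, Matrix.map_mul]
    have hu : L'.e₂.map r₂ * L'.u = L'.u := by rw [← L'.uv, Matrix.mul_assoc, L'.vu, L'.u_cut]
    simp only [Matrix.map_mul]
    calc L''.u * (ψ.a₁.map r₁ * L'.e₁.map r₁ * φ.a₁.map r₁) * L.e₁.map r₁
        = L''.u * ψ.a₁.map r₁ * L'.e₁.map r₁ * (φ.a₁.map r₁ * L.e₁.map r₁) := by
          simp only [Matrix.mul_assoc]
      _ = ψ.a₂.map r₂ * (L'.u * φ.a₁.map r₁ * L.e₁.map r₁) := by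
        rw [ψ.compat]; simp only [Matrix.mul_assoc]; rfl
      _ = ψ.a₂.map r₂ * (L'.e₂.map r₂ * L'.u * φ.a₁.map r₁ * L.e₁.map r₁) := by rw [hu]
      _ = ψ.a₂.map r₂ * L'.e₂.map r₂ * φ.a₂.map r₂ * L.u := by
        rw [Matrix.mul_assoc (L'.e₂.map r₂) L'.u, Matrix.mul_assoc (L'.e₂.map r₂), φ.compat]
        simp only [Matrix.mul_assoc]
        rfl

/-- Base change of an isomorphism. -/
def map (φ : Iso L L') (f : A →ₐ[k] A') : Iso (L.map f) (L'.map f) where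
  a₁ := φ.a₁.map (chartMap X.B₁ f)
  b₁ := φ.b₁.map (chartMap X.B₁ f)
  a₂ := φ.a₂.map (chartMap X.B₂ f)
  b₂ := φ.b₂.map (chartMap X.B₂ f)
  ab₁ := (Matrix.map_mul (f := chartMap X.B₁ f)).symm.trans (congrArg (fun M => M.map (chartMap X.B₁ f)) φ.ab₁)
  ba₁ := (Matrix.map_mul (f := chartMap X.B₁ f)).symm.trans (congrArg (fun M => M.map (chartMap X.B₁ f)) φ.ba₁)
  ab₂ := (Matrix.map_mul (f := chartMap X.B₂ f)).symm.trans (congrArg (fun M => M.map (chartMap X.B₂ f)) φ.ab₂)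
  ba₂ := (Matrix.map_mul (f := chartMap X.B₂ f)).symm.trans (congrArg (fun M => M.map (chartMap X.B₂ f)) φ.ba₂)
  compat := by
    have h := congrArg (fun M => M.map (chartMap X.B₀ f)) φ.compat
    simp only [Matrix.map_mul, Matrix.map_map] at h
    have e₁ : ∀ {n m : ℕ} (M : Matrix (Fin n) (Fin m) (X.R₁ A)),
        M.map (X.res₁ A' ∘ chartMap X.B₁ f) = M.map (chartMap X.B₀ f ∘ X.res₁ A) :=
      fun M => Matrix.ext fun i j => (chartMap_res₁ f _).symm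
    have e₂ : ∀ {n m : ℕ} (M : Matrix (Fin n) (Fin m) (X.R₂ A)),
        M.map (X.res₂ A' ∘ chartMap X.B₂ f) = M.map (chartMap X.B₀ f ∘ X.res₂ A) :=
      fun M => Matrix.ext fun i j => (chartMap_res₂ f _).symm
    rw [← e₁, ← e₁, ← e₂] at h
    simp only [← Matrix.map_map] at h
    exact h

end Iso

theorem chartMap_id (B : Type u) [CommRing B] [Algebra k B] :
    chartMap B (AlgHom.id k A) = AlgHom.id k (A ⊗[k] B) :=
  Algebra.TensorProduct.map_id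

theorem chartMap_comp (B : Type u) [CommRing B] [Algebra k B] (f : A →ₐ[k] A') (g : A' →ₐ[k] A'') :
    chartMap B (g.comp f) = (chartMap B g).comp (chartMap B f) :=
  Algebra.TensorProduct.ext' fun a b => by simp [chartMap]

theorem map_id (L : Datum X A) : L.map (AlgHom.id k A) = L := by
  cases L
  simp only [Datum.map, chartMap_id]
  congr 1 <;> exact Matrix.ext fun i j => rfl

theorem map_comp (L : Datum X A) (f : A →ₐ[k] A') (g : A' →ₐ[k] A'') :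
    L.map (g.comp f) = (L.map f).map g := by
  cases L
  simp only [Datum.map, chartMap_comp, Matrix.map_map]
  rfl

theorem IsRigidifiable.map {L : Datum X A} (h : L.IsRigidifiable) (f : A →ₐ[k] A') :
    (L.map f).IsRigidifiable := by
  obtain ⟨a, b, hab, he⟩ := h
  refine ⟨f ∘ a, f ∘ b, ?_, ?_⟩
  · have := congrArg f hab
    exact (RingHom.map_dotProduct f.toRingHom b a).symm.trans (this.trans (map_one f))
  · have hsq : ∀ x, Algebra.TensorProduct.lift (AlgHom.id A' A') ((Algebra.ofId k A').comp X.pt)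
        (fun _ _ => Commute.all _ _) (chartMap X.B₁ f x) =
        f (Algebra.TensorProduct.lift (AlgHom.id A A) ((Algebra.ofId k A).comp X.pt)
          (fun _ _ => Commute.all _ _) x) := fun x => by
      induction x using TensorProduct.induction_on with
      | zero => simp
      | tmul a b => simp [chartMap, Algebra.ofId_apply]
      | add a b ha hb => simp [ha, hb]
    refine Matrix.ext fun i j => ?_
    show _ = f (a i) * f (b j)
    rw [← map_mul]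
    exact (hsq _).trans (congrArg f (congrFun (congrFun he i) j))

end Datum

/-- Base change of classes. -/
def Cls.map (f : A →ₐ[k] A') : Cls X A → Cls X A' :=
  Quot.map (fun L => ⟨L.1.map f, L.2.map f⟩) fun _ _ h => ⟨h.some.map f⟩

theorem Cls.map_id (x : Cls X A) : Cls.map (AlgHom.id k A) x = x := by
  induction x using Quot.ind with
  | _ L => exact congrArg (Quot.mk _) (Subtype.ext L.1.map_id)

theorem Cls.map_comp (f : A →ₐ[k] A') (g : A' →ₐ[k] A'') (x : Cls X A) :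
    Cls.map (g.comp f) x = Cls.map g (Cls.map f x) := by
  induction x using Quot.ind with
  | _ L => exact congrArg (Quot.mk _) (Subtype.ext (L.1.map_comp f g))

theorem Cls.mk_eq_iff {L L' : RigDatum X A} :
    (Quot.mk _ L : Cls X A) = Quot.mk _ L' ↔ Nonempty (Datum.Iso L.1 L'.1) := by
  refine ⟨fun h => ?_, fun h => Quot.sound h⟩
  have key : ∀ {a b}, Relation.EqvGen (fun L L' : RigDatum X A => Nonempty (Datum.Iso L.1 L'.1)) a b →
      Nonempty (Datum.Iso a.1 b.1) := by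
    intro a b hab
    induction hab with
    | rel _ _ h => exact h
    | refl x => exact ⟨Datum.Iso.refl _⟩
    | symm _ _ _ ih => exact ⟨ih.some.symm⟩
    | trans _ _ _ _ _ ih ih' => exact ⟨ih.some.trans ih'.some⟩
  exact key (Quot.eqvGen_exact h)

end FLTAgent.PicScheme
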