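import Fermat.Agent.PicScheme.Interface

/-!
# The Picard scheme of degree zero from its layers
-/

set_option autoImplicit false
set_option linter.checkUnivs false
set_option linter.style.haveILetI false

noncomputable section

universe u

open CategoryTheory CategoryTheory.Limits AlgebraicGeometry AlgebraicGeometry.RelPicard
  NeronModelInfra GoodReductionJacobian

namespace FLTAgent.PicScheme

variable {k : Type u} [Field k] {C : Scheme.{u}} {c : C ⟶ Spec (CommRingCat.of k)}
  {ε : SchemeHomOver (𝟙 (Spec (CommRingCat.of k))) c}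

/-- Bundles pulled back along a composite. -/
theorem pullbackAlong_comp {X T T' : Scheme.{u}} {x : X ⟶ Spec (CommRingCat.of k)}
    {t : T ⟶ Spec (CommRingCat.of k)} {t' : T' ⟶ Spec (CommRingCat.of k)}
    (M : RigidifiedLineBundle c ε x) (g : SchemeHomOver t x) (p : SchemeHomOver t' t) :
    Nonempty (((M.pullbackAlong g).pullbackAlong p).L ≅ (M.pullbackAlong (postComp g p)).L) :=
  ⟨(Scheme.Modules.pullbackComp _ _).app M.L ≪≫
    (Scheme.Modules.pullbackCongr (baseChangeSnd_comp c g p)).app M.L⟩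

/-- An affine open as a point over the base. -/
theorem exists_algebra_point {T : Scheme.{u}} (t : T ⟶ Spec (CommRingCat.of k)) {U : T.Opens}
    (hU : IsAffineOpen U) :
    ∃ (inst : Algebra k Γ(T, U)), hU.fromSpec ≫ t = @specT k _ Γ(T, U) _ inst := by
  obtain ⟨φ, hφ⟩ := Spec.map_surjective (hU.fromSpec ≫ t)
  exact ⟨φ.hom.toAlgebra, hφ.symm⟩

/-- Morphisms to a representing scheme are determined by their classes at affine points. -/
theorem Rep.hom_ext {F : Frame c ε} {Δ : Dict F} (R : Rep Δ) {T : Scheme.{u}}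
    (t : T ⟶ Spec (CommRingCat.of k)) {g g' : T ⟶ R.D.P} (hg : g ≫ R.D.toBase = t)
    (hg' : g' ≫ R.D.toBase = t)
    (h : ∀ (A : Type u) [CommRing A] [Algebra k A] (p : SchemeHomOver (specT k A) t),
      R.η A (postComp ⟨g, hg⟩ p) = R.η A (postComp ⟨g', hg'⟩ p)) : g = g' := by
  refine Scheme.Cover.hom_ext T.affineCover _ _ fun i => ?_
  obtain ⟨A, hA⟩ : ∃ A : CommRingCat.{u}, T.affineCover.X i = Spec A := ⟨_, rfl⟩
  obtain ⟨φ, hφ⟩ := Spec.map_surjective (eqToHom hA.symm ≫ T.affineCover.f i ≫ t)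
  letI : Algebra k A := φ.hom.toAlgebra
  have h2 := congrArg Subtype.val (R.η_injective A
    (h A ⟨eqToHom hA.symm ≫ T.affineCover.f i, by rw [Category.assoc]; exact hφ.symm⟩))
  simp only [postComp, Category.assoc] at h2
  exact (cancel_epi (eqToHom hA.symm)).1 h2

/-- The Picard scheme of degree zero from the layers. -/
theorem exists_representsRelSubPic (hF : TargetFrame.{u}) (hD : TargetDict.{u})
    (hS : TargetDescent.{u}) (hR : TargetRep.{u}) (hP : TargetProps.{u}) (hG : TargetDegree.{u})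
    (k : Type u) [Field k] [IsAlgClosed k] {C : Scheme.{u}} (c : C ⟶ Spec (CommRingCat.of k))
    [IsProper c] [SmoothOfRelativeDimension 1 c] [IsIntegral C]
    (ε : SchemeHomOver (𝟙 (Spec (CommRingCat.of k))) c) :
    ∃ D : RelativePic0Designation k c,
      Nonempty (RepresentsRelSubPic c ε (algEquivZeroCut c ε) D) ∧
        Smooth D.toBase ∧ IsProper D.toBase ∧ GeometricallyConnected D.toBase := by
  obtain ⟨F⟩ := hF k c ε
  obtain ⟨Δ⟩ := hD F
  obtain ⟨R⟩ := hR F Δ
  obtain ⟨hsm, hpr, hco, hint⟩ := hP R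
  have hdeg := fun {T : Scheme.{u}} (t : T ⟶ Spec (CommRingCat.of k)) =>
    hG R hsm hpr hco hint t
  obtain ⟨hsepD, hglueD⟩ := hS F Δ R.D.toBase
  obtain ⟨M₀, hM₀⟩ := hglueD (fun A _ _ p => R.η A p) (fun φ p => R.η_map φ p)
  have hcls : ∀ {T : Scheme.{u}} {t : T ⟶ Spec (CommRingCat.of k)}
      (g : SchemeHomOver t R.D.toBase) (A : Type u) [CommRing A] [Algebra k A]
      (p : SchemeHomOver (specT k A) t),
      Δ.cls A ((M₀.pullbackAlong g).pullbackAlong p) = R.η A (postComp g p) := fun g A _ _ p => by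
    rw [(Δ.cls_eq_iff A _ _).2 (pullbackAlong_comp M₀ g p), hM₀]
  refine ⟨R.D, ⟨{
    poincare := M₀
    poincare_mem := (hdeg _ M₀).2 fun A _ _ p => by rw [hM₀]; exact R.η_zero A p
    univ := fun {T} t M hM => ?_
    zero := ?_ }⟩, hsm, hpr, hco⟩
  · have hz := (hdeg t M).1 hM
    -- the classifying morphism on affine opens
    choose inst hinst using fun U : T.affineOpens => exists_algebra_point t U.2
    have hpt : ∀ U : T.affineOpens, letI := inst U
        ∃ g : SchemeHomOver (specT k Γ(T, U.1)) R.D.toBase,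
          R.η _ g = Δ.cls _ (M.pullbackAlong ⟨U.2.fromSpec, hinst U⟩) := fun U => by
      letI := inst U
      exact R.η_surj _ _ (hz _ _)
    choose g hg using hpt
    -- agreement on affine pieces
    have hagree : ∀ (U : T.affineOpens) (A : Type u) [CommRing A] [Algebra k A]
        (p : SchemeHomOver (specT k A) t) (a : Spec (CommRingCat.of A) ⟶ Spec Γ(T, U.1)),
        a ≫ U.2.fromSpec = p.1 →
          ∃ h, R.η A ⟨a ≫ (g U).1, h⟩ = Δ.cls A (M.pullbackAlong p) := by
      intro U A _ _ p a ha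
      letI := inst U
      obtain ⟨φ, hφ⟩ := Spec.map_surjective a
      have hφk : φ.hom.comp (algebraMap k Γ(T, U.1)) = algebraMap k A := by
        have h1 : a ≫ specT k Γ(T, U.1) = specT k A := by
          rw [← hinst U, ← Category.assoc, ha, p.2]
        rw [← hφ, specT, specT, ← Spec.map_comp] at h1
        exact congrArg CommRingCat.Hom.hom (Spec.map_injective h1)
      let ψ : Γ(T, U.1) →ₐ[k] A :=
        { φ.hom with commutes' := fun x => RingHom.congr_fun hφk x }
      have hψ : (specHom ψ).1 = a := hφ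
      refine ⟨by rw [Category.assoc, (g U).2, ← hinst U, ← Category.assoc, ha, p.2], ?_⟩
      have h2 := R.η_map ψ (g U)
      rw [hg U, ← Δ.cls_pullback,
        (Δ.cls_eq_iff A _ _).2 (pullbackAlong_comp M _ (specHom ψ))] at h2
      convert h2 using 2
      · exact Subtype.ext (by show _ = (specHom ψ).1 ≫ (g U).1; rw [hψ])
      · congr 2
        exact Subtype.ext (by show p.1 = (specHom ψ).1 ≫ U.2.fromSpec; rw [hψ, ha])
    let 𝒰 : T.OpenCover := T.openCoverOfIsOpenCover (fun U : T.affineOpens => U.1)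
      (TopologicalSpace.IsOpenCover.mk (iSup_affineOpens_eq_top T))
    let h : ∀ U : T.affineOpens, 𝒰.X U ⟶ R.D.P := fun U => U.2.isoSpec.hom ≫ (g U).1
    have hι : ∀ U : T.affineOpens, U.2.isoSpec.hom ≫ U.2.fromSpec = 𝒰.f U := fun U =>
      U.2.isoSpec_hom_fromSpec
    have hb : ∀ U : T.affineOpens, h U ≫ R.D.toBase = 𝒰.f U ≫ t := fun U => by
      show (U.2.isoSpec.hom ≫ (g U).1) ≫ _ = _
      exact (Category.assoc _ _ _).trans (((congrArg (U.2.isoSpec.hom ≫ ·) ((g U).2.trans (hinst U).symm)).trans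
        (Category.assoc _ _ _).symm).trans (congrArg (· ≫ t) (hι U)))
    have hov : ∀ U V : T.affineOpens,
        pullback.fst (𝒰.f U) (𝒰.f V) ≫ h U = pullback.snd (𝒰.f U) (𝒰.f V) ≫ h V := by
      intro U V
      refine R.hom_ext (pullback.fst (𝒰.f U) (𝒰.f V) ≫ 𝒰.f U ≫ t)
        (by rw [Category.assoc, hb])
        (by rw [Category.assoc, hb, ← Category.assoc, ← pullback.condition, Category.assoc])
        fun A _ _ q => ?_
      let p : SchemeHomOver (specT k A) t :=
        ⟨q.1 ≫ pullback.fst (𝒰.f U) (𝒰.f V) ≫ 𝒰.f U, by simpa using q.2⟩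
      obtain ⟨_, e1⟩ := hagree U A p (q.1 ≫ pullback.fst _ _ ≫ U.2.isoSpec.hom)
        ((Category.assoc _ _ _).trans (congrArg (q.1 ≫ ·)
          ((Category.assoc _ _ _).trans (congrArg (pullback.fst (𝒰.f U) (𝒰.f V) ≫ ·) (hι U)))))
      obtain ⟨_, e2⟩ := hagree V A p (q.1 ≫ pullback.snd _ _ ≫ V.2.isoSpec.hom)
        ((Category.assoc _ _ _).trans (congrArg (q.1 ≫ ·)
          (((Category.assoc _ _ _).trans
            (congrArg (pullback.snd (𝒰.f U) (𝒰.f V) ≫ ·) (hι V))).trans pullback.condition.symm)))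
      simp only [Category.assoc] at e1 e2
      exact e1.trans e2.symm
    let G : T ⟶ R.D.P := 𝒰.glueMorphisms h hov
    have hG : ∀ U : T.affineOpens, 𝒰.f U ≫ G = h U := fun U => 𝒰.ι_glueMorphisms h hov U
    have hGb : G ≫ R.D.toBase = t := Scheme.Cover.hom_ext 𝒰 _ _ fun U =>
      (Category.assoc _ _ _).symm.trans ((congrArg (· ≫ R.D.toBase) (hG U)).trans (hb U))
    obtain ⟨hsep, -⟩ := hS F Δ t
    suffices hGi : Nonempty ((M₀.pullbackAlong ⟨G, hGb⟩).L ≅ M.L) from
      ⟨⟨G, hGb⟩, hGi, fun g' hg' => Subtype.ext (R.hom_ext t g'.2 hGb fun A _ _ p =>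
        (hcls g' A p).symm.trans (((Δ.cls_eq_iff A _ _).2 (RigidifiedLineBundle.pullbackAlong_congr p
          ⟨hg'.some ≪≫ hGi.some.symm⟩)).trans (hcls ⟨G, hGb⟩ A p)))⟩
    refine hsep _ _ fun A _ _ p => ?_
    rw [hcls ⟨G, hGb⟩ A p]
    obtain ⟨q, hq⟩ := R.η_surj A _ (hz A p)
    rw [← hq]
    congr 1
    refine Subtype.ext ?_
    show p.1 ≫ G = q.1
    refine Scheme.Cover.hom_ext (𝒰.pullback₁ p.1) _ _ fun U => ?_
    have hsq : (𝒰.pullback₁ p.1).f U ≫ p.1 = pullback.snd p.1 (𝒰.f U) ≫ 𝒰.f U :=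
      pullback.condition
    refine R.hom_ext ((𝒰.pullback₁ p.1).f U ≫ specT k A)
      (by rw [Category.assoc, Category.assoc, hGb, p.2]) (by rw [Category.assoc, q.2])
      fun A' _ _ a => ?_
    obtain ⟨φ, hφ⟩ := Spec.map_surjective (a.1 ≫ (𝒰.pullback₁ p.1).f U)
    have hφk : φ.hom.comp (algebraMap k A) = algebraMap k A' := by
      have h1 : Spec.map φ ≫ specT k A = specT k A' := by rw [hφ, Category.assoc, a.2]
      rw [specT, specT, ← Spec.map_comp] at h1
      exact congrArg CommRingCat.Hom.hom (Spec.map_injective h1)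
    let ψ : A →ₐ[k] A' := { φ.hom with commutes' := fun x => RingHom.congr_fun hφk x }
    have hψ : (specHom ψ).1 = a.1 ≫ (𝒰.pullback₁ p.1).f U := hφ
    obtain ⟨_, e1⟩ := hagree U A' (postComp p (specHom ψ))
      (a.1 ≫ pullback.snd p.1 (𝒰.f U) ≫ U.2.isoSpec.hom)
      ((((Category.assoc _ _ _).trans (congrArg (a.1 ≫ ·)
        ((Category.assoc _ _ _).trans (congrArg (pullback.snd p.1 (𝒰.f U) ≫ ·) (hι U))))).trans
        ((congrArg (a.1 ≫ ·) hsq.symm).trans (Category.assoc _ _ _).symm)).trans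
        (congrArg (· ≫ p.1) hψ.symm))
    have e2 := R.η_map ψ q
    rw [hq, ← Δ.cls_pullback, (Δ.cls_eq_iff A' _ _).2 (pullbackAlong_comp M p (specHom ψ))] at e2
    refine Eq.trans ?_ ((e1.trans e2.symm).trans ?_)
    · congr 1
      refine Subtype.ext ?_
      exact congrArg (a.1 ≫ ·) ((Category.assoc _ _ _).symm.trans
        ((congrArg (· ≫ G) hsq).trans ((Category.assoc _ _ _).trans
          (congrArg (pullback.snd p.1 (𝒰.f U) ≫ ·) (hG U)))))
    · congr 1
      exact Subtype.ext (by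
        show (specHom ψ).1 ≫ q.1 = a.1 ≫ (𝒰.pullback₁ p.1).f U ≫ q.1
        rw [hψ, Category.assoc])
  · obtain ⟨hsep, -⟩ := hS F Δ (𝟙 (Spec (CommRingCat.of k)))
    refine hsep _ _ fun A _ _ p => ?_
    rw [hcls _ A p, (Δ.cls_eq_iff A ((RigidifiedLineBundle.unit _).pullbackAlong p)
      (RigidifiedLineBundle.unit (specT k A))).2 ⟨Scheme.Modules.pullbackUnitIso _⟩]
    obtain ⟨h, e⟩ := R.η_base A
    obtain ⟨h', e'⟩ := Δ.cls_unit A
    rw [e', ← e]
    congr 1
    refine Subtype.ext ?_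
    show p.1 ≫ R.D.zeroSection = specT k A ≫ R.D.zeroSection
    rw [show p.1 = specT k A from (Category.comp_id _).symm.trans p.2]

end FLTAgent.PicScheme
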