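import Fermat.Agent.PicScheme.Interface

/-!
# Schemes from functors on algebras with an atlas

A functor on algebras which is a sheaf for covers by principal opens and has an atlas of open
subfunctors represented by algebras is represented by the scheme glued from the atlas.
-/

set_option autoImplicit false
set_option linter.checkUnivs false
set_option linter.style.haveILetI false

noncomputable section

universe u

open CategoryTheory CategoryTheory.Limits AlgebraicGeometry AlgebraicGeometry.RelPicard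
  NeronModelInfra GoodReductionJacobian TopologicalSpace

namespace FLTAgent.PicScheme

variable (k : Type u) [Field k]

/-- The localisation of an algebra at an element. -/
abbrev toAway {A : Type u} [CommRing A] [Algebra k A] (r : A) : A →ₐ[k] Localization.Away r :=
  IsScalarTower.toAlgHom k A (Localization.Away r)

/-- A functor on algebras. -/
structure AlgFun where
  obj : ∀ (A : Type u) [CommRing A] [Algebra k A], Type u
  map : ∀ {A A' : Type u} [CommRing A] [Algebra k A] [CommRing A'] [Algebra k A'],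
    (A →ₐ[k] A') → obj A → obj A'
  map_id : ∀ {A : Type u} [CommRing A] [Algebra k A] (x : obj A), map (AlgHom.id k A) x = x
  map_comp : ∀ {A A' A'' : Type u} [CommRing A] [Algebra k A] [CommRing A'] [Algebra k A']
    [CommRing A''] [Algebra k A''] (f : A →ₐ[k] A') (g : A' →ₐ[k] A'') (x : obj A),
      map (g.comp f) x = map g (map f x)

variable {k}

namespace AlgFun

variable (G : AlgFun k)

/-- The sheaf property for covers by principal opens. -/
structure IsSheaf : Prop where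
  sep : ∀ {A : Type u} [CommRing A] [Algebra k A] (n : ℕ) (r : Fin n → A),
    Ideal.span (Set.range r) = ⊤ → ∀ x y : G.obj A,
      (∀ a, G.map (toAway k (r a)) x = G.map (toAway k (r a)) y) → x = y
  glue : ∀ {A : Type u} [CommRing A] [Algebra k A] (n : ℕ) (r : Fin n → A),
    Ideal.span (Set.range r) = ⊤ → ∀ x : ∀ a, G.obj (Localization.Away (r a)),
      (∀ (a b : Fin n) (A' : Type u) [CommRing A'] [Algebra k A']
        (f : Localization.Away (r a) →ₐ[k] A') (g : Localization.Away (r b) →ₐ[k] A'),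
          f.comp (toAway k (r a)) = g.comp (toAway k (r b)) → G.map f (x a) = G.map g (x b)) →
      ∃ y, ∀ a, G.map (toAway k (r a)) y = x a

/-- An atlas of open subfunctors represented by algebras. -/
structure Atlas where
  ι : Type u
  R : ι → Type u
  [ring : ∀ i, CommRing (R i)]
  [alg : ∀ i, Algebra k (R i)]
  univ : ∀ i, G.obj (R i)
  inj : ∀ (i : ι) {A : Type u} [CommRing A] [Algebra k A] (f g : R i →ₐ[k] A),
    G.map f (univ i) = G.map g (univ i) → f = g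
  locus : ι → ∀ {A : Type u} [CommRing A] [Algebra k A], G.obj A → Opens (PrimeSpectrum A)
  mem_iff : ∀ (i : ι) {A : Type u} [CommRing A] [Algebra k A] (x : G.obj A) (A' : Type u)
    [CommRing A'] [Algebra k A'] (φ : A →ₐ[k] A'),
      (∃ ψ : R i →ₐ[k] A', G.map ψ (univ i) = G.map φ x) ↔
        Set.range (PrimeSpectrum.comap φ.toRingHom) ⊆ (locus i x : Set (PrimeSpectrum A))
  cover : ∀ {A : Type u} [CommRing A] [Algebra k A] (x : G.obj A) (P : PrimeSpectrum A),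
    ∃ i, P ∈ (locus i x : Set (PrimeSpectrum A))

attribute [instance] Atlas.ring Atlas.alg

end AlgFun

/-- The homomorphism of algebras of a morphism of spectra. -/
theorem exists_algHom {A B : Type u} [CommRing A] [Algebra k A] [CommRing B] [Algebra k B]
    (a : SchemeHomOver (specT k A) (specT k B)) : ∃ φ : B →ₐ[k] A, specHom φ = a := by
  obtain ⟨φ, hφ⟩ := Spec.map_surjective a.1
  have h1 : φ.hom.comp (algebraMap k B) = algebraMap k A := by
    have h2 := a.2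
    rw [← hφ, specT, specT, ← Spec.map_comp] at h2
    exact congrArg CommRingCat.Hom.hom (Spec.map_injective h2)
  exact ⟨{ φ.hom with commutes' := fun x => RingHom.congr_fun h1 x }, Subtype.ext hφ⟩

/-- A morphism of spectra over the base as a homomorphism of algebras. -/
def algOf {A B : Type u} [CommRing A] [Algebra k A] [CommRing B] [Algebra k B]
    (a : SchemeHomOver (specT k A) (specT k B)) : B →ₐ[k] A := (exists_algHom a).choose

theorem specHom_algOf {A B : Type u} [CommRing A] [Algebra k A] [CommRing B] [Algebra k B]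
    (a : SchemeHomOver (specT k A) (specT k B)) : specHom (algOf a) = a :=
  (exists_algHom a).choose_spec

theorem specHom_injective {A B : Type u} [CommRing A] [Algebra k A] [CommRing B] [Algebra k B]
    {f g : B →ₐ[k] A} (h : (specHom f).1 = (specHom g).1) : f = g :=
  AlgHom.ext fun x => RingHom.congr_fun
    (congrArg CommRingCat.Hom.hom (Spec.map_injective h)) x

theorem algOf_specHom {A B : Type u} [CommRing A] [Algebra k A] [CommRing B] [Algebra k B]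
    (φ : B →ₐ[k] A) : algOf (specHom φ) = φ :=
  specHom_injective (congrArg Subtype.val (specHom_algOf (specHom φ)))

theorem specHom_comp {A B D : Type u} [CommRing A] [Algebra k A] [CommRing B] [Algebra k B]
    [CommRing D] [Algebra k D] (f : B →ₐ[k] A) (g : D →ₐ[k] B) :
    specHom (f.comp g) = postComp (specHom g) (specHom f) :=
  Subtype.ext (Spec.map_comp (CommRingCat.ofHom g.toRingHom) (CommRingCat.ofHom f.toRingHom))

theorem isUnit_away {A A' : Type u} [CommRing A] [Algebra k A] [CommRing A'] [Algebra k A']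
    (φ : A →ₐ[k] A') (r : A) :
    IsUnit ((toAway k (φ r)).toRingHom.comp φ.toRingHom r) :=
  IsLocalization.map_units (Localization.Away (φ r))
    (⟨φ r, 1, pow_one _⟩ : Submonoid.powers (φ r))

/-- The map of localisations at an element and at its image. -/
def awayMap {A A' : Type u} [CommRing A] [Algebra k A] [CommRing A'] [Algebra k A']
    (φ : A →ₐ[k] A') (r : A) : Localization.Away r →ₐ[k] Localization.Away (φ r) :=
  { IsLocalization.Away.lift (S := Localization.Away r) r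
      (g := (toAway k (φ r)).toRingHom.comp φ.toRingHom) (isUnit_away φ r) with
    commutes' := fun z => by
      rw [IsScalarTower.algebraMap_apply k A (Localization.Away r)]
      refine (IsLocalization.Away.lift_eq r (isUnit_away φ r) _).trans ?_
      show algebraMap A' _ (φ (algebraMap k A z)) = _
      rw [φ.commutes, ← IsScalarTower.algebraMap_apply] }

theorem awayMap_comp {A A' : Type u} [CommRing A] [Algebra k A] [CommRing A'] [Algebra k A']
    (φ : A →ₐ[k] A') (r : A) :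
    (awayMap φ r).comp (toAway k r) = (toAway k (φ r)).comp φ :=
  AlgHom.ext fun z => by
    show IsLocalization.Away.lift (S := Localization.Away r) r
        (g := (toAway k (φ r)).toRingHom.comp φ.toRingHom) (isUnit_away φ r)
        (algebraMap A (Localization.Away r) z) = _
    rw [IsLocalization.Away.lift_eq]
    rfl

namespace AlgFun.Atlas

variable {G : AlgFun k} (𝔸 : G.Atlas) (hG : G.IsSheaf)

/-- A chart. -/
abbrev U (i : 𝔸.ι) : Scheme.{u} := Spec (CommRingCat.of (𝔸.R i))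

variable {A : Type u} [CommRing A] [Algebra k A]

/-- The class of a point of a chart. -/
def cl {i : 𝔸.ι} (a : SchemeHomOver (specT k A) (specT k (𝔸.R i))) : G.obj A :=
  G.map (algOf a) (𝔸.univ i)

theorem cl_inj {i : 𝔸.ι} {a a' : SchemeHomOver (specT k A) (specT k (𝔸.R i))}
    (h : 𝔸.cl a = 𝔸.cl a') : a = a' := by
  rw [← specHom_algOf a, ← specHom_algOf a', 𝔸.inj i _ _ h]

theorem cl_comp {A' : Type u} [CommRing A'] [Algebra k A'] {i : 𝔸.ι} (φ : A →ₐ[k] A')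
    (a : SchemeHomOver (specT k A) (specT k (𝔸.R i))) :
    𝔸.cl (postComp a (specHom φ)) = G.map φ (𝔸.cl a) := by
  rw [cl, cl, ← G.map_comp]
  congr 1
  refine specHom_injective (congrArg Subtype.val ((specHom_algOf _).trans ?_))
  rw [specHom_comp, specHom_algOf]

/-- Two morphisms to a chart with the same classes at affine points are equal. -/
theorem hom_ext {T : Scheme.{u}} (t : T ⟶ Spec (CommRingCat.of k)) {i : 𝔸.ι}
    {a a' : SchemeHomOver t (specT k (𝔸.R i))}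
    (h : ∀ (A : Type u) [CommRing A] [Algebra k A] (p : SchemeHomOver (specT k A) t),
      𝔸.cl (postComp a p) = 𝔸.cl (postComp a' p)) : a = a' := by
  refine Subtype.ext (Scheme.Cover.hom_ext T.affineCover _ _ fun x => ?_)
  obtain ⟨A, hA⟩ : ∃ A : CommRingCat.{u}, T.affineCover.X x = Spec A := ⟨_, rfl⟩
  obtain ⟨φ, hφ⟩ := Spec.map_surjective (eqToHom hA.symm ≫ T.affineCover.f x ≫ t)
  letI : Algebra k A := φ.hom.toAlgebra
  have h2 := congrArg Subtype.val (𝔸.cl_inj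
    (h A ⟨eqToHom hA.symm ≫ T.affineCover.f x, by rw [Category.assoc]; exact hφ.symm⟩))
  simp only [postComp, Category.assoc] at h2
  exact (cancel_epi (eqToHom hA.symm)).1 h2

/-- The overlap of two charts. -/
def ovl (i j : 𝔸.ι) : (𝔸.U i).Opens := 𝔸.locus j (𝔸.univ i)

/-- The structure morphism of an overlap. -/
def ovlT (i j : 𝔸.ι) : (𝔸.ovl i j : Scheme.{u}) ⟶ Spec (CommRingCat.of k) :=
  (𝔸.ovl i j).ι ≫ specT k (𝔸.R i)

/-- The inclusion of an overlap. -/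
def ovlι (i j : 𝔸.ι) : SchemeHomOver (𝔸.ovlT i j) (specT k (𝔸.R i)) := ⟨(𝔸.ovl i j).ι, rfl⟩

theorem range_iff {i j : 𝔸.ι} (a : SchemeHomOver (specT k A) (specT k (𝔸.R i))) :
    (∃ ψ : 𝔸.R j →ₐ[k] A, G.map ψ (𝔸.univ j) = 𝔸.cl a) ↔
      Set.range a.1 ⊆ (𝔸.ovl i j : Set (𝔸.U i)) := by
  rw [cl, 𝔸.mem_iff, ovl]
  conv_rhs => rw [← specHom_algOf a]
  exact Iff.rfl

/-- A point of a chart whose class lies in another one factors through the overlap. -/
theorem exists_ovl {i j : 𝔸.ι} (a : SchemeHomOver (specT k A) (specT k (𝔸.R i)))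
    (b : SchemeHomOver (specT k A) (specT k (𝔸.R j))) (h : 𝔸.cl a = 𝔸.cl b) :
    ∃ p : SchemeHomOver (specT k A) (𝔸.ovlT i j), postComp (𝔸.ovlι i j) p = a := by
  have hr := (𝔸.range_iff (j := j) a).1 ⟨algOf b, h.symm⟩
  rw [← (𝔸.ovl i j).range_ι] at hr
  exact ⟨⟨IsOpenImmersion.lift (𝔸.ovl i j).ι a.1 hr, by
    rw [ovlT, ← Category.assoc, IsOpenImmersion.lift_fac, a.2]⟩,
    Subtype.ext (IsOpenImmersion.lift_fac _ _ _)⟩

/-- The change of charts. -/
theorem exists_trans (i j : 𝔸.ι) : ∃ b : SchemeHomOver (𝔸.ovlT i j) (specT k (𝔸.R j)),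
    ∀ (A : Type u) [CommRing A] [Algebra k A] (p : SchemeHomOver (specT k A) (𝔸.ovlT i j)),
      𝔸.cl (postComp b p) = 𝔸.cl (postComp (𝔸.ovlι i j) p) := by
  classical
  let V : Scheme.{u} := 𝔸.ovl i j
  let 𝒰 := V.affineCover
  have hx : ∀ x, ∃ (A : Type u) (_ : CommRing A) (_ : Algebra k A) (e : 𝒰.X x ≅ Spec (CommRingCat.of A)),
      e.inv ≫ 𝒰.f x ≫ 𝔸.ovlT i j = specT k A := fun x => by
    obtain ⟨A, hA⟩ : ∃ A : CommRingCat.{u}, 𝒰.X x = Spec A := ⟨_, rfl⟩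
    obtain ⟨φ, hφ⟩ := Spec.map_surjective (eqToHom hA.symm ≫ 𝒰.f x ≫ 𝔸.ovlT i j)
    exact ⟨A, inferInstance, φ.hom.toAlgebra, eqToIso hA, hφ.symm⟩
  choose A ring alg e he using hx
  have hloc : ∀ {A : Type u} [CommRing A] [Algebra k A] (p : SchemeHomOver (specT k A) (𝔸.ovlT i j)),
      ∃ ψ : 𝔸.R j →ₐ[k] A, G.map ψ (𝔸.univ j) = 𝔸.cl (postComp (𝔸.ovlι i j) p) := fun p =>
    (𝔸.range_iff _).2 (by
      refine subset_trans ?_ (𝔸.ovl i j).range_ι.le
      rintro _ ⟨z, rfl⟩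
      exact ⟨p.1 z, rfl⟩)
  let P : ∀ x, SchemeHomOver (specT k (A x)) (𝔸.ovlT i j) := fun x =>
    ⟨(e x).inv ≫ 𝒰.f x, by rw [Category.assoc]; exact he x⟩
  let ψ : ∀ x, 𝔸.R j →ₐ[k] A x := fun x => (hloc (P x)).choose
  have hψ : ∀ x, G.map (ψ x) (𝔸.univ j) = 𝔸.cl (postComp (𝔸.ovlι i j) (P x)) := fun x =>
    (hloc (P x)).choose_spec
  let f : ∀ x, 𝒰.X x ⟶ 𝔸.U j := fun x => (e x).hom ≫ (specHom (ψ x)).1
  have hf : ∀ x, f x ≫ specT k (𝔸.R j) = 𝒰.f x ≫ 𝔸.ovlT i j := fun x => by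
    rw [Category.assoc, (specHom (ψ x)).2, ← he x, Iso.hom_inv_id_assoc]
  have key : ∀ x {B : Type u} [CommRing B] [Algebra k B]
      (p : SchemeHomOver (specT k B) (𝔸.ovlT i j)) (q : Spec (CommRingCat.of B) ⟶ 𝒰.X x)
      (hq : q ≫ 𝒰.f x = p.1),
      ∃ h, 𝔸.cl (i := j) ⟨q ≫ f x, h⟩ = 𝔸.cl (postComp (𝔸.ovlι i j) p) := by
    intro x B _ _ p q hq
    have hk : q ≫ f x ≫ specT k (𝔸.R j) = specT k B := by rw [hf, ← Category.assoc, hq, p.2]
    let q' : SchemeHomOver (specT k B) (specT k (A x)) := ⟨q ≫ (e x).hom, by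
      rw [Category.assoc, ← he x, Iso.hom_inv_id_assoc, ← Category.assoc, hq, p.2]⟩
    refine ⟨by rw [Category.assoc]; exact hk, ?_⟩
    have e1 : (⟨q ≫ f x, by rw [Category.assoc]; exact hk⟩ :
        SchemeHomOver (specT k B) (specT k (𝔸.R j))) =
        postComp (specHom (ψ x)) (specHom (algOf q')) :=
      Subtype.ext (by rw [specHom_algOf]; exact (Category.assoc _ _ _).symm)
    have e2 : p = postComp (P x) (specHom (algOf q')) :=
      Subtype.ext (by
        rw [specHom_algOf]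
        show p.1 = (q ≫ (e x).hom) ≫ (e x).inv ≫ 𝒰.f x
        rw [Category.assoc, Iso.hom_inv_id_assoc, hq])
    rw [e1, 𝔸.cl_comp, show 𝔸.cl (specHom (ψ x)) = G.map (ψ x) (𝔸.univ j) by rw [cl, algOf_specHom],
      hψ x, ← 𝔸.cl_comp]
    congr 1
    refine Subtype.ext ?_
    have := congrArg Subtype.val e2
    simp only [postComp] at this ⊢
    rw [this]
    simp only [Category.assoc, P]
  have hov : ∀ x y, pullback.fst (𝒰.f x) (𝒰.f y) ≫ f x = pullback.snd (𝒰.f x) (𝒰.f y) ≫ f y := by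
    intro x y
    let t := pullback.fst (𝒰.f x) (𝒰.f y) ≫ 𝒰.f x ≫ 𝔸.ovlT i j
    have := 𝔸.hom_ext t (i := j)
      (a := ⟨pullback.fst (𝒰.f x) (𝒰.f y) ≫ f x, by rw [Category.assoc, hf]⟩)
      (a' := ⟨pullback.snd (𝒰.f x) (𝒰.f y) ≫ f y, by
        rw [Category.assoc, hf]; exact (pullback.condition_assoc _).symm⟩) fun B _ _ p => ?_
    · exact congrArg Subtype.val this
    obtain ⟨_, h1⟩ := key x ⟨p.1 ≫ pullback.fst _ _ ≫ 𝒰.f x, by simpa [t] using p.2⟩
      (p.1 ≫ pullback.fst _ _) (Category.assoc _ _ _)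
    obtain ⟨_, h2⟩ := key y ⟨p.1 ≫ pullback.fst _ _ ≫ 𝒰.f x, by simpa [t] using p.2⟩
      (p.1 ≫ pullback.snd (𝒰.f x) (𝒰.f y)) (by
        rw [Category.assoc, ← pullback.condition])
    simp only [Category.assoc] at h1 h2
    exact h1.trans h2.symm
  have hb : 𝒰.glueMorphisms f hov ≫ specT k (𝔸.R j) = 𝔸.ovlT i j :=
    Scheme.Cover.hom_ext 𝒰 _ _ fun x => by rw [← Category.assoc, 𝒰.ι_glueMorphisms, hf]
  refine ⟨⟨_, hb⟩, fun B _ _ p => ?_⟩
  obtain ⟨ψ', hψ'⟩ := hloc p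
  have e0 : 𝔸.cl (specHom ψ') = 𝔸.cl (postComp (𝔸.ovlι i j) p) := by
    rw [cl, algOf_specHom]; exact hψ'
  rw [← e0]
  refine congrArg 𝔸.cl (Subtype.ext (Scheme.Cover.hom_ext (𝒰.pullback₁ p.1) _ _ fun x => ?_))
  have hsq : (𝒰.pullback₁ p.1).f x ≫ p.1 = pullback.snd p.1 (𝒰.f x) ≫ 𝒰.f x := pullback.condition
  refine congrArg Subtype.val (𝔸.hom_ext ((𝒰.pullback₁ p.1).f x ≫ specT k B) (i := j)
    (a := ⟨(𝒰.pullback₁ p.1).f x ≫ p.1 ≫ 𝒰.glueMorphisms f hov, by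
      rw [Category.assoc, Category.assoc, hb, p.2]⟩)
    (a' := ⟨(𝒰.pullback₁ p.1).f x ≫ (specHom ψ').1, by rw [Category.assoc, (specHom ψ').2]⟩)
    fun B' _ _ s => ?_)
  let w : SchemeHomOver (specT k B') (specT k B) :=
    ⟨s.1 ≫ (𝒰.pullback₁ p.1).f x, (Category.assoc _ _ _).trans s.2⟩
  obtain ⟨_, h1⟩ := key x (postComp p w) (s.1 ≫ pullback.snd p.1 (𝒰.f x)) (by
    show _ = w.1 ≫ p.1
    exact ((Category.assoc _ _ _).trans (congrArg (s.1 ≫ ·) hsq.symm)).trans (Category.assoc _ _ _).symm)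
  refine Eq.trans (congrArg 𝔸.cl (Subtype.ext ?_)) (h1.trans ?_)
  · show s.1 ≫ (𝒰.pullback₁ p.1).f x ≫ p.1 ≫ 𝒰.glueMorphisms f hov = _
    exact (congrArg (s.1 ≫ ·) ((Category.assoc _ _ _).symm.trans
      ((congrArg (· ≫ 𝒰.glueMorphisms f hov) hsq).trans ((Category.assoc _ _ _).trans
        (congrArg (pullback.snd p.1 (𝒰.f x) ≫ ·) (𝒰.ι_glueMorphisms f hov x)))))).trans
          (Category.assoc _ _ _).symm
  · calc 𝔸.cl (postComp (𝔸.ovlι i j) (postComp p w))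
        = 𝔸.cl (postComp (postComp (𝔸.ovlι i j) p) (specHom (algOf w))) := by
          rw [specHom_algOf]; exact congrArg 𝔸.cl (Subtype.ext (Category.assoc _ _ _))
      _ = 𝔸.cl (postComp (specHom ψ') (specHom (algOf w))) := by
          rw [𝔸.cl_comp, 𝔸.cl_comp, e0]
      _ = _ := by rw [specHom_algOf]; exact congrArg 𝔸.cl (Subtype.ext (Category.assoc _ _ _))

/-- The change of charts, chosen. -/
def tr (i j : 𝔸.ι) : SchemeHomOver (𝔸.ovlT i j) (specT k (𝔸.R j)) := (𝔸.exists_trans i j).choose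

theorem cl_tr (i j : 𝔸.ι) {A : Type u} [CommRing A] [Algebra k A]
    (p : SchemeHomOver (specT k A) (𝔸.ovlT i j)) :
    𝔸.cl (postComp (𝔸.tr i j) p) = 𝔸.cl (postComp (𝔸.ovlι i j) p) :=
  (𝔸.exists_trans i j).choose_spec A p

theorem range_tr (i j : 𝔸.ι) : Set.range (𝔸.tr i j).1 ⊆ (𝔸.ovl j i : Set (𝔸.U j)) := by
  rintro _ ⟨z, rfl⟩
  let W : Scheme.{u} := 𝔸.ovl i j
  obtain ⟨A, hA⟩ : ∃ A : CommRingCat.{u}, W.affineCover.X (W.affineCover.idx z) = Spec A := ⟨_, rfl⟩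
  obtain ⟨φ, hφ⟩ := Spec.map_surjective (eqToHom hA.symm ≫ W.affineCover.f (W.affineCover.idx z) ≫
    𝔸.ovlT i j)
  letI : Algebra k A := φ.hom.toAlgebra
  let p : SchemeHomOver (specT k A) (𝔸.ovlT i j) :=
    ⟨eqToHom hA.symm ≫ W.affineCover.f (W.affineCover.idx z), by rw [Category.assoc]; exact hφ.symm⟩
  obtain ⟨y, hy⟩ := W.affineCover.covers z
  obtain ⟨y', rfl⟩ := (eqToHom hA.symm).surjective y
  refine (𝔸.range_iff (j := i) (postComp (𝔸.tr i j) p)).1
    ⟨algOf (postComp (𝔸.ovlι i j) p), (𝔸.cl_tr i j p).symm⟩ ⟨y', ?_⟩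
  show (𝔸.tr i j).1 (p.1 y') = _
  congr 1

/-- The change of charts between overlaps. -/
def trO (i j : 𝔸.ι) : SchemeHomOver (𝔸.ovlT i j) (𝔸.ovlT j i) :=
  ⟨IsOpenImmersion.lift (𝔸.ovl j i).ι (𝔸.tr i j).1 (by
      rw [(𝔸.ovl j i).range_ι]; exact 𝔸.range_tr i j), by
    show _ ≫ (𝔸.ovl j i).ι ≫ specT k (𝔸.R j) = _
    rw [← Category.assoc, IsOpenImmersion.lift_fac, (𝔸.tr i j).2]⟩

theorem trO_ι (i j : 𝔸.ι) : (𝔸.trO i j).1 ≫ (𝔸.ovl j i).ι = (𝔸.tr i j).1 :=
  IsOpenImmersion.lift_fac _ _ _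

theorem ovl_self (i : 𝔸.ι) : 𝔸.ovl i i = ⊤ := top_le_iff.1 fun x _ => by
  have h := (𝔸.mem_iff i (𝔸.univ i) (𝔸.R i) (AlgHom.id k _)).1 ⟨AlgHom.id k _, rfl⟩
  exact h ⟨x, PrimeSpectrum.ext rfl⟩

theorem tr_self (i : 𝔸.ι) : 𝔸.tr i i = 𝔸.ovlι i i :=
  𝔸.hom_ext _ fun _ _ _ p => 𝔸.cl_tr i i p

/-- The structure morphism of a triple overlap. -/
def triT (i j l : 𝔸.ι) : pullback (𝔸.ovl i j).ι (𝔸.ovl i l).ι ⟶ Spec (CommRingCat.of k) :=
  pullback.fst _ _ ≫ 𝔸.ovlT i j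

/-- The two projections of a triple overlap. -/
def triFst (i j l : 𝔸.ι) : SchemeHomOver (𝔸.triT i j l) (𝔸.ovlT i j) := ⟨pullback.fst _ _, rfl⟩

/-- The second projection of a triple overlap. -/
def triSnd (i j l : 𝔸.ι) : SchemeHomOver (𝔸.triT i j l) (𝔸.ovlT i l) :=
  ⟨pullback.snd _ _, by rw [triT, ovlT, ovlT, ← pullback.condition_assoc]⟩

theorem tri_cl (i j l : 𝔸.ι) {A : Type u} [CommRing A] [Algebra k A]
    (p : SchemeHomOver (specT k A) (𝔸.triT i j l)) :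
    𝔸.cl (postComp (𝔸.ovlι i j) (postComp (𝔸.triFst i j l) p)) =
      𝔸.cl (postComp (𝔸.ovlι i l) (postComp (𝔸.triSnd i j l) p)) :=
  congrArg 𝔸.cl (Subtype.ext (by
    simp only [postComp, ovlι, triFst, triSnd, Category.assoc, pullback.condition]))

theorem range_tri (i j l : 𝔸.ι) : Set.range (postComp (𝔸.tr i j) (𝔸.triFst i j l)).1 ⊆
    (𝔸.ovl j l : Set (𝔸.U j)) := by
  rintro _ ⟨z, rfl⟩
  let W : Scheme.{u} := pullback (𝔸.ovl i j).ι (𝔸.ovl i l).ι
  obtain ⟨A, hA⟩ : ∃ A : CommRingCat.{u}, W.affineCover.X (W.affineCover.idx z) = Spec A := ⟨_, rfl⟩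
  obtain ⟨φ, hφ⟩ := Spec.map_surjective (eqToHom hA.symm ≫ W.affineCover.f (W.affineCover.idx z) ≫
    𝔸.triT i j l)
  letI : Algebra k A := φ.hom.toAlgebra
  let p : SchemeHomOver (specT k A) (𝔸.triT i j l) :=
    ⟨eqToHom hA.symm ≫ W.affineCover.f (W.affineCover.idx z), by rw [Category.assoc]; exact hφ.symm⟩
  obtain ⟨y, hy⟩ := W.affineCover.covers z
  obtain ⟨y', rfl⟩ := (eqToHom hA.symm).surjective y
  refine (𝔸.range_iff (j := l) (postComp (postComp (𝔸.tr i j) (𝔸.triFst i j l)) p)).1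
    ⟨algOf (postComp (𝔸.tr i l) (postComp (𝔸.triSnd i j l) p)), ?_⟩ ⟨y', ?_⟩
  · show 𝔸.cl _ = _
    rw [𝔸.cl_tr, ← 𝔸.tri_cl, ← 𝔸.cl_tr]
    exact congrArg 𝔸.cl (Subtype.ext (Category.assoc _ _ _))
  · show (postComp (𝔸.tr i j) (𝔸.triFst i j l)).1 (p.1 y') = _
    congr 1

/-- The change of charts on triple overlaps. -/
def triTr (i j l : 𝔸.ι) : SchemeHomOver (𝔸.triT i j l) (𝔸.triT j l i) :=
  ⟨pullback.lift
      (IsOpenImmersion.lift (𝔸.ovl j l).ι (postComp (𝔸.tr i j) (𝔸.triFst i j l)).1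
        (by rw [(𝔸.ovl j l).range_ι]; exact 𝔸.range_tri i j l))
      ((𝔸.triFst i j l).1 ≫ (𝔸.trO i j).1)
      (by rw [IsOpenImmersion.lift_fac, Category.assoc, trO_ι]; rfl), by
    show _ ≫ pullback.fst _ _ ≫ (𝔸.ovl j l).ι ≫ specT k (𝔸.R j) = _
    rw [pullback.lift_fst_assoc, IsOpenImmersion.lift_fac_assoc,
      (postComp (𝔸.tr i j) (𝔸.triFst i j l)).2]⟩

theorem cl_triTr (i j l : 𝔸.ι) {A : Type u} [CommRing A] [Algebra k A]
    (p : SchemeHomOver (specT k A) (𝔸.triT i j l)) :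
    𝔸.cl (postComp (𝔸.ovlι j l) (postComp (𝔸.triFst j l i) (postComp (𝔸.triTr i j l) p))) =
      𝔸.cl (postComp (𝔸.ovlι i j) (postComp (𝔸.triFst i j l) p)) := by
  refine Eq.trans ?_ (𝔸.cl_tr i j (postComp (𝔸.triFst i j l) p))
  refine congrArg 𝔸.cl (Subtype.ext ?_)
  show ((p.1 ≫ (𝔸.triTr i j l).1) ≫ pullback.fst _ _) ≫ (𝔸.ovl j l).ι =
    (p.1 ≫ pullback.fst _ _) ≫ (𝔸.tr i j).1
  simp only [Category.assoc, triTr]
  rw [pullback.lift_fst_assoc, IsOpenImmersion.lift_fac]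
  rfl

/-- The gluing data of the atlas. -/
def glueData : Scheme.GlueData.{u} where
  J := 𝔸.ι
  U := 𝔸.U
  V ij := 𝔸.ovl ij.1 ij.2
  f i j := (𝔸.ovl i j).ι
  f_id i := by
    rw [ovl_self, ← Scheme.topIso_hom]
    infer_instance
  t i j := (𝔸.trO i j).1
  t_id i := by
    rw [← cancel_mono (𝔸.ovl i i).ι, trO_ι, tr_self, Category.id_comp]
    rfl
  t' i j l := (𝔸.triTr i j l).1
  t_fac i j l := pullback.lift_snd _ _ _
  cocycle i j l := by
    rw [← cancel_mono (pullback.fst (𝔸.ovl i j).ι (𝔸.ovl i l).ι), ← cancel_mono (𝔸.ovl i j).ι]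
    let S : SchemeHomOver (𝔸.triT i j l) (𝔸.triT i j l) :=
      postComp (postComp (𝔸.triTr l i j) (𝔸.triTr j l i)) (𝔸.triTr i j l)
    have h := 𝔸.hom_ext (𝔸.triT i j l) (i := i)
      (a := postComp (postComp (𝔸.ovlι i j) (𝔸.triFst i j l)) S)
      (a' := postComp (𝔸.ovlι i j) (𝔸.triFst i j l)) fun A _ _ p => by
        refine Eq.trans (congrArg 𝔸.cl (Subtype.ext ?_)) (((𝔸.cl_triTr l i j
          (postComp (postComp (𝔸.triTr j l i) (𝔸.triTr i j l)) p)).trans ?_).trans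
          ((𝔸.cl_triTr i j l p).trans (congrArg 𝔸.cl (Subtype.ext (Category.assoc _ _ _)))))
        · simp only [postComp, S, Category.assoc]
        · refine Eq.trans (congrArg 𝔸.cl (Subtype.ext ?_)) (𝔸.cl_triTr j l i (postComp (𝔸.triTr i j l) p))
          simp only [postComp, Category.assoc]
    refine Eq.trans ?_ ((congrArg Subtype.val h).trans ?_)
    · simp only [S, postComp, ovlι, triFst, Category.assoc]
    · simp only [postComp, ovlι, triFst, Category.id_comp]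
  f_open i j := inferInstance

/-- The glued scheme. -/
def P : Scheme.{u} := 𝔸.glueData.glued

/-- A chart as an open piece of the glued scheme. -/
def incl (i : 𝔸.ι) : 𝔸.U i ⟶ 𝔸.P := 𝔸.glueData.ι i

instance (i : 𝔸.ι) : IsOpenImmersion (𝔸.incl i) := 𝔸.glueData.ι_isOpenImmersion i

theorem incl_cover (x : 𝔸.P) : ∃ i y, 𝔸.incl i y = x := 𝔸.glueData.ι_jointly_surjective x

theorem incl_cond (i j : 𝔸.ι) :
    (𝔸.tr i j).1 ≫ 𝔸.incl j = (𝔸.ovl i j).ι ≫ 𝔸.incl i := by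
  rw [← 𝔸.trO_ι, Category.assoc]
  exact 𝔸.glueData.glue_condition i j

theorem exists_factor {T : Scheme.{u}} {i j : 𝔸.ι} (a : T ⟶ 𝔸.U i) (b : T ⟶ 𝔸.U j)
    (h : a ≫ 𝔸.incl i = b ≫ 𝔸.incl j) :
    ∃ c : T ⟶ (𝔸.ovl i j : Scheme.{u}), c ≫ (𝔸.ovl i j).ι = a ∧ c ≫ (𝔸.tr i j).1 = b := by
  have hl := 𝔸.glueData.vPullbackConeIsLimit i j
  refine ⟨hl.lift (PullbackCone.mk a b h), hl.fac _ WalkingCospan.left, ?_⟩
  have h2 := hl.fac (PullbackCone.mk a b h) WalkingCospan.right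
  rw [← 𝔸.trO_ι]
  exact h2

/-- The structure morphism of the glued scheme. -/
theorem exists_toBase : ∃ π : 𝔸.P ⟶ Spec (CommRingCat.of k),
    ∀ i, 𝔸.incl i ≫ π = specT k (𝔸.R i) := by
  let 𝒰 := 𝔸.glueData.openCover
  have hov : ∀ i j : 𝔸.ι, pullback.fst (𝒰.f i) (𝒰.f j) ≫ specT k (𝔸.R i) =
      pullback.snd (𝒰.f i) (𝒰.f j) ≫ specT k (𝔸.R j) := fun i j => by
    obtain ⟨c, h1, h2⟩ := 𝔸.exists_factor (pullback.fst (𝒰.f i) (𝒰.f j))
      (pullback.snd (𝒰.f i) (𝒰.f j)) pullback.condition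
    rw [← h1, ← h2]
    exact (Category.assoc _ _ _).trans ((congrArg (c ≫ ·) (𝔸.tr i j).2.symm).trans (Category.assoc _ _ _).symm)
  exact ⟨𝒰.glueMorphisms _ hov, fun i => 𝒰.ι_glueMorphisms _ hov i⟩

/-- The structure morphism, chosen. -/
def toBase : 𝔸.P ⟶ Spec (CommRingCat.of k) := 𝔸.exists_toBase.choose

/-- A chart over the base. -/
def inclOver (i : 𝔸.ι) : SchemeHomOver (specT k (𝔸.R i)) 𝔸.toBase :=
  ⟨𝔸.incl i, 𝔸.exists_toBase.choose_spec i⟩

/-- Equal points of the glued scheme have equal classes. -/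
theorem cl_eq_of_incl {i j : 𝔸.ι} (a : SchemeHomOver (specT k A) (specT k (𝔸.R i)))
    (b : SchemeHomOver (specT k A) (specT k (𝔸.R j)))
    (h : a.1 ≫ 𝔸.incl i = b.1 ≫ 𝔸.incl j) : 𝔸.cl a = 𝔸.cl b := by
  obtain ⟨c, h1, h2⟩ := 𝔸.exists_factor a.1 b.1 h
  let p : SchemeHomOver (specT k A) (𝔸.ovlT i j) :=
    ⟨c, by show c ≫ (𝔸.ovl i j).ι ≫ _ = _; rw [← Category.assoc, h1, a.2]⟩
  have ea : postComp (𝔸.ovlι i j) p = a := Subtype.ext h1
  have eb : postComp (𝔸.tr i j) p = b := Subtype.ext h2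
  rw [← ea, ← eb, 𝔸.cl_tr]

/-- Points with equal classes are equal in the glued scheme. -/
theorem incl_eq_of_cl {i j : 𝔸.ι} (a : SchemeHomOver (specT k A) (specT k (𝔸.R i)))
    (b : SchemeHomOver (specT k A) (specT k (𝔸.R j))) (h : 𝔸.cl a = 𝔸.cl b) :
    a.1 ≫ 𝔸.incl i = b.1 ≫ 𝔸.incl j := by
  obtain ⟨p, hp⟩ := 𝔸.exists_ovl a b h
  have hb : postComp (𝔸.tr i j) p = b := 𝔸.cl_inj (by rw [𝔸.cl_tr, hp, h])
  rw [← hp, ← hb]
  show (p.1 ≫ (𝔸.ovl i j).ι) ≫ _ = (p.1 ≫ (𝔸.tr i j).1) ≫ _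
  rw [Category.assoc, Category.assoc, incl_cond]

theorem range_toAway (r : A) : Set.range (specHom (toAway k r)).1 =
    (PrimeSpectrum.basicOpen r : Set (PrimeSpectrum A)) :=
  PrimeSpectrum.localization_away_comap_range (Localization.Away r) r

theorem exists_span_cover (Q : A → Prop)
    (h : ∀ z : PrimeSpectrum A, ∃ r, z ∈ PrimeSpectrum.basicOpen r ∧ Q r) :
    ∃ (n : ℕ) (r : Fin n → A), Ideal.span (Set.range r) = ⊤ ∧ ∀ m, Q (r m) := by
  have hS : Ideal.span {r | Q r} = ⊤ := by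
    by_contra hne
    obtain ⟨m, hm, hle⟩ := Ideal.exists_le_maximal _ hne
    obtain ⟨r, hz, hr⟩ := h ⟨m, hm.isPrime⟩
    exact hz (hle (Ideal.subset_span hr))
  obtain ⟨F, hF, hF1⟩ :=
    Submodule.mem_span_finite_of_mem_span (show (1 : A) ∈ Ideal.span {r | Q r} by rw [hS]; trivial)
  refine ⟨F.card, fun m => (F.equivFin.symm m : A), ?_, fun m => hF (F.equivFin.symm m).2⟩
  rw [show Set.range (fun m => (F.equivFin.symm m : A)) = (F : Set A) by
    ext x
    exact ⟨by rintro ⟨m, rfl⟩; exact (F.equivFin.symm m).2,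
      fun hx => ⟨F.equivFin ⟨x, hx⟩, by simp⟩⟩, Ideal.eq_top_iff_one]
  exact hF1

/-- A point of the glued scheme lands in charts on a cover by principal opens. -/
theorem exists_lift (p : SchemeHomOver (specT k A) 𝔸.toBase) :
    ∃ (n : ℕ) (r : Fin n → A) (c : Fin n → 𝔸.ι)
      (a : ∀ m, SchemeHomOver (specT k (Localization.Away (r m))) (specT k (𝔸.R (c m)))),
      Ideal.span (Set.range r) = ⊤ ∧
      ∀ m, (specHom (toAway k (r m))).1 ≫ p.1 = (a m).1 ≫ 𝔸.incl (c m) := by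
  obtain ⟨n, r, hspan, hr⟩ := exists_span_cover (A := A) (fun r : A => ∃ i,
      (PrimeSpectrum.basicOpen r : Set (PrimeSpectrum A)) ⊆ p.1 ⁻¹' Set.range (𝔸.incl i)) fun z => by
    obtain ⟨i, y, hy⟩ := 𝔸.incl_cover (p.1 z)
    have ho : IsOpen (p.1 ⁻¹' Set.range (𝔸.incl i)) :=
      (IsOpenImmersion.isOpen_range (𝔸.incl i)).preimage p.1.continuous
    obtain ⟨_, ⟨r, rfl⟩, hz, hsub⟩ :=
      PrimeSpectrum.isTopologicalBasis_basic_opens.exists_subset_of_mem_open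
        (show z ∈ p.1 ⁻¹' Set.range (𝔸.incl i) from ⟨y, hy⟩) ho
    refine ⟨r, hz, ?_⟩
    exact ⟨i, hsub⟩
  choose c hc using hr
  have hrange : ∀ m, Set.range ((specHom (toAway k (r m))).1 ≫ p.1) ⊆ Set.range (𝔸.incl (c m)) := by
    rintro m _ ⟨z, rfl⟩
    exact hc m ((range_toAway (k := k) (r m)).le ⟨z, rfl⟩)
  refine ⟨n, r, c, fun m => ⟨IsOpenImmersion.lift (𝔸.incl (c m)) _ (hrange m), ?_⟩, hspan,
    fun m => (IsOpenImmersion.lift_fac _ _ _).symm⟩
  rw [← (𝔸.inclOver (c m)).2]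
  show _ ≫ 𝔸.incl (c m) ≫ 𝔸.toBase = _
  rw [IsOpenImmersion.lift_fac_assoc, Category.assoc, p.2, (specHom (toAway k (r m))).2]

/-- The classes of a point of the glued scheme. -/
def IsCls (p : SchemeHomOver (specT k A) 𝔸.toBase) (x : G.obj A) : Prop :=
  ∀ (i : 𝔸.ι) (A' : Type u) [CommRing A'] [Algebra k A'] (φ : A →ₐ[k] A')
    (a : SchemeHomOver (specT k A') (specT k (𝔸.R i))),
      (specHom φ).1 ≫ p.1 = a.1 ≫ 𝔸.incl i → G.map φ x = 𝔸.cl a

include hG

theorem existsUnique_cls (p : SchemeHomOver (specT k A) 𝔸.toBase) : ∃! x, 𝔸.IsCls p x := by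
  obtain ⟨n, r, c, a, hr, ha⟩ := 𝔸.exists_lift p
  obtain ⟨x, hx⟩ := hG.glue n r hr (fun m => 𝔸.cl (a m)) fun m m' A' _ _ f g hfg => by
    rw [← 𝔸.cl_comp, ← 𝔸.cl_comp]
    refine 𝔸.cl_eq_of_incl _ _ ?_
    show ((specHom f).1 ≫ (a m).1) ≫ _ = ((specHom g).1 ≫ (a m').1) ≫ _
    rw [Category.assoc, Category.assoc, ← ha, ← ha, ← Category.assoc, ← Category.assoc]
    exact congrArg (· ≫ p.1) (congrArg Subtype.val ((specHom_comp f (toAway k (r m))).symm.trans
      ((congrArg specHom hfg).trans (specHom_comp g (toAway k (r m'))))))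
  refine ⟨x, fun i A' _ _ φ b hb => ?_, fun y hy => hG.sep n r hr y x fun m =>
    (hy _ _ _ (a m) (ha m)).trans (hx m).symm⟩
  have hr' : Ideal.span (Set.range (φ ∘ r)) = ⊤ := by
    rw [Set.range_comp]
    exact (Ideal.map_span φ _).symm.trans (by rw [hr]; exact Ideal.map_top φ)
  refine hG.sep n (φ ∘ r) hr' _ _ fun m => ?_
  let ψ : Localization.Away (r m) →ₐ[k] Localization.Away (φ (r m)) := awayMap φ (r m)
  have hψ : ψ.comp (toAway k (r m)) = (toAway k (φ (r m))).comp φ := awayMap_comp φ (r m)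
  show G.map (toAway k (φ (r m))) (G.map φ x) = G.map (toAway k (φ (r m))) (𝔸.cl b)
  rw [← G.map_comp, ← hψ, G.map_comp, hx, ← 𝔸.cl_comp, ← 𝔸.cl_comp]
  refine 𝔸.cl_eq_of_incl _ _ ?_
  show ((specHom ψ).1 ≫ (a m).1) ≫ _ = ((specHom (toAway k (φ (r m)))).1 ≫ b.1) ≫ _
  rw [Category.assoc, Category.assoc, ← ha, ← hb, ← Category.assoc, ← Category.assoc]
  exact congrArg (· ≫ p.1) (congrArg Subtype.val ((specHom_comp ψ (toAway k (r m))).symm.trans
    ((congrArg specHom hψ).trans (specHom_comp (toAway k (φ (r m))) φ))))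

/-- The class of a point. -/
def pt (p : SchemeHomOver (specT k A) 𝔸.toBase) : G.obj A := (𝔸.existsUnique_cls hG p).choose

theorem pt_spec (p : SchemeHomOver (specT k A) 𝔸.toBase) : 𝔸.IsCls p (𝔸.pt hG p) :=
  (𝔸.existsUnique_cls hG p).choose_spec.1

theorem pt_map {A' : Type u} [CommRing A'] [Algebra k A'] (φ : A →ₐ[k] A')
    (p : SchemeHomOver (specT k A) 𝔸.toBase) :
    𝔸.pt hG (postComp p (specHom φ)) = G.map φ (𝔸.pt hG p) := by
  refine ((𝔸.existsUnique_cls hG (postComp p (specHom φ))).choose_spec.2 _ ?_).symm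
  intro i A'' _ _ ψ a h
  rw [← G.map_comp]
  refine 𝔸.pt_spec hG p i A'' (ψ.comp φ) a ?_
  rw [specHom_comp]
  exact (Category.assoc _ _ _).trans h

theorem pt_injective {p p' : SchemeHomOver (specT k A) 𝔸.toBase}
    (h : 𝔸.pt hG p = 𝔸.pt hG p') : p = p' := by
  refine Subtype.ext ?_
  obtain ⟨n, r, c, a, hr, ha⟩ := 𝔸.exists_lift p
  refine Scheme.Cover.hom_ext
    (Scheme.affineOpenCoverOfSpanRangeEqTop (R := CommRingCat.of A) r hr).openCover _ _ fun m => ?_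
  show (specHom (toAway k (r m))).1 ≫ p.1 = (specHom (toAway k (r m))).1 ≫ p'.1
  obtain ⟨n', r', c', a', hr', ha'⟩ := 𝔸.exists_lift (postComp p' (specHom (toAway k (r m))))
  refine Scheme.Cover.hom_ext (Scheme.affineOpenCoverOfSpanRangeEqTop
    (R := CommRingCat.of (Localization.Away (r m))) r' hr').openCover _ _ fun l => ?_
  show (specHom (toAway k (r' l))).1 ≫ _ = (specHom (toAway k (r' l))).1 ≫ _
  refine Eq.trans ?_ (ha' l).symm
  rw [ha m, ← Category.assoc]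
  refine 𝔸.incl_eq_of_cl (postComp (a m) (specHom (toAway k (r' l)))) (a' l) ?_
  rw [𝔸.cl_comp, ← 𝔸.pt_spec hG p _ _ (toAway k (r m)) (a m) (ha m), h, ← 𝔸.pt_map hG]
  exact 𝔸.pt_spec hG _ _ _ _ (a' l) (ha' l)

theorem pt_surjective (x : G.obj A) : ∃ p, 𝔸.pt hG p = x := by
  obtain ⟨n, rr, hspan, hr⟩ := exists_span_cover
    (A := A) (fun r : A => ∃ i, (PrimeSpectrum.basicOpen r : Set (PrimeSpectrum A)) ⊆ 𝔸.locus i x) fun z => by
    obtain ⟨i, hi⟩ := 𝔸.cover x z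
    obtain ⟨_, ⟨r, rfl⟩, hz, hsub⟩ :=
      PrimeSpectrum.isTopologicalBasis_basic_opens.exists_subset_of_mem_open hi (𝔸.locus i x).2
    refine ⟨r, hz, ?_⟩
    exact ⟨i, hsub⟩
  choose c hc using hr
  have hlift : ∀ r, ∃ ψ : 𝔸.R (c r) →ₐ[k] Localization.Away (rr r),
      G.map ψ (𝔸.univ (c r)) = G.map (toAway k (rr r)) x := fun r =>
    (𝔸.mem_iff _ _ _ _).2 (((range_toAway (k := k) (rr r))).le.trans (hc r))
  choose ψ hψ using hlift
  let 𝒰 := (Scheme.affineOpenCoverOfSpanRangeEqTop (R := CommRingCat.of A) rr hspan).openCover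
  let f : ∀ r : Fin n, 𝒰.X r ⟶ 𝔸.P := fun r => (specHom (ψ r)).1 ≫ 𝔸.incl (c r)
  have hb : ∀ r : Fin n, f r ≫ 𝔸.toBase = 𝒰.f r ≫ specT k A := fun r => by
    show ((specHom (ψ r)).1 ≫ 𝔸.incl (c r)) ≫ 𝔸.toBase = (specHom (toAway k (rr r))).1 ≫ specT k A
    rw [Category.assoc, show 𝔸.incl (c r) ≫ 𝔸.toBase = _ from (𝔸.inclOver (c r)).2, (specHom (ψ r)).2,
      (specHom (toAway k (rr r))).2]
  have key : ∀ (r : Fin n) {A' : Type u} [CommRing A'] [Algebra k A'] (φ : A →ₐ[k] A')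
      (q : Spec (CommRingCat.of A') ⟶ 𝒰.X r) (hq : q ≫ 𝒰.f r = (specHom φ).1),
      ∃ a : SchemeHomOver (specT k A') (specT k (𝔸.R (c r))),
        q ≫ f r = a.1 ≫ 𝔸.incl (c r) ∧ 𝔸.cl a = G.map φ x := by
    intro r A' _ _ φ q hq
    let q' : SchemeHomOver (specT k A') (specT k (Localization.Away (rr r))) := ⟨q, by
      exact ((congrArg (q ≫ ·) (specHom (toAway k (rr r))).2).symm.trans
        (Category.assoc _ _ _).symm).trans ((congrArg (· ≫ specT k A) hq).trans (specHom φ).2)⟩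
    refine ⟨postComp (specHom (ψ r)) (specHom (algOf q')), ?_, ?_⟩
    · rw [specHom_algOf]; exact (Category.assoc _ _ _).symm
    · rw [𝔸.cl_comp, cl, algOf_specHom, hψ, ← G.map_comp]
      congr 1
      refine specHom_injective ?_
      rw [specHom_comp, specHom_algOf]
      exact hq
  have hov : ∀ r r' : Fin n, pullback.fst (𝒰.f r) (𝒰.f r') ≫ f r = pullback.snd (𝒰.f r) (𝒰.f r') ≫ f r' := by
    intro r r'
    refine Scheme.Cover.hom_ext (pullback (𝒰.f r) (𝒰.f r')).affineCover _ _ fun z => ?_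
    obtain ⟨A', hA⟩ : ∃ A' : CommRingCat.{u}, (pullback (𝒰.f r) (𝒰.f r')).affineCover.X z = Spec A' :=
      ⟨_, rfl⟩
    let s := eqToHom hA.symm ≫ (pullback (𝒰.f r) (𝒰.f r')).affineCover.f z
    obtain ⟨χ, hχ⟩ := Spec.map_surjective (s ≫ pullback.fst _ _ ≫ 𝒰.f r ≫ specT k A)
    letI : Algebra k A' := χ.hom.toAlgebra
    let w : SchemeHomOver (specT k A') (specT k A) :=
      ⟨s ≫ pullback.fst _ _ ≫ 𝒰.f r, by simp only [Category.assoc]; exact hχ.symm⟩
    obtain ⟨a, ha, ha'⟩ := key r (algOf w) (s ≫ pullback.fst _ _)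
      (by rw [specHom_algOf, Category.assoc])
    obtain ⟨b, hb', hb''⟩ := key r' (algOf w) (s ≫ pullback.snd _ _)
      (by rw [specHom_algOf, Category.assoc, ← pullback.condition])
    refine (cancel_epi (eqToHom hA.symm)).1 ?_
    have := (ha.trans ((𝔸.incl_eq_of_cl a b (ha'.trans hb''.symm)).trans hb'.symm))
    simpa only [s, Category.assoc] using this
  let p : SchemeHomOver (specT k A) 𝔸.toBase := ⟨𝒰.glueMorphisms f hov,
    Scheme.Cover.hom_ext 𝒰 _ _ fun r => (Category.assoc _ _ _).symm.trans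
      ((congrArg (· ≫ 𝔸.toBase) (𝒰.ι_glueMorphisms f hov r)).trans (hb r))⟩
  refine ⟨p, ((𝔸.existsUnique_cls hG p).choose_spec.2 x ?_).symm⟩
  intro i A' _ _ φ b hb'
  refine hG.sep n (φ ∘ rr) ?_ _ _ fun m => ?_
  · rw [Set.range_comp]
    exact (Ideal.map_span φ _).symm.trans (by rw [hspan]; exact Ideal.map_top φ)
  let χ : Localization.Away (rr m) →ₐ[k] Localization.Away (φ (rr m)) := awayMap φ (rr m)
  have hχ : χ.comp (toAway k (rr m)) = (toAway k (φ (rr m))).comp φ := awayMap_comp φ (rr m)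
  obtain ⟨a, ha, ha'⟩ := key m (χ.comp (toAway k (rr m))) (specHom χ).1
    (by rw [specHom_comp]; rfl)
  have e : (specHom (χ.comp (toAway k (rr m)))).1 ≫ p.1 = a.1 ≫ 𝔸.incl (c m) := by
    rw [← ha, specHom_comp]
    exact (Category.assoc _ _ _).trans (congrArg ((specHom χ).1 ≫ ·) (𝒰.ι_glueMorphisms f hov m))
  show G.map (toAway k (φ (rr m))) (G.map φ x) = G.map (toAway k (φ (rr m))) (𝔸.cl b)
  rw [← G.map_comp, ← hχ, ← ha', ← 𝔸.cl_comp]
  refine 𝔸.cl_eq_of_incl _ _ (e.symm.trans ?_)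
  rw [hχ, specHom_comp]
  show ((specHom (toAway k (φ (rr m)))).1 ≫ (specHom φ).1) ≫ p.1 = ((specHom (toAway k (φ (rr m)))).1 ≫ b.1) ≫ _
  rw [Category.assoc, Category.assoc]
  exact congrArg ((specHom (toAway k (φ (rr m)))).1 ≫ ·) hb'

end AlgFun.Atlas

/-- A sheaf with an atlas is represented by a scheme. -/
theorem AlgFun.exists_scheme (G : AlgFun k) (hG : G.IsSheaf) (𝔸 : G.Atlas) :
    ∃ (P : Scheme.{u}) (π : P ⟶ Spec (CommRingCat.of k))
      (η : ∀ (A : Type u) [CommRing A] [Algebra k A], SchemeHomOver (specT k A) π ≃ G.obj A),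
      ∀ {A A' : Type u} [CommRing A] [Algebra k A] [CommRing A'] [Algebra k A'] (φ : A →ₐ[k] A')
        (p : SchemeHomOver (specT k A) π), η A' (postComp p (specHom φ)) = G.map φ (η A p) :=
  ⟨𝔸.P, 𝔸.toBase, fun _ _ _ => Equiv.ofBijective (𝔸.pt hG)
    ⟨fun _ _ h => 𝔸.pt_injective hG h, fun x => 𝔸.pt_surjective hG x⟩,
    fun φ p => 𝔸.pt_map hG φ p⟩

end FLTAgent.PicScheme
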