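import Fermat.Agent.PicScheme.Bridge
import Fermat.Agent.PicScheme.Basic

/-!
# Vanishing of the cokernel and base change
-/

set_option autoImplicit false
set_option linter.unusedSectionVars false
set_option linter.style.haveILetI false

noncomputable section

universe u

open TensorProduct Matrix

namespace FLTAgent.PicScheme

variable {k : Type u} [Field k] {X : Charts k} {A A' : Type u} [CommRing A] [Algebra k A]
  [CommRing A'] [Algebra k A']

namespace Datum

variable (L : Datum X A)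

/-- The difference map with the complement of the overlap adjoined: a map of free modules whose
cokernel is that of the difference map. -/
def fullDelta : (((Fin L.n₁ → X.R₁ A) × (Fin L.n₂ → X.R₂ A)) × (Fin L.n₂ → X.R₀ A)) →ₗ[A]
    (Fin L.n₂ → X.R₀ A) :=
  L.delta.coprod (LinearMap.id - (L.e₂.map (X.res₂ A)).mulVecLin.restrictScalars A)

theorem delta_mem (p : (Fin L.n₁ → X.R₁ A) × (Fin L.n₂ → X.R₂ A)) : L.delta p ∈ L.overlap :=
  Submodule.sub_mem _ (L.u_mem _) ⟨_, rfl⟩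

theorem fullDelta_apply (p : ((Fin L.n₁ → X.R₁ A) × (Fin L.n₂ → X.R₂ A)) × (Fin L.n₂ → X.R₀ A)) :
    L.fullDelta p = L.delta p.1 + (p.2 - L.e₂.map (X.res₂ A) *ᵥ p.2) := rfl

theorem surjective_fullDelta_iff :
    Function.Surjective L.fullDelta ↔ L.overlap ≤ LinearMap.range L.delta := by
  constructor
  · intro h z hz
    obtain ⟨p, hp⟩ := h z
    refine ⟨p.1, ?_⟩
    have h1 := congrArg (fun w => L.e₂.map (X.res₂ A) *ᵥ w) hp
    simp only [L.fullDelta_apply, Matrix.mulVec_add, Matrix.mulVec_sub, Matrix.mulVec_mulVec,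
      ← Matrix.map_mul, L.rank₂.idem, sub_self, add_zero, L.mem_overlap.1 (L.delta_mem p.1),
      L.mem_overlap.1 hz] at h1
    exact h1
  · intro h z
    obtain ⟨p, hp⟩ := h (⟨z, rfl⟩ : L.e₂.map (X.res₂ A) *ᵥ z ∈ L.overlap)
    exact ⟨(p, z), by rw [L.fullDelta_apply, hp]; exact add_sub_cancel _ _⟩

variable (φ : A →ₐ[k] A')

/-- Entrywise change of coefficients. -/
def vecMap (B : Type u) [CommRing B] [Algebra k B] {n : ℕ} (x : Fin n → A ⊗[k] B) :
    Fin n → A' ⊗[k] B := chartMap B φ ∘ x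

theorem vecMap_add (B : Type u) [CommRing B] [Algebra k B] {n : ℕ} (x y : Fin n → A ⊗[k] B) :
    vecMap φ B (x + y) = vecMap φ B x + vecMap φ B y := funext fun _ => map_add _ _ _

theorem vecMap_sub (B : Type u) [CommRing B] [Algebra k B] {n : ℕ} (x y : Fin n → A ⊗[k] B) :
    vecMap φ B (x - y) = vecMap φ B x - vecMap φ B y := funext fun _ => map_sub _ _ _

theorem chartMap_smul (B : Type u) [CommRing B] [Algebra k B] (a : A) (x : A ⊗[k] B) :
    chartMap B φ (a • x) = φ a • chartMap B φ x := by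
  induction x using TensorProduct.induction_on with
  | zero => simp
  | tmul c b => simp [chartMap, TensorProduct.smul_tmul', map_mul]
  | add x y hx hy => simp [smul_add, hx, hy]

theorem vecMap_smul (B : Type u) [CommRing B] [Algebra k B] {n : ℕ} (a : A)
    (x : Fin n → A ⊗[k] B) : vecMap φ B (a • x) = φ a • vecMap φ B x :=
  funext fun i => chartMap_smul φ B a (x i)

/-- The vectors over `A` span those over `A'`. -/
theorem span_vecMap (B : Type u) [CommRing B] [Algebra k B] {n : ℕ} (y : Fin n → A' ⊗[k] B) :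
    y ∈ Submodule.span A' (Set.range (vecMap φ B (n := n))) := by
  rw [← Finset.univ_sum_single y]
  refine Submodule.sum_mem _ fun i _ => ?_
  induction y i using TensorProduct.induction_on with
  | zero => simp
  | tmul c b =>
    rw [show c ⊗ₜ[k] b = c • ((1 : A') ⊗ₜ[k] b) by rw [TensorProduct.smul_tmul', smul_eq_mul, mul_one],
      Pi.single_smul]
    refine Submodule.smul_mem _ _ (Submodule.subset_span ⟨Pi.single i ((1 : A) ⊗ₜ b), ?_⟩)
    funext j
    by_cases h : j = i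
    · subst h; simp [vecMap, chartMap]
    · simp [vecMap, Pi.single_eq_of_ne h]
  | add x z hx hz => rw [Pi.single_add]; exact Submodule.add_mem _ hx hz

theorem vecMap_delta (x : Fin L.n₁ → X.R₁ A) (y : Fin L.n₂ → X.R₂ A) :
    vecMap φ X.B₀ (L.delta (x, y)) = (L.map φ).delta (vecMap φ X.B₁ x, vecMap φ X.B₂ y) := by
  funext i
  show chartMap X.B₀ φ ((L.u *ᵥ (X.res₁ A ∘ x)) i - (L.e₂.map (X.res₂ A) *ᵥ (X.res₂ A ∘ y)) i) = _
  rw [map_sub]
  show (chartMap X.B₀ φ).toRingHom _ - (chartMap X.B₀ φ).toRingHom _ = _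
  rw [RingHom.map_mulVec, RingHom.map_mulVec]
  show _ = ((L.u.map (chartMap X.B₀ φ)) *ᵥ (X.res₁ A' ∘ vecMap φ X.B₁ x) -
    ((L.e₂.map (chartMap X.B₂ φ)).map (X.res₂ A')) *ᵥ (X.res₂ A' ∘ vecMap φ X.B₂ y)) i
  rw [Pi.sub_apply]
  have e1 : (chartMap X.B₀ φ).toRingHom ∘ (X.res₁ A ∘ x) = X.res₁ A' ∘ vecMap φ X.B₁ x :=
    funext fun j => chartMap_res₁ φ (x j)
  have e2 : (L.e₂.map (X.res₂ A)).map (chartMap X.B₀ φ).toRingHom =
      (L.e₂.map (chartMap X.B₂ φ)).map (X.res₂ A') := Matrix.ext fun a b => chartMap_res₂ φ (L.e₂ a b)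
  have e3 : (chartMap X.B₀ φ).toRingHom ∘ (X.res₂ A ∘ y) = X.res₂ A' ∘ vecMap φ X.B₂ y :=
    funext fun j => chartMap_res₂ φ (y j)
  rw [e1, e2, e3]
  rfl

theorem vecMap_mulVec_e₂ (z : Fin L.n₂ → X.R₀ A) :
    vecMap φ X.B₀ (L.e₂.map (X.res₂ A) *ᵥ z) =
      (L.map φ).e₂.map (X.res₂ A') *ᵥ vecMap φ X.B₀ z := by
  funext i
  show (chartMap X.B₀ φ).toRingHom _ = _
  rw [RingHom.map_mulVec, show (L.e₂.map (X.res₂ A)).map (chartMap X.B₀ φ).toRingHom =
      (L.map φ).e₂.map (X.res₂ A') from Matrix.ext fun a b => chartMap_res₂ φ (L.e₂ a b)]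
  rfl

theorem vecMap_fullDelta (p : ((Fin L.n₁ → X.R₁ A) × (Fin L.n₂ → X.R₂ A)) × (Fin L.n₂ → X.R₀ A)) :
    vecMap φ X.B₀ (L.fullDelta p) = (L.map φ).fullDelta
      ((vecMap φ X.B₁ p.1.1, vecMap φ X.B₂ p.1.2), vecMap φ X.B₀ p.2) := by
  rw [L.fullDelta_apply, (L.map φ).fullDelta_apply, vecMap_add, vecMap_sub, L.vecMap_delta φ,
    L.vecMap_mulVec_e₂ φ]
  rfl

theorem range_fullDelta_map :
    LinearMap.range (L.map φ).fullDelta =
      Submodule.span A' ((vecMap φ X.B₀ (n := L.n₂)) '' ((LinearMap.range L.fullDelta : Submodule A (Fin L.n₂ → X.R₀ A)) : Set (Fin L.n₂ → X.R₀ A))) := by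
  refine le_antisymm ?_ (Submodule.span_le.2 ?_)
  · set F := (L.map φ).fullDelta
    set S : Submodule A' (Fin (L.map φ).n₂ → X.R₀ A') := Submodule.span A'
      ((vecMap φ X.B₀ (n := L.n₂)) '' ((LinearMap.range L.fullDelta : Submodule A (Fin L.n₂ → X.R₀ A)) :
        Set (Fin L.n₂ → X.R₀ A)))
    have key : ∀ (x : Fin L.n₁ → X.R₁ A) (y : Fin L.n₂ → X.R₂ A) (z : Fin L.n₂ → X.R₀ A),
        F ((vecMap φ X.B₁ x, vecMap φ X.B₂ y), vecMap φ X.B₀ z) ∈ S := fun x y z =>
      Submodule.subset_span ⟨_, ⟨((x, y), z), rfl⟩, L.vecMap_fullDelta φ ((x, y), z)⟩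
    have z1 : vecMap φ X.B₁ (0 : Fin L.n₁ → X.R₁ A) = 0 := funext fun i => map_zero _
    have z2 : vecMap φ X.B₂ (0 : Fin L.n₂ → X.R₂ A) = 0 := funext fun i => map_zero _
    have z3 : vecMap φ X.B₀ (0 : Fin L.n₂ → X.R₀ A) = 0 := funext fun i => map_zero _
    set G₁ := F ∘ₗ (LinearMap.inl A' _ _) ∘ₗ
      (LinearMap.inl A' (Fin (L.map φ).n₁ → X.R₁ A') (Fin (L.map φ).n₂ → X.R₂ A'))
    set G₂ := F ∘ₗ (LinearMap.inl A' _ _) ∘ₗ
      (LinearMap.inr A' (Fin (L.map φ).n₁ → X.R₁ A') (Fin (L.map φ).n₂ → X.R₂ A'))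
    set G₀ := F ∘ₗ (LinearMap.inr A' ((Fin (L.map φ).n₁ → X.R₁ A') × (Fin (L.map φ).n₂ → X.R₂ A'))
      (Fin (L.map φ).n₂ → X.R₀ A'))
    have h1 : ∀ x, G₁ x ∈ S := fun x => (Submodule.span_le (p := S.comap G₁)).2 (by
      rintro _ ⟨w, rfl⟩
      have := key w 0 0
      erw [z2, z3] at this
      exact this) (span_vecMap φ X.B₁ x)
    have h2 : ∀ y, G₂ y ∈ S := fun y => (Submodule.span_le (p := S.comap G₂)).2 (by
      rintro _ ⟨w, rfl⟩
      have := key 0 w 0
      erw [z1, z3] at this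
      exact this) (span_vecMap φ X.B₂ y)
    have h3 : ∀ z, G₀ z ∈ S := fun z => (Submodule.span_le (p := S.comap G₀)).2 (by
      rintro _ ⟨w, rfl⟩
      have := key 0 0 w
      erw [z1, z2] at this
      exact this) (span_vecMap φ X.B₀ z)
    rintro _ ⟨⟨⟨x, y⟩, z⟩, rfl⟩
    have e : F ((x, y), z) = G₁ x + G₂ y + G₀ z := by
      simp [G₁, G₂, G₀, ← map_add]
    rw [e]
    exact S.add_mem (S.add_mem (h1 x) (h2 y)) (h3 z)
  · rintro _ ⟨_, ⟨p, rfl⟩, rfl⟩
    exact ⟨_, (L.vecMap_fullDelta φ p).symm⟩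

/-- Vanishing of the cokernel is inherited by base change. -/
theorem overlap_le_map (h : L.overlap ≤ LinearMap.range L.delta) :
    (L.map φ).overlap ≤ LinearMap.range (L.map φ).delta := by
  rw [← surjective_fullDelta_iff] at h ⊢
  rw [← LinearMap.range_eq_top, L.range_fullDelta_map φ, LinearMap.range_eq_top.2 h,
    Submodule.top_coe, Set.image_univ]
  exact Submodule.eq_top_iff'.2 fun y => span_vecMap φ X.B₀ y

theorem finite_coker_full : Module.Finite A ((Fin L.n₂ → X.R₀ A) ⧸ LinearMap.range L.fullDelta) := by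
  haveI := L.finite_coker X.isFree
  set K := (LinearMap.range L.delta).comap L.overlap.subtype
  refine Module.Finite.of_surjective
    (Submodule.mapQ K (LinearMap.range L.fullDelta) L.overlap.subtype ?_) ?_
  · rintro z ⟨p, hp⟩
    exact ⟨(p, 0), by rw [L.fullDelta_apply]; simpa using hp⟩
  · intro q
    obtain ⟨z, rfl⟩ := Submodule.mkQ_surjective _ q
    refine ⟨Submodule.Quotient.mk ⟨L.e₂.map (X.res₂ A) *ᵥ z, ⟨z, rfl⟩⟩, ?_⟩
    rw [Submodule.mapQ_apply, Submodule.mkQ_apply, Submodule.Quotient.eq]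
    refine ⟨(0, -z), ?_⟩
    rw [L.fullDelta_apply]
    simp [Matrix.mulVec_neg, neg_add_eq_sub]

/-- If the cokernel vanishes after base change to a field, it vanishes near the point below. -/
theorem exists_smul_mem_range (K : Type u) [Field K] [Algebra k K] (ψ : A →ₐ[k] K)
    (h : (L.map ψ).overlap ≤ LinearMap.range (L.map ψ).delta) :
    ∃ f : A, ψ f ≠ 0 ∧ ∀ z ∈ L.overlap, f • z ∈ LinearMap.range L.delta := by
  classical
  letI : Algebra A K := ψ.toRingHom.toAlgebra
  haveI := L.finite_coker_full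
  haveI : SMulCommClass A k K := ⟨fun a c x => by
    simp only [Algebra.smul_def]; ring⟩
  haveI : IsScalarTower k A K := IsScalarTower.of_algebraMap_eq fun c => (ψ.commutes c).symm
  set Q := (Fin L.n₂ → X.R₀ A) ⧸ LinearMap.range L.fullDelta
  -- the map from vectors over `K` to the base change of the cokernel
  set q : Fin L.n₂ → X.B₀ →ₗ[k] Q := fun j =>
    ((LinearMap.range L.fullDelta).mkQ.restrictScalars k) ∘ₗ
      (LinearMap.single k (fun _ => X.R₀ A) j) ∘ₗ
        (Algebra.TensorProduct.includeRight : X.B₀ →ₐ[k] X.R₀ A).toLinearMap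
  set Ψj : Fin L.n₂ → X.R₀ K →ₗ[K] K ⊗[A] Q := fun j =>
    TensorProduct.AlgebraTensorModule.lift (LinearMap.toSpanSingleton K (X.B₀ →ₗ[k] K ⊗[A] Q)
      (((TensorProduct.mk A K Q 1).restrictScalars k) ∘ₗ q j))
  set Ψ : (Fin L.n₂ → X.R₀ K) →ₗ[K] K ⊗[A] Q := ∑ j, Ψj j ∘ₗ LinearMap.proj j
  have hΨ : ∀ z : Fin L.n₂ → X.R₀ A, Ψ (vecMap ψ X.B₀ z) = 1 ⊗ₜ Submodule.Quotient.mk z := by
    intro z
    rw [show Ψ (vecMap ψ X.B₀ z) = ∑ j, Ψj j (chartMap X.B₀ ψ (z j)) by
      simp [Ψ, LinearMap.sum_apply, vecMap]]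
    conv_rhs => rw [← Finset.univ_sum_single z, ← Submodule.mkQ_apply, map_sum, TensorProduct.tmul_sum]
    refine Finset.sum_congr rfl fun j _ => ?_
    induction z j using TensorProduct.induction_on with
    | zero => simp
    | tmul a b =>
      have h1 : Ψj j (chartMap X.B₀ ψ (a ⊗ₜ b)) = ψ a • ((1 : K) ⊗ₜ[A] q j b) := by
        simp [Ψj, chartMap, LinearMap.toSpanSingleton]
      rw [h1, show a ⊗ₜ[k] b = a • ((1 : A) ⊗ₜ[k] b) by
        rw [TensorProduct.smul_tmul', smul_eq_mul, mul_one], Pi.single_smul, map_smul,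
        TensorProduct.tmul_smul, ← algebraMap_smul K a]
      rfl
    | add x y hx hy =>
      rw [map_add, map_add, hx, hy, Pi.single_add, map_add, TensorProduct.tmul_add]
  have hK : ∀ x : K ⊗[A] Q, x = 0 := by
    intro x
    induction x using TensorProduct.induction_on with
    | zero => rfl
    | tmul c y =>
      obtain ⟨z, rfl⟩ := Submodule.mkQ_surjective _ y
      have hz : vecMap ψ X.B₀ z ∈ LinearMap.range (L.map ψ).fullDelta :=
        ((L.map ψ).surjective_fullDelta_iff.2 h) _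
      rw [L.range_fullDelta_map ψ] at hz
      have h0 : Ψ (vecMap ψ X.B₀ z) = 0 := by
        refine Submodule.span_induction (p := fun w _ => Ψ w = 0) ?_ (map_zero _) ?_ ?_ hz
        · rintro _ ⟨w, hw, rfl⟩
          rw [hΨ, (Submodule.Quotient.mk_eq_zero _).2 hw, TensorProduct.tmul_zero]
        · intro a b _ _ ha hb; rw [map_add, ha, hb, add_zero]
        · intro c a _ ha; rw [map_smul, ha, smul_zero]
      rw [hΨ] at h0
      rw [Submodule.mkQ_apply, ← mul_one c, ← smul_eq_mul, ← TensorProduct.smul_tmul', h0, smul_zero]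
    | add a b ha hb => rw [ha, hb, add_zero]
  haveI : Subsingleton (K ⊗[A] Q) := ⟨fun a b => by rw [hK a, hK b]⟩
  set p : PrimeSpectrum A := ⟨RingHom.ker ψ.toRingHom, RingHom.ker_isPrime _⟩
  haveI := p.isPrime
  have hp : p ∉ Module.support A Q := by
    intro hp
    rw [Module.mem_support_iff_nontrivial_residueField_tensorProduct] at hp
    let χ : p.asIdeal.ResidueField →ₐ[A] K :=
      Ideal.ResidueField.liftₐ p.asIdeal (Algebra.ofId A K) le_rfl (fun a ha => by
        refine IsUnit.mk0 _ fun h0 => ha ?_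
        exact h0)
    letI : Algebra p.asIdeal.ResidueField K := χ.toRingHom.toAlgebra
    haveI : IsScalarTower A p.asIdeal.ResidueField K :=
      IsScalarTower.of_algebraMap_eq fun a => (χ.commutes a).symm
    have e := TensorProduct.AlgebraTensorModule.cancelBaseChange A p.asIdeal.ResidueField K K Q
    haveI : Subsingleton (K ⊗[p.asIdeal.ResidueField] (p.asIdeal.ResidueField ⊗[A] Q)) :=
      e.toEquiv.subsingleton
    exact (not_subsingleton_iff_nontrivial.2 hp)
      (Module.FaithfullyFlat.lTensor_reflects_triviality p.asIdeal.ResidueField K _)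
  rw [Module.support_eq_zeroLocus] at hp
  obtain ⟨f, hf, hfp⟩ := Set.not_subset.1 hp
  refine ⟨f, fun h0 => hfp h0, fun z hz => ?_⟩
  have h1 := Module.mem_annihilator.1 hf (Submodule.Quotient.mk z)
  rw [← Submodule.Quotient.mk_smul, Submodule.Quotient.mk_eq_zero] at h1
  obtain ⟨q, hq⟩ := h1
  refine ⟨q.1, ?_⟩
  have h2 := congrArg (fun w => L.e₂.map (X.res₂ A) *ᵥ w) hq
  simp only [L.fullDelta_apply, Matrix.mulVec_add, Matrix.mulVec_sub, Matrix.mulVec_mulVec,
    ← Matrix.map_mul, L.rank₂.idem, sub_self, add_zero, L.mem_overlap.1 (L.delta_mem q.1),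
    L.mem_overlap.1 (L.overlap.smul_mem f hz)] at h2
  exact h2

end Datum

end FLTAgent.PicScheme
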