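import Mathlib

/-!
# The affine scheme of quotient algebras free on given elements

For a `k`-algebra `B` and elements `e i`, a point with values in `A` is the coordinate map of a
quotient algebra of `A ⊗ B` which is free on the images of the `e i`.
-/

set_option autoImplicit false
set_option linter.unusedSectionVars false

noncomputable section

open scoped TensorProduct

namespace FLTAgent.PicScheme

universe v

variable (k : Type v) {B : Type v} [Field k] [CommRing B] [Algebra k B] {n : ℕ} (e : Fin n → B)

/-- Coordinates of a quotient of `A ⊗ B` free on the `e i`. -/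
@[ext]
structure ChartPt (A : Type v) [CommRing A] [Algebra k A] where
  φ : B →ₗ[k] (Fin n → A)
  basis : ∀ i, φ (e i) = Pi.single i 1
  mul : ∀ b c, φ (c * b) = ∑ i, φ b i • φ (c * e i)

namespace ChartPt

variable {k e} {A A' A'' : Type v} [CommRing A] [Algebra k A] [CommRing A'] [Algebra k A']
  [CommRing A''] [Algebra k A'']

/-- The image of a point under a homomorphism. -/
def map (f : A →ₐ[k] A') (p : ChartPt k e A) : ChartPt k e A' where
  φ := (LinearMap.compLeft f.toLinearMap (Fin n)) ∘ₗ p.φ
  basis i := by
    ext j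
    simp [LinearMap.compLeft, p.basis, Pi.single_apply, apply_ite f]
  mul b c := by
    ext j
    simp [LinearMap.compLeft, p.mul b c, Finset.sum_apply]

theorem map_φ (f : A →ₐ[k] A') (p : ChartPt k e A) (b : B) (i : Fin n) :
    (p.map f).φ b i = f (p.φ b i) := rfl

theorem map_map (f : A →ₐ[k] A') (g : A' →ₐ[k] A'') (p : ChartPt k e A) :
    (p.map f).map g = p.map (g.comp f) := rfl

variable (p : ChartPt k e A)

/-- The coordinate map, extended to `A ⊗ B`. -/
def ext' : A ⊗[k] B →ₗ[A] (Fin n → A) :=
  TensorProduct.AlgebraTensorModule.lift ((LinearMap.toSpanSingleton A _ p.φ))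

theorem ext'_tmul (a : A) (b : B) : p.ext' (a ⊗ₜ b) = a • p.φ b := by
  simp [ext', LinearMap.toSpanSingleton]

theorem ext'_surjective : Function.Surjective p.ext' := fun v =>
  ⟨∑ i, v i ⊗ₜ e i, by
    rw [map_sum]
    ext j
    simp [p.ext'_tmul, p.basis, Pi.single_apply]⟩

theorem ext'_mul (x : A ⊗[k] B) (c : B) :
    p.ext' ((1 ⊗ₜ c) * x) = ∑ i, p.ext' x i • p.φ (c * e i) := by
  induction x using TensorProduct.induction_on with
  | zero => simp
  | tmul a b =>
    rw [Algebra.TensorProduct.tmul_mul_tmul, one_mul, p.ext'_tmul, p.ext'_tmul, p.mul,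
      Finset.smul_sum]
    exact Finset.sum_congr rfl fun i _ => by rw [smul_smul, Pi.smul_apply, smul_eq_mul]
  | add x y hx hy => simp [mul_add, hx, hy, add_smul, Finset.sum_add_distrib]

/-- The ideal cutting out the quotient. -/
def ideal : Ideal (A ⊗[k] B) where
  carrier := {x | p.ext' x = 0}
  add_mem' {x y} hx hy := by simp only [Set.mem_ofPred_eq] at *; rw [map_add, hx, hy, add_zero]
  zero_mem' := map_zero _
  smul_mem' := by
    intro z x (hx : p.ext' x = 0)
    show p.ext' (z * x) = 0
    induction z using TensorProduct.induction_on with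
    | zero => simp
    | tmul a c =>
      rw [show a ⊗ₜ[k] c = a • ((1 : A) ⊗ₜ[k] c) by rw [TensorProduct.smul_tmul', smul_eq_mul, mul_one],
        smul_mul_assoc, map_smul, p.ext'_mul, hx]
      simp
    | add z w hz hw => rw [add_mul, map_add, hz, hw, add_zero]

theorem mem_ideal {x : A ⊗[k] B} : x ∈ p.ideal ↔ p.ext' x = 0 := Iff.rfl

/-- The quotient is free on the `e i`. -/
def quotEquiv : ((A ⊗[k] B) ⧸ p.ideal) ≃ₗ[A] (Fin n → A) :=
  LinearEquiv.ofBijective
    (Submodule.liftQ (p.ideal.restrictScalars A) p.ext' fun _ hx => LinearMap.mem_ker.2 hx)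
    ⟨LinearMap.ker_eq_bot.1 (Submodule.ker_liftQ_eq_bot _ _ _ fun _ hx => LinearMap.mem_ker.1 hx),
    fun v => by obtain ⟨x, hx⟩ := p.ext'_surjective v; exact ⟨Submodule.Quotient.mk x, hx⟩⟩

end ChartPt

/-- A quotient free on the images of the `e i` gives a point. -/
def ChartPt.ofIdeal {A : Type v} [CommRing A] [Algebra k A] (I : Ideal (A ⊗[k] B))
    (b : Module.Basis (Fin n) A ((A ⊗[k] B) ⧸ I))
    (hb : ∀ i, b i = Ideal.Quotient.mk I (1 ⊗ₜ e i)) : ChartPt k e A where
  φ := (b.equivFun.toLinearMap.restrictScalars k) ∘ₗ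
    ((Ideal.Quotient.mkₐ k I).toLinearMap ∘ₗ
      (Algebra.TensorProduct.includeRight : B →ₐ[k] A ⊗[k] B).toLinearMap)
  basis i := by
    simp only [LinearMap.comp_apply, LinearMap.restrictScalars_apply, AlgHom.toLinearMap_apply,
      Algebra.TensorProduct.includeRight_apply, Ideal.Quotient.mkₐ_eq_mk, LinearEquiv.coe_coe]
    rw [← hb i]
    ext j
    rw [Module.Basis.equivFun_self, Pi.single_apply]
    simp [eq_comm]
  mul x c := by
    simp only [LinearMap.comp_apply, LinearMap.restrictScalars_apply, AlgHom.toLinearMap_apply,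
      Algebra.TensorProduct.includeRight_apply, Ideal.Quotient.mkₐ_eq_mk, LinearEquiv.coe_coe]
    have h := congrArg (fun y => b.equivFun (Ideal.Quotient.mk I (1 ⊗ₜ c) * y))
      (b.sum_equivFun (Ideal.Quotient.mk I (1 ⊗ₜ x)))
    rw [← map_mul, Algebra.TensorProduct.tmul_mul_tmul, one_mul] at h
    rw [← h, Finset.mul_sum, map_sum]
    refine Finset.sum_congr rfl fun i _ => ?_
    rw [mul_smul_comm, map_smul, hb i, ← map_mul, Algebra.TensorProduct.tmul_mul_tmul, one_mul]

/-- Relations of the universal point. -/
inductive ChartRel : MvPolynomial (B × Fin n) k → Prop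
  | add (b c : B) (l : Fin n) :
      ChartRel (MvPolynomial.X (b + c, l) - (MvPolynomial.X (b, l) + MvPolynomial.X (c, l)))
  | smul (r : k) (b : B) (l : Fin n) :
      ChartRel (MvPolynomial.X (r • b, l) - MvPolynomial.C r * MvPolynomial.X (b, l))
  | basis (i l : Fin n) :
      ChartRel (MvPolynomial.X (e i, l) - if i = l then 1 else 0)
  | mul (b c : B) (l : Fin n) :
      ChartRel (MvPolynomial.X (c * b, l) -
        ∑ i, MvPolynomial.X (b, i) * MvPolynomial.X (c * e i, l))

/-- The coordinate ring of the chart. -/
def ChartRing : Type v := MvPolynomial (B × Fin n) k ⧸ Ideal.span {x | ChartRel k e x}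

instance : CommRing (ChartRing k e) := inferInstanceAs (CommRing (_ ⧸ _))
instance : Algebra k (ChartRing k e) := inferInstanceAs (Algebra k (_ ⧸ _))

namespace ChartRing

/-- The quotient map. -/
def mk : MvPolynomial (B × Fin n) k →ₐ[k] ChartRing k e := Ideal.Quotient.mkₐ k _

theorem mk_surjective : Function.Surjective (mk k e) := Ideal.Quotient.mk_surjective

theorem rel {x y : MvPolynomial (B × Fin n) k} (h : ChartRel k e (x - y)) : mk k e x = mk k e y :=
  Ideal.Quotient.eq.2 (Ideal.subset_span h)

/-- The universal point. -/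
def univPt : ChartPt k e (ChartRing k e) where
  φ :=
    { toFun := fun b l => mk k e (MvPolynomial.X (b, l))
      map_add' := fun b c => funext fun l => (rel k e (.add b c l)).trans (map_add (mk k e) _ _)
      map_smul' := fun r b => funext fun l => by
        rw [RingHom.id_apply, Pi.smul_apply, rel k e (.smul r b l), map_mul, Algebra.smul_def,
          ← AlgHom.commutes (mk k e) r, MvPolynomial.algebraMap_eq] }
  basis i := funext fun l => (rel k e (.basis i l)).trans (by
    rw [Pi.single_apply]
    by_cases h : i = l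
    · rw [if_pos h, if_pos h.symm, map_one]
    · rw [if_neg h, if_neg (Ne.symm h), map_zero])
  mul b c := funext fun l => (rel k e (.mul b c l)).trans (by
    simp [map_sum, Finset.sum_apply])

variable {k e} {A : Type v} [CommRing A] [Algebra k A]

/-- The homomorphism classifying a point. -/
def lift (p : ChartPt k e A) : ChartRing k e →ₐ[k] A :=
  Ideal.Quotient.liftₐ _ (MvPolynomial.aeval fun x => p.φ x.1 x.2) fun x hx => by
    refine Ideal.span_le.2 (fun y hy => ?_) hx |> RingHom.mem_ker.1
    simp only [Set.mem_ofPred_eq] at hy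
    simp only [SetLike.mem_coe, RingHom.mem_ker]
    cases hy with
    | add b c l => simp [map_add]
    | smul r b l =>
      rw [map_sub, map_mul, MvPolynomial.aeval_X, MvPolynomial.aeval_X, MvPolynomial.aeval_C,
        map_smul, Pi.smul_apply, Algebra.smul_def, sub_self]
    | basis i l =>
      rw [map_sub, MvPolynomial.aeval_X, p.basis, Pi.single_apply]
      by_cases h : i = l
      · rw [if_pos h, if_pos h.symm, map_one, sub_self]
      · rw [if_neg h, if_neg (Ne.symm h), map_zero, sub_self]
    | mul b c l => simp [map_sum, p.mul b c, Finset.sum_apply]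

theorem lift_mk (p : ChartPt k e A) (b : B) (l : Fin n) :
    lift p (mk k e (MvPolynomial.X (b, l))) = p.φ b l := MvPolynomial.aeval_X _ _

/-- Points are homomorphisms out of the chart ring. -/
def equiv : (ChartRing k e →ₐ[k] A) ≃ ChartPt k e A where
  toFun f := (univPt k e).map f
  invFun := lift
  left_inv f := by
    refine AlgHom.ext fun x => ?_
    obtain ⟨y, rfl⟩ := mk_surjective k e x
    have : (lift ((univPt k e).map f)).comp (mk k e) = f.comp (mk k e) :=
      MvPolynomial.algHom_ext fun ⟨b, l⟩ => lift_mk _ b l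
    exact DFunLike.congr_fun this y
  right_inv p := ChartPt.ext (LinearMap.ext fun b => funext fun l => lift_mk p b l)

theorem equiv_comp {A' : Type v} [CommRing A'] [Algebra k A'] (f : ChartRing k e →ₐ[k] A)
    (g : A →ₐ[k] A') : equiv (g.comp f) = (equiv f).map g := rfl

/-- The chart is of finite type when `B` is. -/
theorem finiteType [Algebra.FiniteType k B] : Algebra.FiniteType k (ChartRing k e) := by
  classical
  obtain ⟨s, hs⟩ := (‹Algebra.FiniteType k B›).out
  set u := (univPt k e).φ
  set G : Finset (ChartRing k e) := (insert (1 : B) (s.biUnion fun x =>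
    Finset.univ.image fun i => x * e i)).biUnion fun b => Finset.univ.image fun l => u b l
  refine ⟨G, eq_top_iff.2 ?_⟩
  set S := Algebra.adjoin k (G : Set (ChartRing k e))
  have hG : ∀ b ∈ insert (1 : B) (s.biUnion fun x => Finset.univ.image fun i => x * e i),
      ∀ l, u b l ∈ S := fun b hb l => Algebra.subset_adjoin (Finset.mem_coe.2
        (Finset.mem_biUnion.2 ⟨b, hb, Finset.mem_image.2 ⟨l, Finset.mem_univ _, rfl⟩⟩))
  -- multiplication by an element keeps the coordinates in `S`
  have hmul : ∀ c : B, ∀ b, (∀ l, u b l ∈ S) → ∀ l, u (c * b) l ∈ S := by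
    intro c
    have hc : c ∈ Algebra.adjoin k (s : Set B) := hs ▸ Algebra.mem_top
    induction hc using Algebra.adjoin_induction with
    | mem x hx =>
      intro b hb l
      rw [show u (x * b) = ∑ i, u b i • u (x * e i) from (univPt k e).mul b x, Finset.sum_apply]
      refine S.sum_mem fun i _ => S.mul_mem (hb i) (hG _ (Finset.mem_insert_of_mem
        (Finset.mem_biUnion.2 ⟨x, hx, Finset.mem_image.2 ⟨i, Finset.mem_univ _, rfl⟩⟩)) l)
    | algebraMap r =>
      intro b hb l
      rw [← Algebra.smul_def, map_smul]
      exact S.smul_mem (hb l) r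
    | add x y _ _ hx hy =>
      intro b hb l
      rw [add_mul, map_add]
      exact S.add_mem (hx b hb l) (hy b hb l)
    | mul x y _ _ hx hy =>
      intro b hb l
      rw [mul_assoc]
      exact hx _ (hy b hb) l
  intro x hx
  clear hx
  obtain ⟨y, rfl⟩ := mk_surjective k e x
  induction y using MvPolynomial.induction_on with
  | C r => rw [← MvPolynomial.algebraMap_eq, AlgHom.commutes]; exact S.algebraMap_mem r
  | add a b ha hb => rw [map_add]; exact S.add_mem ha hb
  | mul_X a i ha =>
    rw [map_mul]
    have h := hmul i.1 1 (hG 1 (Finset.mem_insert_self _ _)) i.2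
    rw [mul_one] at h
    exact S.mul_mem ha h

end ChartRing

end FLTAgent.PicScheme
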