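import Fermat.Agent.PicScheme.Basic

/-!
# Products and inverses of data
-/

set_option autoImplicit false

noncomputable section

universe u

open TensorProduct Matrix
open scoped TensorProduct Kronecker

namespace FLTAgent.PicScheme

section Kr

variable {R S : Type*} [CommRing R] [CommRing S] {a b c d a' c' : ℕ}

/-- The Kronecker product on numbered indices. -/
def kr (M : Matrix (Fin a) (Fin b) R) (N : Matrix (Fin c) (Fin d) R) :
    Matrix (Fin (a * c)) (Fin (b * d)) R :=
  Matrix.reindex finProdFinEquiv finProdFinEquiv (M ⊗ₖ N)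

@[simp] theorem kr_apply (M : Matrix (Fin a) (Fin b) R) (N : Matrix (Fin c) (Fin d) R)
    (i : Fin a) (j : Fin c) (l : Fin b) (m : Fin d) :
    kr M N (finProdFinEquiv (i, j)) (finProdFinEquiv (l, m)) = M i l * N j m := by
  simp [kr]

theorem kr_mul (M : Matrix (Fin a) (Fin b) R) (M' : Matrix (Fin b) (Fin a') R)
    (N : Matrix (Fin c) (Fin d) R) (N' : Matrix (Fin d) (Fin c') R) :
    kr M N * kr M' N' = kr (M * M') (N * N') := by
  simp only [kr, Matrix.reindex_apply, Matrix.submatrix_mul_equiv, Matrix.mul_kronecker_mul]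

theorem kr_map {F : Type*} [FunLike F R S] [RingHomClass F R S] (φ : F)
    (M : Matrix (Fin a) (Fin b) R) (N : Matrix (Fin c) (Fin d) R) :
    (kr M N).map φ = kr (M.map φ) (N.map φ) := by
  ext i j
  simp [kr, Matrix.kroneckerMap_apply]

theorem IsRankOne.kr {e : Matrix (Fin a) (Fin a) R} {e' : Matrix (Fin c) (Fin c) R}
    (h : IsRankOne e) (h' : IsRankOne e') : IsRankOne (PicScheme.kr e e') where
  idem := by rw [kr_mul, h.idem, h'.idem]
  trace := by
    have : (PicScheme.kr e e').trace = (e ⊗ₖ e').trace := by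
      simp only [Matrix.trace, PicScheme.kr, Matrix.diag_apply, Matrix.reindex_apply,
        Matrix.submatrix_apply]
      exact Fintype.sum_equiv finProdFinEquiv.symm _ _ fun x => rfl
    rw [this, Matrix.trace_kronecker, h.trace, h'.trace, mul_one]
  minors i j l m := by
    obtain ⟨⟨i, i'⟩, rfl⟩ := finProdFinEquiv.surjective i
    obtain ⟨⟨j, j'⟩, rfl⟩ := finProdFinEquiv.surjective j
    obtain ⟨⟨l, l'⟩, rfl⟩ := finProdFinEquiv.surjective l
    obtain ⟨⟨m, m'⟩, rfl⟩ := finProdFinEquiv.surjective m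
    simp only [kr_apply]
    linear_combination (e' i' j' * e' l' m') * h.minors i j l m +
      (e i m * e l j) * h'.minors i' j' l' m'

theorem IsRankOne.transpose {e : Matrix (Fin a) (Fin a) R} (h : IsRankOne e) :
    IsRankOne e.transpose where
  idem := by rw [← Matrix.transpose_mul, h.idem]
  trace := by rw [Matrix.trace_transpose, h.trace]
  minors i j l m := by
    simp only [Matrix.transpose_apply]
    rw [h.minors j i m l, mul_comm]

end Kr

variable {k : Type u} [Field k] {X : Charts k} {A A' : Type u}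
  [CommRing A] [Algebra k A] [CommRing A'] [Algebra k A']

namespace Datum

/-- The tensor product. -/
def tensor (L M : Datum X A) : Datum X A where
  n₁ := L.n₁ * M.n₁
  n₂ := L.n₂ * M.n₂
  e₁ := kr L.e₁ M.e₁
  e₂ := kr L.e₂ M.e₂
  u := kr L.u M.u
  v := kr L.v M.v
  rank₁ := L.rank₁.kr M.rank₁
  rank₂ := L.rank₂.kr M.rank₂
  uv := by rw [kr_mul, kr_map, L.uv, M.uv]
  vu := by rw [kr_mul, kr_map, L.vu, M.vu]
  u_cut := by rw [kr_map, kr_mul, L.u_cut, M.u_cut]
  v_cut := by rw [kr_map, kr_mul, L.v_cut, M.v_cut]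

/-- The inverse. -/
def dual (L : Datum X A) : Datum X A where
  n₁ := L.n₁
  n₂ := L.n₂
  e₁ := L.e₁.transpose
  e₂ := L.e₂.transpose
  u := L.v.transpose
  v := L.u.transpose
  rank₁ := L.rank₁.transpose
  rank₂ := L.rank₂.transpose
  uv := by rw [← Matrix.transpose_mul, L.uv]; rfl
  vu := by rw [← Matrix.transpose_mul, L.vu]; rfl
  u_cut := by
    rw [Matrix.transpose_map, ← Matrix.transpose_mul, ← L.vu, Matrix.mul_assoc, L.uv, L.v_cut]
  v_cut := by
    rw [Matrix.transpose_map, ← Matrix.transpose_mul, ← L.uv, Matrix.mul_assoc, L.vu, L.u_cut]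

theorem map_tensor (L M : Datum X A) (f : A →ₐ[k] A') :
    (L.tensor M).map f = (L.map f).tensor (M.map f) := by
  simp only [Datum.map, Datum.tensor, kr_map]

theorem map_dual (L : Datum X A) (f : A →ₐ[k] A') : L.dual.map f = (L.map f).dual := by
  simp only [Datum.map, Datum.dual, Matrix.transpose_map]

/-- Isomorphisms respect products. -/
def Iso.tensor {L L' M M' : Datum X A} (φ : Iso L L') (ψ : Iso M M') :
    Iso (L.tensor M) (L'.tensor M') where
  a₁ := kr φ.a₁ ψ.a₁
  b₁ := kr φ.b₁ ψ.b₁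
  a₂ := kr φ.a₂ ψ.a₂
  b₂ := kr φ.b₂ ψ.b₂
  ab₁ := (kr_mul _ _ _ _).trans (congrArg₂ kr φ.ab₁ ψ.ab₁)
  ba₁ := (kr_mul _ _ _ _).trans (congrArg₂ kr φ.ba₁ ψ.ba₁)
  ab₂ := (kr_mul _ _ _ _).trans (congrArg₂ kr φ.ab₂ ψ.ab₂)
  ba₂ := (kr_mul _ _ _ _).trans (congrArg₂ kr φ.ba₂ ψ.ba₂)
  compat := by
    show kr L'.u M'.u * (kr φ.a₁ ψ.a₁).map (X.res₁ A) * (kr L.e₁ M.e₁).map (X.res₁ A) =
      (kr φ.a₂ ψ.a₂).map (X.res₂ A) * kr L.u M.u
    rw [kr_map, kr_map, kr_map, kr_mul, kr_mul, kr_mul, φ.compat, ψ.compat]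

/-- A product with the inverse is trivial. -/
def tensorDualIso (L : Datum X A) : Iso (L.tensor L.dual) (Datum.one X A) where
  a₁ := Matrix.of fun _ x => L.e₁ (finProdFinEquiv.symm x).2 (finProdFinEquiv.symm x).1
  b₁ := Matrix.of fun x _ => L.e₁ (finProdFinEquiv.symm x).1 (finProdFinEquiv.symm x).2
  a₂ := Matrix.of fun _ x => L.e₂ (finProdFinEquiv.symm x).2 (finProdFinEquiv.symm x).1
  b₂ := Matrix.of fun x _ => L.e₂ (finProdFinEquiv.symm x).1 (finProdFinEquiv.symm x).2
  ab₁ := by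
    refine Matrix.ext fun i j => ?_
    refine Eq.trans (b := ∑ x : Fin (L.n₁ * L.n₁), L.e₁ (finProdFinEquiv.symm x).2
      (finProdFinEquiv.symm x).1 * L.e₁ (finProdFinEquiv.symm x).1 (finProdFinEquiv.symm x).2)
      rfl (Eq.trans ?_ ((congrArg (fun t => (1 : Matrix (Fin 1) (Fin 1) (X.R₁ A)) i t)
        (Subsingleton.elim (α := Fin 1) i j)).symm.trans (Matrix.one_apply_eq _)).symm)
    rw [← L.rank₁.trace]
    conv_rhs => rw [← L.rank₁.idem]
    rw [← finProdFinEquiv.sum_comp, Fintype.sum_prod_type_right]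
    simp [Matrix.trace, Matrix.mul_apply]
  ba₁ := by
    refine Matrix.ext fun x y => ?_
    obtain ⟨⟨i, j⟩, rfl⟩ := finProdFinEquiv.surjective x
    obtain ⟨⟨l, m⟩, rfl⟩ := finProdFinEquiv.surjective y
    refine Eq.trans (b := L.e₁ (finProdFinEquiv.symm (finProdFinEquiv (i, j))).1
      (finProdFinEquiv.symm (finProdFinEquiv (i, j))).2 * L.e₁
      (finProdFinEquiv.symm (finProdFinEquiv (l, m))).2
      (finProdFinEquiv.symm (finProdFinEquiv (l, m))).1) (Fin.sum_univ_one _) ?_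
    refine Eq.trans ?_ (kr_apply L.e₁ L.e₁.transpose i j l m).symm
    simp only [Equiv.symm_apply_apply]
    exact L.rank₁.minors i j m l
  ab₂ := by
    refine Matrix.ext fun i j => ?_
    refine Eq.trans (b := ∑ x : Fin (L.n₂ * L.n₂), L.e₂ (finProdFinEquiv.symm x).2
      (finProdFinEquiv.symm x).1 * L.e₂ (finProdFinEquiv.symm x).1 (finProdFinEquiv.symm x).2)
      rfl (Eq.trans ?_ ((congrArg (fun t => (1 : Matrix (Fin 1) (Fin 1) (X.R₂ A)) i t)
        (Subsingleton.elim (α := Fin 1) i j)).symm.trans (Matrix.one_apply_eq _)).symm)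
    rw [← L.rank₂.trace]
    conv_rhs => rw [← L.rank₂.idem]
    rw [← finProdFinEquiv.sum_comp, Fintype.sum_prod_type_right]
    simp [Matrix.trace, Matrix.mul_apply]
  ba₂ := by
    refine Matrix.ext fun x y => ?_
    obtain ⟨⟨i, j⟩, rfl⟩ := finProdFinEquiv.surjective x
    obtain ⟨⟨l, m⟩, rfl⟩ := finProdFinEquiv.surjective y
    refine Eq.trans (b := L.e₂ (finProdFinEquiv.symm (finProdFinEquiv (i, j))).1
      (finProdFinEquiv.symm (finProdFinEquiv (i, j))).2 * L.e₂
      (finProdFinEquiv.symm (finProdFinEquiv (l, m))).2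
      (finProdFinEquiv.symm (finProdFinEquiv (l, m))).1) (Fin.sum_univ_one _) ?_
    refine Eq.trans ?_ (kr_apply L.e₂ L.e₂.transpose i j l m).symm
    simp only [Equiv.symm_apply_apply]
    exact L.rank₂.minors i j m l
  compat := by
    set r₁ := X.res₁ A
    set r₂ := X.res₂ A
    set a : Matrix (Fin 1) (Fin (L.n₁ * L.n₁)) (X.R₁ A) :=
      Matrix.of fun _ x => L.e₁ (finProdFinEquiv.symm x).2 (finProdFinEquiv.symm x).1
    have hvec : ∀ {n m : ℕ} (e : Matrix (Fin n) (Fin n) (X.R₀ A))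
        (p q : Matrix (Fin n) (Fin m) (X.R₀ A)) (i j : Fin m),
        ∑ x : Fin (n * n), e (finProdFinEquiv.symm x).2 (finProdFinEquiv.symm x).1 *
          kr p q x (finProdFinEquiv (i, j)) = (q.transpose * e * p) j i := by
      intro n m e p q i j
      rw [← finProdFinEquiv.sum_comp, Fintype.sum_prod_type, Matrix.mul_apply]
      refine Finset.sum_congr rfl fun l _ => ?_
      rw [Matrix.mul_apply, Finset.sum_mul]
      refine Finset.sum_congr rfl fun m' _ => ?_
      simp
      ring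
    set a₂ : Matrix (Fin 1) (Fin (L.n₂ * L.n₂)) (X.R₂ A) :=
      Matrix.of fun _ x => L.e₂ (finProdFinEquiv.symm x).2 (finProdFinEquiv.symm x).1
    show (1 : Matrix (Fin 1) (Fin 1) (X.R₀ A)) * a.map r₁ * (kr L.e₁ L.e₁.transpose).map r₁ =
      a₂.map r₂ * kr L.u L.v.transpose
    rw [Matrix.one_mul, kr_map]
    refine Matrix.ext fun o y => ?_
    obtain ⟨⟨i, j⟩, rfl⟩ := finProdFinEquiv.surjective y
    refine (hvec (L.e₁.map r₁) (L.e₁.map r₁) (L.e₁.transpose.map r₁) i j).trans ?_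
    refine Eq.trans ?_ (hvec (L.e₂.map r₂) L.u L.v.transpose i j).symm
    rw [Matrix.transpose_map, Matrix.transpose_transpose, Matrix.transpose_transpose,
      ← Matrix.map_mul, ← Matrix.map_mul, L.rank₁.idem, L.rank₁.idem, L.v_cut, L.vu]

end Datum

end FLTAgent.PicScheme
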