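import Mathlib

/-!
# Invertible modules on a two-chart curve as matrices

A line bundle on the base change to a `k`-algebra `A` of a curve covered by two affine charts is
recorded by a rank one idempotent on each chart and an isomorphism of their images on the overlap.
-/

set_option autoImplicit false

noncomputable section

universe u

open TensorProduct Matrix
open scoped TensorProduct

namespace FLTAgent.PicScheme

/-- The coordinate rings of a curve with a finite function `f` to the line: the preimages of the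
two standard charts, their intersection, and a point in the first chart. -/
structure Charts (k : Type u) [Field k] where
  B₁ : Type u
  B₂ : Type u
  B₀ : Type u
  [commRing₁ : CommRing B₁]
  [commRing₂ : CommRing B₂]
  [commRing₀ : CommRing B₀]
  [algebra₁ : Algebra k B₁]
  [algebra₂ : Algebra k B₂]
  [algebra₀ : Algebra k B₀]
  ι₁ : B₁ →ₐ[k] B₀
  ι₂ : B₂ →ₐ[k] B₀
  f : B₁
  g : B₂
  mul_eq_one : ι₁ f * ι₂ g = 1
  away₁ : letI := ι₁.toRingHom.toAlgebra; IsLocalization.Away f B₀
  away₂ : letI := ι₂.toRingHom.toAlgebra; IsLocalization.Away g B₀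
  finite₁ : RingHom.Finite (Polynomial.aeval (R := k) f).toRingHom
  finite₂ : RingHom.Finite (Polynomial.aeval (R := k) g).toRingHom
  free₁ : letI := (Polynomial.aeval (R := k) f).toRingHom.toAlgebra
    Module.Free (Polynomial k) B₁
  free₂ : letI := (Polynomial.aeval (R := k) g).toRingHom.toAlgebra
    Module.Free (Polynomial k) B₂
  pt : B₁ →ₐ[k] k

attribute [instance] Charts.commRing₁ Charts.commRing₂ Charts.commRing₀ Charts.algebra₁
  Charts.algebra₂ Charts.algebra₀

variable {k : Type u} [Field k]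

namespace Charts

variable (X : Charts k) (A : Type u) [CommRing A] [Algebra k A]

/-- The first chart over `A`. -/
abbrev R₁ : Type u := A ⊗[k] X.B₁

/-- The second chart over `A`. -/
abbrev R₂ : Type u := A ⊗[k] X.B₂

/-- The overlap over `A`. -/
abbrev R₀ : Type u := A ⊗[k] X.B₀

/-- Restriction of the first chart to the overlap. -/
def res₁ : X.R₁ A →ₐ[A] X.R₀ A := Algebra.TensorProduct.map (AlgHom.id A A) X.ι₁

/-- Restriction of the second chart to the overlap. -/
def res₂ : X.R₂ A →ₐ[A] X.R₀ A := Algebra.TensorProduct.map (AlgHom.id A A) X.ι₂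

end Charts

/-- An idempotent of rank one. -/
structure IsRankOne {R : Type*} [CommRing R] {n : ℕ} (e : Matrix (Fin n) (Fin n) R) : Prop where
  idem : e * e = e
  trace : e.trace = 1
  minors : ∀ i j l m, e i j * e l m = e i m * e l j

/-- An invertible module on the curve over `A`. -/
structure Datum (X : Charts k) (A : Type u) [CommRing A] [Algebra k A] where
  n₁ : ℕ
  n₂ : ℕ
  e₁ : Matrix (Fin n₁) (Fin n₁) (X.R₁ A)
  e₂ : Matrix (Fin n₂) (Fin n₂) (X.R₂ A)
  u : Matrix (Fin n₂) (Fin n₁) (X.R₀ A)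
  v : Matrix (Fin n₁) (Fin n₂) (X.R₀ A)
  rank₁ : IsRankOne e₁
  rank₂ : IsRankOne e₂
  uv : u * v = e₂.map (X.res₂ A)
  vu : v * u = e₁.map (X.res₁ A)
  u_cut : u * e₁.map (X.res₁ A) = u
  v_cut : v * e₂.map (X.res₂ A) = v

theorem isRankOne_one (R : Type u) [CommRing R] : IsRankOne (1 : Matrix (Fin 1) (Fin 1) R) :=
  ⟨one_mul _, by simp, fun i j l m => by
    rw [Subsingleton.elim i j, Subsingleton.elim l j, Subsingleton.elim m j]⟩

namespace Datum

variable {X : Charts k} {A A' : Type u} [CommRing A] [Algebra k A] [CommRing A'] [Algebra k A']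

/-- The trivial datum. -/
def one (X : Charts k) (A : Type u) [CommRing A] [Algebra k A] : Datum X A where
  n₁ := 1
  n₂ := 1
  e₁ := 1
  e₂ := 1
  u := 1
  v := 1
  rank₁ := isRankOne_one _
  rank₂ := isRankOne_one _
  uv := by rw [Matrix.map_one _ (map_zero _) (map_one _), one_mul]
  vu := by rw [Matrix.map_one _ (map_zero _) (map_one _), one_mul]
  u_cut := by rw [Matrix.map_one _ (map_zero _) (map_one _), one_mul]
  v_cut := by rw [Matrix.map_one _ (map_zero _) (map_one _), one_mul]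

/-- The change of coefficients on a chart. -/
def chartMap (B : Type u) [CommRing B] [Algebra k B] (φ : A →ₐ[k] A') :
    A ⊗[k] B →ₐ[k] A' ⊗[k] B :=
  Algebra.TensorProduct.map φ (AlgHom.id k B)

theorem chartMap_res₁ (φ : A →ₐ[k] A') (x : X.R₁ A) :
    chartMap X.B₀ φ (X.res₁ A x) = X.res₁ A' (chartMap X.B₁ φ x) := by
  induction x using TensorProduct.induction_on with
  | zero => simp
  | tmul a b => simp [chartMap, Charts.res₁]
  | add a b ha hb => simp [ha, hb]

theorem chartMap_res₂ (φ : A →ₐ[k] A') (x : X.R₂ A) :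
    chartMap X.B₀ φ (X.res₂ A x) = X.res₂ A' (chartMap X.B₂ φ x) := by
  induction x using TensorProduct.induction_on with
  | zero => simp
  | tmul a b => simp [chartMap, Charts.res₂]
  | add a b ha hb => simp [ha, hb]

theorem IsRankOne.map {R S : Type*} [CommRing R] [CommRing S] (φ : R →+* S) {n : ℕ}
    {e : Matrix (Fin n) (Fin n) R} (h : IsRankOne e) : IsRankOne (e.map φ) where
  idem := by rw [← Matrix.map_mul, h.idem]
  trace := ((AddMonoidHom.map_trace φ.toAddMonoidHom e).symm).trans ((congrArg φ h.trace).trans (map_one φ))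
  minors i j l m := by simp only [Matrix.map_apply, ← map_mul, h.minors]

/-- Base change of a datum. -/
def map (φ : A →ₐ[k] A') (L : Datum X A) : Datum X A' where
  n₁ := L.n₁
  n₂ := L.n₂
  e₁ := L.e₁.map (chartMap X.B₁ φ)
  e₂ := L.e₂.map (chartMap X.B₂ φ)
  u := L.u.map (chartMap X.B₀ φ)
  v := L.v.map (chartMap X.B₀ φ)
  rank₁ := IsRankOne.map (chartMap X.B₁ φ).toRingHom L.rank₁
  rank₂ := IsRankOne.map (chartMap X.B₂ φ).toRingHom L.rank₂
  uv := by
    rw [← Matrix.map_mul, L.uv, Matrix.map_map, Matrix.map_map]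
    exact Matrix.ext fun i j => chartMap_res₂ φ _
  vu := by
    rw [← Matrix.map_mul, L.vu, Matrix.map_map, Matrix.map_map]
    exact Matrix.ext fun i j => chartMap_res₁ φ _
  u_cut := by
    have h := congrArg (fun M => M.map (chartMap X.B₀ φ)) L.u_cut
    simp only [Matrix.map_mul] at h
    convert h using 2
    exact Matrix.ext fun i j => (chartMap_res₁ φ _).symm
  v_cut := by
    have h := congrArg (fun M => M.map (chartMap X.B₀ φ)) L.v_cut
    simp only [Matrix.map_mul] at h
    convert h using 2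
    exact Matrix.ext fun i j => (chartMap_res₂ φ _).symm

/-- An isomorphism of data. -/
structure Iso (L L' : Datum X A) where
  a₁ : Matrix (Fin L'.n₁) (Fin L.n₁) (X.R₁ A)
  b₁ : Matrix (Fin L.n₁) (Fin L'.n₁) (X.R₁ A)
  a₂ : Matrix (Fin L'.n₂) (Fin L.n₂) (X.R₂ A)
  b₂ : Matrix (Fin L.n₂) (Fin L'.n₂) (X.R₂ A)
  ab₁ : a₁ * b₁ = L'.e₁
  ba₁ : b₁ * a₁ = L.e₁
  ab₂ : a₂ * b₂ = L'.e₂
  ba₂ : b₂ * a₂ = L.e₂
  compat : L'.u * a₁.map (X.res₁ A) * L.e₁.map (X.res₁ A) =
    a₂.map (X.res₂ A) * L.u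

/-- A trivialisation at the marked point. -/
def IsRigidifiable (L : Datum X A) : Prop :=
  ∃ (a : Fin L.n₁ → A) (b : Fin L.n₁ → A), b ⬝ᵥ a = 1 ∧
    L.e₁.map (Algebra.TensorProduct.lift (AlgHom.id A A) ((Algebra.ofId k A).comp X.pt)
      (fun _ _ => Commute.all _ _)) = Matrix.vecMulVec a b

/-- The global sections. -/
def H0 (L : Datum X A) : Submodule A ((Fin L.n₁ → X.R₁ A) × (Fin L.n₂ → X.R₂ A)) where
  carrier := {p | L.e₁ *ᵥ p.1 = p.1 ∧ L.e₂ *ᵥ p.2 = p.2 ∧
    L.u *ᵥ (X.res₁ A ∘ p.1) = X.res₂ A ∘ p.2}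
  add_mem' := by
    rintro p p' ⟨h1, h2, h3⟩ ⟨h1', h2', h3'⟩
    refine ⟨by simp [Matrix.mulVec_add, h1, h1'], by simp [Matrix.mulVec_add, h2, h2'], ?_⟩
    have e1 : X.res₁ A ∘ (p + p').1 = X.res₁ A ∘ p.1 + X.res₁ A ∘ p'.1 := by ext i; simp
    have e2 : X.res₂ A ∘ (p + p').2 = X.res₂ A ∘ p.2 + X.res₂ A ∘ p'.2 := by ext i; simp
    rw [e1, e2, Matrix.mulVec_add, h3, h3']
  zero_mem' := by
    refine ⟨by simp, by simp, ?_⟩
    have e1 : X.res₁ A ∘ (0 : Fin L.n₁ → X.R₁ A) = 0 := by ext i; simp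
    have e2 : X.res₂ A ∘ (0 : Fin L.n₂ → X.R₂ A) = 0 := by ext i; simp
    simp [e1, e2]
  smul_mem' := by
    rintro c p ⟨h1, h2, h3⟩
    refine ⟨by simp [Matrix.mulVec_smul, h1], by simp [Matrix.mulVec_smul, h2], ?_⟩
    have e1 : X.res₁ A ∘ (c • p).1 = c • (X.res₁ A ∘ p.1) := by ext i; simp
    have e2 : X.res₂ A ∘ (c • p).2 = c • (X.res₂ A ∘ p.2) := by ext i; simp
    rw [e1, e2, Matrix.mulVec_smul, h3]

/-- The difference of the restrictions to the overlap. -/
def delta (L : Datum X A) :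
    (Fin L.n₁ → X.R₁ A) × (Fin L.n₂ → X.R₂ A) →ₗ[A] (Fin L.n₂ → X.R₀ A) where
  toFun p := L.u *ᵥ (X.res₁ A ∘ p.1) - L.e₂.map (X.res₂ A) *ᵥ (X.res₂ A ∘ p.2)
  map_add' p p' := by
    have e1 : X.res₁ A ∘ (p + p').1 = X.res₁ A ∘ p.1 + X.res₁ A ∘ p'.1 := by ext i; simp
    have e2 : X.res₂ A ∘ (p + p').2 = X.res₂ A ∘ p.2 + X.res₂ A ∘ p'.2 := by ext i; simp
    rw [e1, e2, Matrix.mulVec_add, Matrix.mulVec_add]
    abel
  map_smul' c p := by
    have e1 : X.res₁ A ∘ (c • p).1 = c • (X.res₁ A ∘ p.1) := by ext i; simp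
    have e2 : X.res₂ A ∘ (c • p).2 = c • (X.res₂ A ∘ p.2) := by ext i; simp
    rw [e1, e2, Matrix.mulVec_smul, Matrix.mulVec_smul, RingHom.id_apply, smul_sub]

/-- The module of the overlap cut out by the idempotent. -/
def overlap (L : Datum X A) : Submodule A (Fin L.n₂ → X.R₀ A) :=
  LinearMap.range ((L.e₂.map (X.res₂ A)).mulVecLin.restrictScalars A)

/-- The Euler characteristic over a field. -/
def chi {K : Type u} [Field K] [Algebra k K] (L : Datum X K) : ℤ :=
  (Module.finrank K L.H0 : ℤ) -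
    (Module.finrank K (L.overlap ⧸ (LinearMap.range L.delta).comap L.overlap.subtype) : ℤ)

/-- Degree zero at every geometric point. -/
def IsDegZero (L : Datum X A) : Prop :=
  ∀ (K : Type u) [Field K] [IsAlgClosed K] [Algebra k K] (φ : A →ₐ[k] K),
    (L.map φ).chi = (Datum.one X K).chi

end Datum

/-- Rigidifiable data. -/
def RigDatum (X : Charts k) (A : Type u) [CommRing A] [Algebra k A] : Type u :=
  {L : Datum X A // L.IsRigidifiable}

/-- Isomorphism classes of rigidifiable data. -/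
def Cls (X : Charts k) (A : Type u) [CommRing A] [Algebra k A] : Type u :=
  Quot fun L L' : RigDatum X A => Nonempty (Datum.Iso L.1 L'.1)

end FLTAgent.PicScheme
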