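import Fermat.Agent.PicScheme.Basic

/-!
# Rigidified data have no automorphisms

When the only common functions of the two charts are the constants, endomorphisms of a datum are
scalars, so isomorphisms respecting trivialisations at the marked point are unique.
-/

set_option autoImplicit false
set_option linter.unusedSectionVars false

noncomputable section

universe u

open TensorProduct Matrix

namespace FLTAgent.PicScheme

variable {k : Type u} [Field k] {X : Charts k} {A A' A'' : Type u}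
  [CommRing A] [Algebra k A] [CommRing A'] [Algebra k A'] [CommRing A''] [Algebra k A'']

/-- Evaluation at the marked point. -/
def Charts.evPt (X : Charts k) (A : Type u) [CommRing A] [Algebra k A] : X.R₁ A →ₐ[A] A :=
  Algebra.TensorProduct.lift (AlgHom.id A A) ((Algebra.ofId k A).comp X.pt) (fun _ _ => Commute.all _ _)

theorem evPt_chartMap (φ : A →ₐ[k] A') (x : X.R₁ A) :
    X.evPt A' (Datum.chartMap X.B₁ φ x) = φ (X.evPt A x) := by
  induction x using TensorProduct.induction_on with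
  | zero => simp
  | tmul a b => simp [Charts.evPt, Datum.chartMap, Algebra.ofId_apply]
  | add a b ha hb => simp [ha, hb]

/-- The only common functions of the two charts are the constants. -/
def HasConst (X : Charts k) : Prop :=
  ∀ (x : X.B₁) (y : X.B₂), X.ι₁ x = X.ι₂ y →
    ∃ c : k, x = algebraMap k X.B₁ c ∧ y = algebraMap k X.B₂ c

/-- The common functions over any coefficients are the coefficients. -/
theorem HasConst.of_res (hX : HasConst X) (x : X.R₁ A) (y : X.R₂ A)
    (h : X.res₁ A x = X.res₂ A y) :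
    ∃ a : A, x = algebraMap A _ a ∧ y = algebraMap A _ a := by
  classical
  let b := Module.Basis.ofVectorSpace k A
  have nat : ∀ {B B' : Type u} [CommRing B] [Algebra k B] [CommRing B'] [Algebra k B']
      (f : B →ₐ[k] B') (z : A ⊗[k] B) i,
      TensorProduct.equivFinsuppOfBasisLeft b (Algebra.TensorProduct.map (AlgHom.id A A) f z) i =
        f (TensorProduct.equivFinsuppOfBasisLeft b z i) := by
    intro B B' _ _ _ _ f z i
    induction z using TensorProduct.induction_on with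
    | zero => simp
    | tmul a c => simp
    | add p q hp hq => simp [hp, hq]
  set ex := TensorProduct.equivFinsuppOfBasisLeft (M := A) (N := X.B₁) b x
  set ey := TensorProduct.equivFinsuppOfBasisLeft (M := A) (N := X.B₂) b y
  have hc : ∀ i, ∃ c : k, ex i = algebraMap k X.B₁ c ∧ ey i = algebraMap k X.B₂ c := fun i => by
    refine hX _ _ ?_
    rw [← nat, ← nat]
    exact congrArg (fun z => TensorProduct.equivFinsuppOfBasisLeft b z i) h
  choose c h1 h2 using hc
  have key : ∀ {B : Type u} [CommRing B] [Algebra k B] (z : A ⊗[k] B),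
      (∀ i, TensorProduct.equivFinsuppOfBasisLeft b z i = algebraMap k B (c i)) →
      ∀ F : Finset (Module.Basis.ofVectorSpaceIndex k A),
        (TensorProduct.equivFinsuppOfBasisLeft b z).support ⊆ F →
        z = algebraMap A _ (∑ i ∈ F, c i • b i) := by
    intro B _ _ z hz F hF
    conv_lhs => rw [← (TensorProduct.equivFinsuppOfBasisLeft b).symm_apply_apply z]
    rw [TensorProduct.equivFinsuppOfBasisLeft_symm_apply, Finsupp.sum_of_support_subset _ hF,
      map_sum]
    · refine Finset.sum_congr rfl fun i _ => ?_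
      rw [hz i, Algebra.algebraMap_eq_smul_one (c i), Algebra.TensorProduct.algebraMap_apply,
        Algebra.algebraMap_self, RingHom.id_apply, TensorProduct.smul_tmul]
    · intro i _
      rw [TensorProduct.tmul_zero]
  refine ⟨∑ i ∈ ex.support ∪ ey.support, c i • b i, key x h1 _ Finset.subset_union_left,
    key y h2 _ Finset.subset_union_right⟩

theorem IsRankOne.endo_eq {R : Type*} [CommRing R] {n : ℕ} {e m : Matrix (Fin n) (Fin n) R}
    (he : IsRankOne e) (h1 : e * m = m) (h2 : m * e = m) : m = m.trace • e := by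
  have hm : e * m * e = m := by rw [h1, h2]
  refine Matrix.ext fun i l => ?_
  conv_lhs => rw [← hm]
  have ht : m.trace = (e * m).trace := by rw [h1]
  rw [Matrix.smul_apply, smul_eq_mul, ht]
  simp only [Matrix.mul_apply, Finset.sum_mul, Matrix.trace, Matrix.diag_apply]
  refine Finset.sum_congr rfl fun j' _ => Finset.sum_congr rfl fun j _ => ?_
  have := he.minors i j j' l
  calc e i j * m j j' * e j' l = m j j' * (e i j * e j' l) := by ring
    _ = m j j' * (e i l * e j' j) := by rw [this]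
    _ = _ := by ring

theorem IsRankOne.smul_left_inj {R : Type*} [CommRing R] {n : ℕ} {e : Matrix (Fin n) (Fin n) R}
    (he : IsRankOne e) {t t' : R} (h : t • e = t' • e) : t = t' := by
  have := congrArg Matrix.trace h
  simpa [Matrix.trace_smul, he.trace] using this

namespace Datum

variable {L L' L'' : Datum X A}

/-- A morphism of data, cut down to the images. -/
@[ext]
structure Mor (L L' : Datum X A) where
  a₁ : Matrix (Fin L'.n₁) (Fin L.n₁) (X.R₁ A)
  a₂ : Matrix (Fin L'.n₂) (Fin L.n₂) (X.R₂ A)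
  left₁ : L'.e₁ * a₁ = a₁
  right₁ : a₁ * L.e₁ = a₁
  left₂ : L'.e₂ * a₂ = a₂
  right₂ : a₂ * L.e₂ = a₂
  compat : L'.u * a₁.map (X.res₁ A) = a₂.map (X.res₂ A) * L.u

theorem e₂_u_cut (L : Datum X A) : L.e₂.map (X.res₂ A) * L.u = L.u := by
  rw [← L.uv, Matrix.mul_assoc, L.vu, L.u_cut]

theorem map_smul_res₁ (a : A) {n m : ℕ} (M : Matrix (Fin n) (Fin m) (X.R₁ A)) :
    (a • M).map (X.res₁ A) = a • M.map (X.res₁ A) :=
  Matrix.ext fun i j => map_smul (X.res₁ A) a (M i j)

theorem map_smul_res₂ (a : A) {n m : ℕ} (M : Matrix (Fin n) (Fin m) (X.R₂ A)) :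
    (a • M).map (X.res₂ A) = a • M.map (X.res₂ A) :=
  Matrix.ext fun i j => map_smul (X.res₂ A) a (M i j)

namespace Mor

/-- The identity. -/
protected def id (L : Datum X A) : Mor L L where
  a₁ := L.e₁
  a₂ := L.e₂
  left₁ := L.rank₁.idem
  right₁ := L.rank₁.idem
  left₂ := L.rank₂.idem
  right₂ := L.rank₂.idem
  compat := by rw [L.u_cut, e₂_u_cut]

/-- The composite. -/
def comp (f : Mor L L') (g : Mor L' L'') : Mor L L'' where
  a₁ := g.a₁ * f.a₁
  a₂ := g.a₂ * f.a₂
  left₁ := by rw [← Matrix.mul_assoc, g.left₁]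
  right₁ := by rw [Matrix.mul_assoc, f.right₁]
  left₂ := by rw [← Matrix.mul_assoc, g.left₂]
  right₂ := by rw [Matrix.mul_assoc, f.right₂]
  compat := by
    rw [Matrix.map_mul, Matrix.map_mul, ← Matrix.mul_assoc, g.compat, Matrix.mul_assoc, f.compat,
      Matrix.mul_assoc]

/-- A multiple. -/
def smul (t : A) (f : Mor L L') : Mor L L' where
  a₁ := t • f.a₁
  a₂ := t • f.a₂
  left₁ := by rw [Matrix.mul_smul, f.left₁]
  right₁ := by rw [Matrix.smul_mul, f.right₁]
  left₂ := by rw [Matrix.mul_smul, f.left₂]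
  right₂ := by rw [Matrix.smul_mul, f.right₂]
  compat := by rw [map_smul_res₁, map_smul_res₂, Matrix.mul_smul, Matrix.smul_mul, f.compat]

theorem id_comp (f : Mor L L') : (Mor.id L).comp f = f := Mor.ext f.right₁ f.right₂

theorem comp_id (f : Mor L L') : f.comp (Mor.id L') = f := Mor.ext f.left₁ f.left₂

theorem comp_assoc {L''' : Datum X A} (f : Mor L L') (g : Mor L' L'') (h : Mor L'' L''') :
    (f.comp g).comp h = f.comp (g.comp h) :=
  Mor.ext (Matrix.mul_assoc _ _ _).symm (Matrix.mul_assoc _ _ _).symm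

theorem one_smul (f : Mor L L') : Mor.smul 1 f = f :=
  Mor.ext (_root_.one_smul A f.a₁) (_root_.one_smul A f.a₂)

theorem smul_comp (t s : A) (f : Mor L L') (g : Mor L' L'') :
    (f.smul t).comp (g.smul s) = (f.comp g).smul (s * t) := by
  refine Mor.ext ?_ ?_ <;>
    simp only [comp, smul, Matrix.smul_mul, Matrix.mul_smul, smul_smul, mul_comm t s]

/-- Endomorphisms are scalars. -/
theorem exists_eq_smul_id (hX : HasConst X) (f : Mor L L) : ∃ t : A, f = (Mor.id L).smul t := by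
  have h1 := L.rank₁.endo_eq f.left₁ f.right₁
  have h2 := L.rank₂.endo_eq f.left₂ f.right₂
  have he₁ : IsRankOne (L.e₁.map (X.res₁ A)) := IsRankOne.map (X.res₁ A).toRingHom L.rank₁
  have h3 : X.res₁ A f.a₁.trace • L.e₁.map (X.res₁ A) = X.res₂ A f.a₂.trace • L.e₁.map (X.res₁ A) := by
    have h := congrArg (L.v * ·) f.compat
    replace h : L.v * (L.u * f.a₁.map (X.res₁ A)) = L.v * (f.a₂.map (X.res₂ A) * L.u) := h
    rw [h1, h2,
      show (f.a₁.trace • L.e₁).map (X.res₁ A) = X.res₁ A f.a₁.trace • L.e₁.map (X.res₁ A) from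
        Matrix.ext fun i j => map_mul (X.res₁ A) _ _,
      show (f.a₂.trace • L.e₂).map (X.res₂ A) = X.res₂ A f.a₂.trace • L.e₂.map (X.res₂ A) from
        Matrix.ext fun i j => map_mul (X.res₂ A) _ _, Matrix.mul_smul,
      Matrix.smul_mul, Matrix.mul_smul, L.u_cut, e₂_u_cut, Matrix.mul_smul, L.vu] at h
    exact h
  obtain ⟨t, ht1, ht2⟩ := hX.of_res _ _ (he₁.smul_left_inj h3)
  refine ⟨t, Mor.ext ?_ ?_⟩
  · rw [h1, ht1]
    exact Matrix.ext fun i j => (Algebra.smul_def t (L.e₁ i j)).symm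
  · rw [h2, ht2]
    exact Matrix.ext fun i j => (Algebra.smul_def t (L.e₂ i j)).symm

/-- Base change. -/
def map (f : Mor L L') (φ : A →ₐ[k] A') : Mor (L.map φ) (L'.map φ) where
  a₁ := f.a₁.map (chartMap X.B₁ φ)
  a₂ := f.a₂.map (chartMap X.B₂ φ)
  left₁ := (Matrix.map_mul (f := chartMap X.B₁ φ)).symm.trans (congrArg (fun M => M.map (chartMap X.B₁ φ)) f.left₁)
  right₁ := (Matrix.map_mul (f := chartMap X.B₁ φ)).symm.trans (congrArg (fun M => M.map (chartMap X.B₁ φ)) f.right₁)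
  left₂ := (Matrix.map_mul (f := chartMap X.B₂ φ)).symm.trans (congrArg (fun M => M.map (chartMap X.B₂ φ)) f.left₂)
  right₂ := (Matrix.map_mul (f := chartMap X.B₂ φ)).symm.trans (congrArg (fun M => M.map (chartMap X.B₂ φ)) f.right₂)
  compat := by
    have h := congrArg (fun M => M.map (chartMap X.B₀ φ)) f.compat
    simp only [Matrix.map_mul] at h
    rw [show ((f.a₁.map (X.res₁ A)).map (chartMap X.B₀ φ)) =
        (f.a₁.map (chartMap X.B₁ φ)).map (X.res₁ A') from Matrix.ext fun i j => chartMap_res₁ φ _,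
      show ((f.a₂.map (X.res₂ A)).map (chartMap X.B₀ φ)) =
        (f.a₂.map (chartMap X.B₂ φ)).map (X.res₂ A') from Matrix.ext fun i j => chartMap_res₂ φ _] at h
    exact h

theorem map_comp' (f : Mor L L') (g : Mor L' L'') (φ : A →ₐ[k] A') :
    (f.comp g).map φ = (f.map φ).comp (g.map φ) :=
  Mor.ext (Matrix.map_mul (f := chartMap X.B₁ φ)) (Matrix.map_mul (f := chartMap X.B₂ φ))

theorem map_id' (L : Datum X A) (φ : A →ₐ[k] A') : (Mor.id L).map φ = Mor.id (L.map φ) := rfl

end Mor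

/-- A trivialisation at the marked point. -/
structure Rig (L : Datum X A) where
  a : Fin L.n₁ → A
  b : Fin L.n₁ → A
  dot : b ⬝ᵥ a = 1
  eq : L.e₁.map (X.evPt A) = Matrix.vecMulVec a b

theorem isRigidifiable_iff {L : Datum X A} : L.IsRigidifiable ↔ Nonempty (Rig L) :=
  ⟨fun ⟨a, b, h, e⟩ => ⟨⟨a, b, h, e⟩⟩, fun ⟨r⟩ => ⟨r.a, r.b, r.dot, r.eq⟩⟩

/-- Base change of a trivialisation. -/
def Rig.map (r : Rig L) (φ : A →ₐ[k] A') : Rig (L.map φ) where
  a := φ ∘ r.a
  b := φ ∘ r.b
  dot := (RingHom.map_dotProduct φ.toRingHom r.b r.a).symm.trans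
    ((congrArg φ r.dot).trans (map_one φ))
  eq := Matrix.ext fun i j => by
    show X.evPt A' (chartMap X.B₁ φ (L.e₁ i j)) = φ (r.a i) * φ (r.b j)
    rw [evPt_chartMap, ← map_mul]
    exact congrArg φ (congrFun (congrFun r.eq i) j)

namespace Mor

/-- The effect at the marked point. -/
def val (f : Mor L L') (r : Rig L) (r' : Rig L') : A :=
  r'.b ⬝ᵥ (f.a₁.map (X.evPt A) *ᵥ r.a)

theorem mulVec_a (f : Mor L L') (r : Rig L) (r' : Rig L') :
    f.a₁.map (X.evPt A) *ᵥ r.a = f.val r r' • r'.a := by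
  conv_lhs => rw [← f.left₁, Matrix.map_mul, r'.eq, ← Matrix.mulVec_mulVec, Matrix.vecMulVec_mulVec]
  funext i
  simp [val, mul_comm]

theorem val_comp (f : Mor L L') (g : Mor L' L'') (r : Rig L) (r' : Rig L') (r'' : Rig L'') :
    (f.comp g).val r r'' = f.val r r' * g.val r' r'' := by
  show r''.b ⬝ᵥ ((g.a₁ * f.a₁).map (X.evPt A) *ᵥ r.a) = _
  rw [Matrix.map_mul, ← Matrix.mulVec_mulVec, mulVec_a f r r', Matrix.mulVec_smul,
    dotProduct_smul, smul_eq_mul]
  rfl

theorem val_id (r : Rig L) : (Mor.id L).val r r = 1 := by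
  show r.b ⬝ᵥ (L.e₁.map (X.evPt A) *ᵥ r.a) = 1
  rw [r.eq, Matrix.vecMulVec_mulVec, r.dot]
  simp [r.dot]

theorem val_smul (t : A) (f : Mor L L') (r : Rig L) (r' : Rig L') :
    (f.smul t).val r r' = t * f.val r r' := by
  show r'.b ⬝ᵥ ((t • f.a₁).map (X.evPt A) *ᵥ r.a) = _
  rw [show (t • f.a₁).map (X.evPt A) = t • f.a₁.map (X.evPt A) from
    Matrix.ext fun i j => map_smul (X.evPt A) t (f.a₁ i j), Matrix.smul_mulVec, dotProduct_smul,
    smul_eq_mul]
  rfl

theorem val_map (f : Mor L L') (r : Rig L) (r' : Rig L') (φ : A →ₐ[k] A') :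
    (f.map φ).val (r.map φ) (r'.map φ) = φ (f.val r r') := by
  show (φ ∘ r'.b) ⬝ᵥ ((f.a₁.map (chartMap X.B₁ φ)).map (X.evPt A') *ᵥ (φ ∘ r.a)) = _
  rw [show (f.a₁.map (chartMap X.B₁ φ)).map (X.evPt A') = (f.a₁.map (X.evPt A)).map φ.toRingHom from
    Matrix.ext fun i j => evPt_chartMap φ _]
  refine Eq.trans ?_ (RingHom.map_dotProduct φ.toRingHom _ _).symm
  congr 1
  exact funext fun i => (RingHom.map_mulVec φ.toRingHom _ _ i).symm

end Mor

/-- An isomorphism respecting trivialisations. -/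
structure RigIso (r : Rig L) (r' : Rig L') where
  hom : Mor L L'
  inv : Mor L' L
  hom_inv : hom.comp inv = Mor.id L
  inv_hom : inv.comp hom = Mor.id L'
  val_hom : hom.val r r' = 1

namespace RigIso

variable {r : Rig L} {r' : Rig L'} {r'' : Rig L''}

theorem val_inv (φ : RigIso r r') : φ.inv.val r' r = 1 := by
  have h := φ.hom.val_comp φ.inv r r' r
  rw [φ.hom_inv, Mor.val_id, φ.val_hom, one_mul] at h
  exact h.symm

/-- The identity. -/
protected def refl (r : Rig L) : RigIso r r :=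
  ⟨Mor.id L, Mor.id L, Mor.id_comp _, Mor.id_comp _, Mor.val_id r⟩

/-- The inverse. -/
def symm (φ : RigIso r r') : RigIso r' r :=
  ⟨φ.inv, φ.hom, φ.inv_hom, φ.hom_inv, φ.val_inv⟩

/-- The composite. -/
def trans (φ : RigIso r r') (ψ : RigIso r' r'') : RigIso r r'' where
  hom := φ.hom.comp ψ.hom
  inv := ψ.inv.comp φ.inv
  hom_inv := by rw [Mor.comp_assoc, ← Mor.comp_assoc ψ.hom, ψ.hom_inv, Mor.id_comp, φ.hom_inv]
  inv_hom := by rw [Mor.comp_assoc, ← Mor.comp_assoc φ.inv, φ.inv_hom, Mor.id_comp, ψ.inv_hom]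
  val_hom := by rw [Mor.val_comp _ _ r r' r'', φ.val_hom, ψ.val_hom, one_mul]

/-- Base change. -/
def map (φ : RigIso r r') (f : A →ₐ[k] A') : RigIso (r.map f) (r'.map f) where
  hom := φ.hom.map f
  inv := φ.inv.map f
  hom_inv := by rw [← Mor.map_comp', φ.hom_inv]; rfl
  inv_hom := by rw [← Mor.map_comp', φ.inv_hom]; rfl
  val_hom := by rw [Mor.val_map, φ.val_hom, map_one]

/-- **Uniqueness.** -/
theorem hom_eq (hX : HasConst X) (φ ψ : RigIso r r') : φ.hom = ψ.hom := by
  obtain ⟨t, ht⟩ := (ψ.hom.comp φ.inv).exists_eq_smul_id hX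
  have h1 := congrArg (fun f => Mor.val f r r) ht
  simp only [Mor.val_smul, Mor.val_id, Mor.val_comp _ _ r r' r, ψ.val_hom, φ.val_inv, mul_one] at h1
  rw [← h1, Mor.one_smul] at ht
  calc φ.hom = (ψ.hom.comp φ.inv).comp φ.hom := by rw [ht, Mor.id_comp]
    _ = ψ.hom := by rw [Mor.comp_assoc, φ.inv_hom, Mor.comp_id]

end RigIso

/-- An isomorphism as a morphism. -/
def Iso.toMor (φ : Iso L L') : Mor L L' where
  a₁ := φ.a₁ * L.e₁
  a₂ := φ.a₂ * L.e₂
  left₁ := by rw [← Matrix.mul_assoc, φ.cut₁]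
  right₁ := L.rank₁.mul_mul φ.a₁
  left₂ := by rw [← Matrix.mul_assoc, φ.cut₂]
  right₂ := L.rank₂.mul_mul φ.a₂
  compat := by
    rw [Matrix.map_mul, Matrix.map_mul, ← Matrix.mul_assoc, φ.compat, Matrix.mul_assoc, e₂_u_cut]

theorem Iso.toMor_symm (φ : Iso L L') : φ.toMor.comp φ.symm.toMor = Mor.id L := by
  refine Mor.ext ?_ ?_
  · show φ.b₁ * L'.e₁ * (φ.a₁ * L.e₁) = L.e₁
    rw [Matrix.mul_assoc, ← Matrix.mul_assoc L'.e₁, φ.cut₁, ← Matrix.mul_assoc, φ.ba₁, L.rank₁.idem]
  · show φ.b₂ * L'.e₂ * (φ.a₂ * L.e₂) = L.e₂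
    rw [Matrix.mul_assoc, ← Matrix.mul_assoc L'.e₂, φ.cut₂, ← Matrix.mul_assoc, φ.ba₂, L.rank₂.idem]

/-- Isomorphic data have an isomorphism respecting given trivialisations. -/
theorem Iso.exists_rigIso (φ : Iso L L') (r : Rig L) (r' : Rig L') : Nonempty (RigIso r r') := by
  set f := φ.toMor
  set g := φ.symm.toMor
  have hfg : f.comp g = Mor.id L := φ.toMor_symm
  have hgf : g.comp f = Mor.id L' := φ.symm.toMor_symm
  have hv : f.val r r' * g.val r' r = 1 := by rw [← Mor.val_comp f g r r' r, hfg, Mor.val_id]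
  refine ⟨⟨f.smul (g.val r' r), g.smul (f.val r r'), ?_, ?_, ?_⟩⟩
  · rw [Mor.smul_comp, hfg, hv, Mor.one_smul]
  · rw [Mor.smul_comp, hgf, mul_comm, hv, Mor.one_smul]
  · rw [Mor.val_smul, mul_comm, hv]

/-- A rigidified isomorphism is an isomorphism. -/
def RigIso.toIso {r : Rig L} {r' : Rig L'} (φ : RigIso r r') : Iso L L' where
  a₁ := φ.hom.a₁
  b₁ := φ.inv.a₁
  a₂ := φ.hom.a₂
  b₂ := φ.inv.a₂
  ab₁ := congrArg Mor.a₁ φ.inv_hom
  ba₁ := congrArg Mor.a₁ φ.hom_inv
  ab₂ := congrArg Mor.a₂ φ.inv_hom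
  ba₂ := congrArg Mor.a₂ φ.hom_inv
  compat := by rw [Matrix.mul_assoc, ← Matrix.map_mul, φ.hom.right₁, φ.hom.compat]

end Datum

end FLTAgent.PicScheme
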