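import Fermat.Agent.PicScheme.Basic

/-!
# Data lift along square-zero thickenings
-/

set_option autoImplicit false

noncomputable section

universe u

open TensorProduct Matrix
open scoped TensorProduct

namespace FLTAgent.PicScheme

section General

variable {R S : Type u} [CommRing R] [CommRing S] (f : R →+* S)

/-- A matrix over the kernel of a square-zero thickening squares to zero. -/
theorem mul_eq_zero_of_map_eq_zero (hsq : ∀ x y, f x = 0 → f y = 0 → x * y = 0) {a b c : ℕ}
    {M : Matrix (Fin a) (Fin b) R} {N : Matrix (Fin b) (Fin c) R} (hM : M.map f = 0)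
    (hN : N.map f = 0) : M * N = 0 := by
  ext i j
  rw [Matrix.mul_apply, Matrix.zero_apply]
  exact Finset.sum_eq_zero fun l _ =>
    hsq _ _ (congrFun (congrFun hM i) l) (congrFun (congrFun hN l) j)

/-- The two by two minors of an idempotent, indexed by ordered pairs. -/
theorem minors_eq_zero {n : ℕ} {e : Matrix (Fin n) (Fin n) R} (he : e * e = e)
    (hnil : ∀ x y, f x = 0 → f y = 0 → x * y = 0)
    (hf : ∀ i j l m, f (e i j) * f (e l m) = f (e i m) * f (e l j)) (i j l m : Fin n) :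
    e i j * e l m = e i m * e l j := by
  have he' : ∀ a b, ∑ p, e a p * e p b = e a b := fun a b => congrFun (congrFun he a) b
  set Q : (Fin n × Fin n) → (Fin n × Fin n) → R := fun x y =>
    e x.1 y.1 * e x.2 y.2 - e x.1 y.2 * e x.2 y.1 with hQ
  let P := {x : Fin n × Fin n // x.1 < x.2}
  let M : Matrix P P R := Matrix.of fun x y => Q x y
  have hidem : M * M = M := by
    refine Matrix.ext fun x y => ?_
    obtain ⟨⟨i, l⟩, hil⟩ := x
    obtain ⟨⟨j, m⟩, hjm⟩ := y
    show ∑ z : P, Q (i, l) z * Q z (j, m) = Q (i, l) (j, m)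
    have h1 : ∀ z : Fin n × Fin n, Q (i, l) z * Q z (j, m) =
        e i z.1 * e l z.2 * Q z (j, m) + e i z.2 * e l z.1 * Q (z.2, z.1) (j, m) := fun z => by
      simp only [hQ]; ring
    rw [← Finset.sum_subtype (Finset.univ.filter fun z : Fin n × Fin n => z.1 < z.2)
      (fun z => by simp) (fun z => Q (i, l) z * Q z (j, m)), Finset.sum_congr rfl fun z _ => h1 z,
      Finset.sum_add_distrib]
    have h2 : ∑ z ∈ Finset.univ.filter (fun z : Fin n × Fin n => z.1 < z.2),
          e i z.2 * e l z.1 * Q (z.2, z.1) (j, m) =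
        ∑ z ∈ Finset.univ.filter (fun z : Fin n × Fin n => ¬ z.1 < z.2),
          e i z.1 * e l z.2 * Q z (j, m) := by
      refine Eq.trans ?_ (Finset.sum_subset (s₁ := Finset.univ.filter fun z : Fin n × Fin n =>
        z.2 < z.1) (fun z hz => by simp only [Finset.mem_filter] at hz ⊢; exact ⟨hz.1, hz.2.asymm⟩)
        fun z hz hz' => ?_)
      · exact Finset.sum_equiv (Equiv.prodComm _ _) (fun z => by simp) fun z _ => rfl
      · simp only [Finset.mem_filter, Finset.mem_univ, true_and, not_lt] at hz hz'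
        have : z.1 = z.2 := le_antisymm hz' hz
        rw [show Q z (j, m) = 0 by simp only [hQ, this]; ring, mul_zero]
    rw [h2, Finset.sum_filter_add_sum_filter_not, Fintype.sum_prod_type]
    show ∑ p, ∑ r, e i p * e l r * (e p j * e r m - e p m * e r j) = e i j * e l m - e i m * e l j
    rw [← he' i j, ← he' l m, ← he' i m, ← he' l j, Finset.sum_mul_sum, Finset.sum_mul_sum,
      ← Finset.sum_sub_distrib]
    refine Finset.sum_congr rfl fun p _ => ?_
    rw [← Finset.sum_sub_distrib]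
    exact Finset.sum_congr rfl fun r _ => by ring
  have hzero : M = 0 := by
    refine Matrix.ext fun x y => ?_
    rw [← hidem, Matrix.mul_apply, Matrix.zero_apply]
    have hM : ∀ x y, f (M x y) = 0 := fun x y => by
      show f (Q x y) = 0
      simp only [hQ, map_sub, map_mul]
      rw [hf, sub_self]
    exact Finset.sum_eq_zero fun z _ => hnil _ _ (hM _ _) (hM _ _)
  by_cases hil : i = l
  · subst hil; ring
  by_cases hjm : j = m
  · subst hjm; ring
  have key : ∀ a b c d (hab : a < b) (hcd : c < d), Q (a, b) (c, d) = 0 := fun a b c d hab hcd =>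
    congrFun (congrFun hzero ⟨(a, b), hab⟩) ⟨(c, d), hcd⟩
  rcases lt_or_gt_of_ne hil with h | h <;> rcases lt_or_gt_of_ne hjm with h' | h'
  · linear_combination key i l j m h h'
  · linear_combination -(key i l m j h h')
  · linear_combination -(key l i j m h h')
  · linear_combination key l i m j h h'

variable (hsurj : Function.Surjective f) (hsq : ∀ x y, f x = 0 → f y = 0 → x * y = 0)

include hsurj in
theorem exists_matrix_lift {a b : ℕ} (M : Matrix (Fin a) (Fin b) S) :
    ∃ N : Matrix (Fin a) (Fin b) R, N.map f = M :=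
  ⟨Matrix.of fun i j => Function.surjInv hsurj (M i j),
    Matrix.ext fun i j => Function.surjInv_eq hsurj _⟩

include hsurj hsq in
/-- Rank one idempotents lift. -/
theorem exists_rankOne_lift {n : ℕ} {e' : Matrix (Fin n) (Fin n) S} (h : IsRankOne e') :
    ∃ e : Matrix (Fin n) (Fin n) R, IsRankOne e ∧ e.map f = e' := by
  have hnil : ∀ x ∈ RingHom.ker (f.mapMatrix (m := Fin n)), IsNilpotent x := fun x hx =>
    ⟨2, (sq x).trans (mul_eq_zero_of_map_eq_zero f hsq hx hx)⟩
  obtain ⟨e, he, hef⟩ := exists_isIdempotentElem_eq_of_ker_isNilpotent f.mapMatrix hnil e'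
    (RingHom.mem_range.2 (exists_matrix_lift f hsurj e')) h.idem
  subst hef
  have hmin := minors_eq_zero f he hsq fun i j l m => h.minors i j l m
  refine ⟨e, ⟨he, ?_, hmin⟩, rfl⟩
  have htr : IsIdempotentElem (1 - e.trace) := IsIdempotentElem.one_sub (by
    show e.trace * e.trace = e.trace
    rw [Matrix.trace, Finset.sum_mul_sum]
    refine Finset.sum_congr rfl fun i _ => ?_
    rw [Matrix.diag_apply]
    conv_rhs => rw [← he, Matrix.mul_apply]
    exact Finset.sum_congr rfl fun l _ => hmin i i l l)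
  have h0 : f (1 - e.trace) = 0 := by
    rw [map_sub, map_one, sub_eq_zero, ← h.trace]
    exact (AddMonoidHom.map_trace f.toAddMonoidHom e).symm
  exact (sub_eq_zero.mp (htr.eq_zero_of_isNilpotent ⟨2, (sq _).trans (hsq _ _ h0 h0)⟩)).symm

include hsurj hsq in
/-- Mutually inverse maps between images of idempotents lift. -/
theorem exists_inverse_lift {m n : ℕ} {E₁ : Matrix (Fin n) (Fin n) R}
    {E₂ : Matrix (Fin m) (Fin m) R} (h₁ : E₁ * E₁ = E₁) (h₂ : E₂ * E₂ = E₂)
    {u' : Matrix (Fin m) (Fin n) S} {v' : Matrix (Fin n) (Fin m) S}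
    (huv : u' * v' = E₂.map f) (hvu : v' * u' = E₁.map f)
    (hu : u' * E₁.map f = u') (hv : v' * E₂.map f = v') :
    ∃ (u : Matrix (Fin m) (Fin n) R) (v : Matrix (Fin n) (Fin m) R),
      u * v = E₂ ∧ v * u = E₁ ∧ u * E₁ = u ∧ v * E₂ = v ∧ u.map f = u' ∧ v.map f = v' := by
  obtain ⟨U, rfl⟩ := exists_matrix_lift f hsurj u'
  obtain ⟨V, rfl⟩ := exists_matrix_lift f hsurj v'
  have hu2 : E₂.map f * U.map f = U.map f := by rw [← huv, Matrix.mul_assoc, hvu, hu]
  have hv2 : E₁.map f * V.map f = V.map f := by rw [← hvu, Matrix.mul_assoc, huv, hv]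
  set u := E₂ * U * E₁ with hu0def
  set w := E₁ * V * E₂ with hw0def
  have huf : u.map f = U.map f := by rw [hu0def, Matrix.map_mul, Matrix.map_mul, hu2, hu]
  have hwf : w.map f = V.map f := by rw [hw0def, Matrix.map_mul, Matrix.map_mul, hv2, hv]
  have huE : u * E₁ = u := by rw [hu0def, Matrix.mul_assoc, h₁]
  have hEu : E₂ * u = u := by rw [hu0def, ← Matrix.mul_assoc, ← Matrix.mul_assoc, h₂]
  have hwE : w * E₂ = w := by rw [hw0def, Matrix.mul_assoc, h₂]
  have hEw : E₁ * w = w := by rw [hw0def, ← Matrix.mul_assoc, ← Matrix.mul_assoc, h₁]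
  set N := w * u - E₁ with hN
  have hNf : N.map f = 0 := by
    rw [hN, Matrix.map_sub _ (map_sub f), Matrix.map_mul, huf, hwf, hvu, sub_self]
  have hN1 : N * E₁ = N := by rw [hN, sub_mul, Matrix.mul_assoc, huE, h₁]
  have h1N : E₁ * N = N := by rw [hN, mul_sub, ← Matrix.mul_assoc, hEw, h₁]
  set v := (E₁ - N) * w with hv0def
  have hvf : v.map f = V.map f := by
    rw [hv0def, Matrix.map_mul, hwf, Matrix.map_sub _ (map_sub f), hNf, sub_zero, hv2]
  have hvu' : v * u = E₁ := by
    rw [hv0def, Matrix.mul_assoc, show w * u = E₁ + N by rw [hN]; abel, sub_mul, mul_add, mul_add,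
      h₁, h1N, hN1, mul_eq_zero_of_map_eq_zero f hsq hNf hNf]
    abel
  have hvE : v * E₂ = v := by rw [hv0def, Matrix.mul_assoc, hwE]
  have hd : IsIdempotentElem (E₂ - u * v) := by
    show (E₂ - u * v) * (E₂ - u * v) = E₂ - u * v
    have e1 : u * v * E₂ = u * v := by rw [Matrix.mul_assoc, hvE]
    have e2 : E₂ * (u * v) = u * v := by rw [← Matrix.mul_assoc, hEu]
    have e3 : u * v * (u * v) = u * v := by
      rw [Matrix.mul_assoc, ← Matrix.mul_assoc v, hvu', ← Matrix.mul_assoc, huE]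
    rw [sub_mul, mul_sub, mul_sub, h₂, e1, e2, e3, sub_self, sub_zero]
  have hdf : (E₂ - u * v).map f = 0 := by
    rw [Matrix.map_sub _ (map_sub f), Matrix.map_mul, huf, hvf, huv, sub_self]
  refine ⟨u, v, ?_, hvu', huE, hvE, huf, hvf⟩
  exact (sub_eq_zero.mp (hd.eq_zero_of_isNilpotent
    ⟨2, (sq _).trans (mul_eq_zero_of_map_eq_zero f hsq hdf hdf)⟩)).symm

end General

variable {k : Type u} [Field k] {X : Charts k} {A A' : Type u}
  [CommRing A] [Algebra k A] [CommRing A'] [Algebra k A'] (φ : A →ₐ[k] A')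

theorem chartMap_surjective (hφ : Function.Surjective φ) (B : Type u) [CommRing B] [Algebra k B] :
    Function.Surjective (Datum.chartMap B φ) :=
  Algebra.TensorProduct.map_surjective φ (AlgHom.id k B) hφ fun x => ⟨x, rfl⟩

theorem chartMap_square_zero (hφ : Function.Surjective φ)
    (hsq : ∀ x y, φ x = 0 → φ y = 0 → x * y = 0) (B : Type u) [CommRing B] [Algebra k B]
    (x y : A ⊗[k] B) (hx : Datum.chartMap B φ x = 0) (hy : Datum.chartMap B φ y = 0) :
    x * y = 0 := by
  have hx' : x ∈ RingHom.ker (Algebra.TensorProduct.map φ (AlgHom.id k B)) := hx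
  have hy' : y ∈ RingHom.ker (Algebra.TensorProduct.map φ (AlgHom.id k B)) := hy
  rw [Algebra.TensorProduct.rTensor_ker φ hφ] at hx' hy'
  have hI : RingHom.ker φ * RingHom.ker φ = ⊥ :=
    le_bot_iff.mp (Ideal.mul_le.2 fun a ha b hb => by rw [hsq a b ha hb]; exact zero_mem _)
  have h := Ideal.mul_mem_mul hx' hy'
  rw [← Ideal.map_mul, hI, Ideal.map_bot, Ideal.mem_bot] at h
  exact h

namespace Datum

/-- Data lift along square-zero thickenings. -/
theorem exists_lift (hφ : Function.Surjective φ)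
    (hsq : ∀ x y, φ x = 0 → φ y = 0 → x * y = 0) (L' : Datum X A') :
    ∃ L : Datum X A, L.map φ = L' := by
  obtain ⟨n₁, n₂, e₁', e₂', u', v', r₁, r₂, huv, hvu, hu, hv⟩ := L'
  obtain ⟨E₁, hE₁, rfl⟩ := exists_rankOne_lift (chartMap X.B₁ φ).toRingHom
    (chartMap_surjective φ hφ _) (chartMap_square_zero φ hφ hsq _) r₁
  obtain ⟨E₂, hE₂, rfl⟩ := exists_rankOne_lift (chartMap X.B₂ φ).toRingHom
    (chartMap_surjective φ hφ _) (chartMap_square_zero φ hφ hsq _) r₂
  have c₁ : (E₁.map (chartMap X.B₁ φ)).map (X.res₁ A') =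
      (E₁.map (X.res₁ A)).map (chartMap X.B₀ φ) :=
    Matrix.ext fun i j => (chartMap_res₁ φ _).symm
  have c₂ : (E₂.map (chartMap X.B₂ φ)).map (X.res₂ A') =
      (E₂.map (X.res₂ A)).map (chartMap X.B₀ φ) :=
    Matrix.ext fun i j => (chartMap_res₂ φ _).symm
  obtain ⟨u, v, h1, h2, h3, h4, rfl, rfl⟩ := exists_inverse_lift (chartMap X.B₀ φ).toRingHom
    (chartMap_surjective φ hφ _) (chartMap_square_zero φ hφ hsq _)
    (E₁ := E₁.map (X.res₁ A)) (E₂ := E₂.map (X.res₂ A))
    (by rw [← Matrix.map_mul, hE₁.idem]) (by rw [← Matrix.map_mul, hE₂.idem])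
    (huv.trans c₂) (hvu.trans c₁) ((congrArg (u' * ·) c₁.symm).trans hu)
    ((congrArg (v' * ·) c₂.symm).trans hv)
  exact ⟨⟨n₁, n₂, E₁, E₂, u, v, hE₁, hE₂, h1, h2, h3, h4⟩, rfl⟩

/-- Trivialisations at the point lift. -/
theorem IsRigidifiable.of_map (hsq : ∀ x y, φ x = 0 → φ y = 0 → x * y = 0)
    (hφ : Function.Surjective φ) {L : Datum X A} (h : (L.map φ).IsRigidifiable) :
    L.IsRigidifiable := by
  obtain ⟨a', b', hab, he⟩ := h
  set π : X.R₁ A →ₐ[A] A := Algebra.TensorProduct.lift (AlgHom.id A A)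
    ((Algebra.ofId k A).comp X.pt) (fun _ _ => Commute.all _ _)
  set E := L.e₁.map π
  have hE : IsRankOne E := IsRankOne.map π.toRingHom L.rank₁
  have hπ : ∀ x, Algebra.TensorProduct.lift (AlgHom.id A' A') ((Algebra.ofId k A').comp X.pt)
      (fun _ _ => Commute.all _ _) (chartMap X.B₁ φ x) = φ (π x) := fun x => by
    induction x using TensorProduct.induction_on with
    | zero => simp
    | tmul a b => simp [chartMap, π, Algebra.ofId_apply]
    | add a b ha hb => simp [ha, hb]
  have hEf : ∀ i j, φ (E i j) = a' i * b' j := fun i j =>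
    (hπ _).symm.trans (congrFun (congrFun he i) j)
  obtain ⟨a, rfl⟩ : ∃ a : Fin L.n₁ → A, φ ∘ a = a' :=
    ⟨fun i => Function.surjInv hφ (a' i), funext fun i => Function.surjInv_eq hφ _⟩
  obtain ⟨b, rfl⟩ : ∃ b : Fin L.n₁ → A, φ ∘ b = b' :=
    ⟨fun i => Function.surjInv hφ (b' i), funext fun i => Function.surjInv_eq hφ _⟩
  set c := b ⬝ᵥ (E *ᵥ a) with hcdef
  have hcc : (b ᵥ* E) ⬝ᵥ (E *ᵥ a) = c := by
    rw [hcdef, ← Matrix.dotProduct_mulVec, Matrix.mulVec_mulVec, hE.idem]
  have hbb : (φ ∘ b) ⬝ᵥ (φ ∘ a) = φ (b ⬝ᵥ a) := (RingHom.map_dotProduct φ.toRingHom b a).symm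
  have hc : φ c = 1 := by
    calc φ c = ((φ ∘ b) ⬝ᵥ (φ ∘ a)) * ((φ ∘ b) ⬝ᵥ (φ ∘ a)) := by
          simp only [hcdef, dotProduct, Matrix.mulVec, map_sum, map_mul, hEf, Finset.mul_sum,
            Finset.sum_mul, Function.comp_apply]
          rw [Finset.sum_comm]
          exact Finset.sum_congr rfl fun x _ => Finset.sum_congr rfl fun y _ => by ring
      _ = 1 := by
          have : (φ ∘ b) ⬝ᵥ (φ ∘ a) = 1 := hab
          rw [this, one_mul]
  obtain ⟨d, hd⟩ : ∃ d, c * d = 1 := by
    refine ⟨2 - c, ?_⟩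
    linear_combination -(hsq (c - 1) (c - 1) (by rw [map_sub, hc, map_one, sub_self])
      (by rw [map_sub, hc, map_one, sub_self]))
  refine ⟨E *ᵥ a, fun j => d * (b ᵥ* E) j, ?_, ?_⟩
  · show (d • (b ᵥ* E)) ⬝ᵥ (E *ᵥ a) = 1
    rw [smul_dotProduct, hcc, smul_eq_mul, mul_comm]
    exact hd
  · refine Matrix.ext fun i j => ?_
    show E i j = (E *ᵥ a) i * (d * (b ᵥ* E) j)
    have h1 : (E *ᵥ a) i * (b ᵥ* E) j = E i j * c := by
      simp only [hcdef, Matrix.mulVec, Matrix.vecMul, dotProduct, Finset.sum_mul, Finset.mul_sum]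
      exact Finset.sum_congr rfl fun m _ => Finset.sum_congr rfl fun l _ => by
        linear_combination (a l * b m) * hE.minors i l m j
    linear_combination -(E i j) * hd - d * h1

end Datum

end FLTAgent.PicScheme
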