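import Fermat.Agent.PicScheme.Atlas
import Fermat.Agent.PicScheme.Sheaf.Cls
import Fermat.Agent.PicScheme.Group

/-!
# A representing scheme from an atlas
-/

set_option autoImplicit false
set_option linter.checkUnivs false

noncomputable section

universe u

open CategoryTheory CategoryTheory.Limits AlgebraicGeometry AlgebraicGeometry.RelPicard
  NeronModelInfra GoodReductionJacobian

namespace FLTAgent.PicScheme

variable {k : Type u} [Field k] {X : Charts k}

namespace AlgFun.Atlas

variable {G : AlgFun k} (𝔸 : G.Atlas)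

/-- The glued scheme is locally of finite type when the charts are. -/
theorem locallyOfFiniteType (h : ∀ i, Algebra.FiniteType k (𝔸.R i)) :
    LocallyOfFiniteType 𝔸.toBase := by
  have hlocal : IsZariskiLocalAtSource @LocallyOfFiniteType.{u} :=
    @HasRingHomProperty.instIsZariskiLocalAtSource _ RingHom.FiniteType inferInstance
  refine (IsZariskiLocalAtSource.iff_of_openCover (P := @LocallyOfFiniteType.{u})
    (f := 𝔸.toBase) 𝔸.glueData.openCover).2 fun (i : 𝔸.ι) => ?_
  show LocallyOfFiniteType (𝔸.incl i ≫ 𝔸.toBase)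
  rw [show 𝔸.incl i ≫ 𝔸.toBase = specT k (𝔸.R i) from (𝔸.inclOver i).2, specT]
  exact (HasRingHomProperty.Spec_iff (P := @LocallyOfFiniteType.{u})).2
    (RingHom.finiteType_algebraMap.2 (h i))

end AlgFun.Atlas

theorem Cls.isZero_one {A : Type u} [CommRing A] [Algebra k A]
    (h : (Datum.one X A).IsRigidifiable) :
    Cls.IsZero (Quot.mk _ ⟨Datum.one X A, h⟩ : Cls X A) :=
  Cls.isZero_mk.2 fun K _ _ _ φ => by rw [Datum.map_one']

variable {C : Scheme.{u}} {c : C ⟶ Spec (CommRingCat.of k)}
  {ε : SchemeHomOver (𝟙 (Spec (CommRingCat.of k))) c}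

/-- The base change of classes of a dictionary is that of data. -/
theorem Dict.map_eq_cls {F : Frame c ε} (Δ : Dict F) {A A' : Type u} [CommRing A] [Algebra k A]
    [CommRing A'] [Algebra k A'] (φ : A →ₐ[k] A') (x : Cls F.X A) :
    Δ.map φ x = Cls.map φ x := by
  induction x using Quot.ind with
  | _ L => exact Δ.map_mk φ L (L.2.map φ)

/-- The algebra homomorphism of the base, as a point. -/
theorem specT_self_id : specT k k = 𝟙 (Spec (CommRingCat.of k)) :=
  (congrArg Spec.map (CommRingCat.hom_ext (RingHom.ext fun _ => rfl))).trans (Spec.map_id _)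

/-- A representing scheme from an atlas of the classes of degree zero. -/
theorem exists_rep_of_atlas {F : Frame c ε} (Δ : Dict F) (hX : HasConst F.X)
    (𝔸 : (zeroFun F.X).Atlas) (hft : ∀ i, Algebra.FiniteType k (𝔸.R i)) :
    Nonempty (Rep Δ) := by
  have hG := isSheaf_zeroFun hX
  let one : {x : Cls F.X k // x.IsZero} :=
    ⟨Quot.mk _ ⟨Datum.one F.X k, Datum.one_isRigidifiable⟩, Cls.isZero_one _⟩
  obtain ⟨z, hz⟩ := 𝔸.pt_surjective hG (A := k) one
  let D : RelativePic0Designation k c :=
    { P := 𝔸.P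
      toBase := 𝔸.toBase
      zeroSection := z.1
      zeroSection_toBase := z.2.trans specT_self_id }
  refine ⟨{
    D := D
    lft := 𝔸.locallyOfFiniteType hft
    η := fun A _ _ p => (𝔸.pt hG p).1
    η_injective := fun A _ _ p p' h => 𝔸.pt_injective hG (Subtype.ext h)
    η_zero := fun A _ _ p => (𝔸.pt hG p).2
    η_surj := fun A _ _ x hx => (𝔸.pt_surjective hG ⟨x, hx⟩).imp fun p hp => congrArg Subtype.val hp
    η_map := fun φ p => by
      rw [Δ.map_eq_cls]
      exact congrArg Subtype.val (𝔸.pt_map hG φ p)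
    η_base := fun A _ _ => ⟨Datum.one_isRigidifiable, ?_⟩ }⟩
  have hp : postComp z (specHom (Algebra.ofId k A)) =
      ⟨specT k A ≫ z.1, by rw [Category.assoc, z.2, specT_self_id, Category.comp_id]⟩ := Subtype.ext rfl
  refine (congrArg (fun p => (𝔸.pt hG p).1) hp.symm).trans ?_
  refine (congrArg Subtype.val ((𝔸.pt_map hG (Algebra.ofId k A) z).trans
    (congrArg ((zeroFun F.X).map (Algebra.ofId k A)) hz))).trans ?_
  exact congrArg (Quot.mk _) (Subtype.ext (Datum.map_one' _))

end FLTAgent.PicScheme
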