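import Fermat.Agent.PicScheme.Chart.Cls
import Fermat.Agent.PicScheme.Chart.CoverPoint
import Fermat.Agent.PicScheme.Chart.GoodChart
import Fermat.Agent.PicScheme.Degree.OpenZero
import Fermat.Agent.PicScheme.Curve.Const
import Fermat.Agent.PicScheme.RepOf

/-!
# The atlas of the classes of degree zero
-/

set_option autoImplicit false
set_option linter.checkUnivs false
set_option linter.unusedSectionVars false
set_option linter.style.haveILetI false

noncomputable section

universe u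

open CategoryTheory AlgebraicGeometry TensorProduct TopologicalSpace NeronModelInfra

namespace FLTAgent.PicScheme

variable {k : Type u} [Field k] {X : Charts k} {A A' : Type u} [CommRing A] [Algebra k A]
  [CommRing A'] [Algebra k A']

theorem Cls.map_map_toAway (x : Cls X A) {f g : A} (h : f ∣ g) :
    Cls.map (awayLE h) (Cls.map (toAway k f) x) = Cls.map (toAway k g) x := by
  rw [← Cls.map_comp, awayLE_comp]

variable (A) in
/-- A class over the ground field, over a base. -/
def baseCls (T : Cls X k) : Cls X A := Cls.map (Algebra.ofId k A) T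

theorem map_baseCls (T : Cls X k) (f : A →ₐ[k] A') : Cls.map f (baseCls A T) = baseCls A' T := by
  rw [baseCls, baseCls, ← Cls.map_comp]
  congr 1
  exact Subsingleton.elim _ _

/-- The universal point on a principal open of the chart. -/
abbrev locPt {n : ℕ} (e : Fin n → X.B₁) (r : ChartRing k e) : ChartPt k e (Localization.Away r) :=
  (ChartRing.univPt k e).map (toAway k r)

variable (X) in
/-- An index of a chart: degree of a divisor, elements, a twist and a principal open on which the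
universal point is good and its twisted class has degree zero. -/
structure ChartIdx : Type u where
  n : ℕ
  e : Fin n → X.B₁
  T : RigDatum X k
  r : ChartRing k e
  good : (locPt e r).IsGood
  zero : (good.cls * (baseCls (Localization.Away r) (Cls.of T))⁻¹).IsZero

namespace ChartIdx

variable (i : ChartIdx X)

/-- The ring of a chart. -/
abbrev R : Type u := Localization.Away i.r

/-- The universal class. -/
def univ : (zeroFun X).obj i.R := ⟨i.good.cls * (baseCls i.R (Cls.of i.T))⁻¹, i.zero⟩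

/-- The twist of a class. -/
def twist (x : Cls X A) : Cls X A := x * baseCls A (Cls.of i.T)

theorem twist_map (x : Cls X A) (f : A →ₐ[k] A') : i.twist (Cls.map f x) = Cls.map f (i.twist x) := by
  rw [twist, twist, Cls.map_mul, map_baseCls]

theorem map_univ_iff (ψ : i.R →ₐ[k] A) (x : (zeroFun X).obj A) :
    (zeroFun X).map ψ i.univ = x ↔ (i.good.map ψ).cls = i.twist x.1 := by
  have h : ((zeroFun X).map ψ i.univ).1 = (i.good.map ψ).cls * (baseCls A (Cls.of i.T))⁻¹ := by
    show Cls.map ψ (i.good.cls * (baseCls i.R (Cls.of i.T))⁻¹) = _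
    rw [Cls.map_mul, Cls.map_inv, map_baseCls, i.good.cls_map]
  refine Subtype.ext_iff.trans ?_
  rw [h, twist, mul_inv_eq_iff_eq_mul]

theorem hom_eq {f g : i.R →ₐ[k] A} (h : (locPt i.e i.r).map f = (locPt i.e i.r).map g) : f = g :=
  away_ext ((ChartRing.equiv (k := k) (e := i.e)).injective h)

theorem inj (f g : i.R →ₐ[k] A) (h : (zeroFun X).map f i.univ = (zeroFun X).map g i.univ) :
    f = g := by
  refine i.hom_eq ((i.good.map f).cls_inj (i.good.map g) ?_)
  rw [(i.map_univ_iff f _).1 h, ← (i.map_univ_iff g _).1 rfl]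

/-- The homomorphism of a good point at which the element of the index is invertible. -/
theorem exists_hom {p : ChartPt k i.e A} (hp : p.IsGood) (hu : IsUnit (ChartRing.lift p i.r))
    (x : (zeroFun X).obj A) (hx : hp.cls = i.twist x.1) :
    ∃ ψ : i.R →ₐ[k] A, (zeroFun X).map ψ i.univ = x := by
  refine ⟨awayTo (ChartRing.lift p) hu, (i.map_univ_iff _ x).2 ?_⟩
  rw [← hx]
  refine ChartPt.IsGood.cls_congr _ hp ?_
  rw [ChartPt.map_map, awayTo_comp, ChartRing.univPt_map_lift]

/-- **The chart is open.** -/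
theorem exists_near (x : (zeroFun X).obj A) {K : Type u} [Field K] [Algebra k K] (ψ : A →ₐ[k] K)
    (χ : i.R →ₐ[k] K) (h : (zeroFun X).map χ i.univ = (zeroFun X).map ψ x) :
    ∃ f : A, ψ f ≠ 0 ∧ ∃ χ' : i.R →ₐ[k] Localization.Away f,
      (zeroFun X).map χ' i.univ = (zeroFun X).map (toAway k f) x := by
  obtain ⟨L, hL⟩ := Quot.exists_rep (i.twist x.1)
  have hK : (i.good.map χ).cls = Quot.mk _ ⟨L.1.map ψ, L.2.map ψ⟩ := by
    rw [(i.map_univ_iff χ _).1 h]
    show i.twist (Cls.map ψ x.1) = _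
    rw [i.twist_map, ← hL]
    rfl
  obtain ⟨t₁, t₂, ht⟩ := (i.good.map χ).cls_eq_mk_iff.1 hK
  obtain ⟨f, hf, p, hp, hcuts⟩ := exists_good_near ψ (i.good.map χ) ⟨t₁, t₂, ht⟩
  have hpc : hp.cls = Cls.map (toAway k f) (i.twist x.1) := by
    rw [← hL]
    exact hp.cls_eq_mk_iff.2 hcuts
  let ψ' : Localization.Away f →ₐ[k] K := awayTo ψ (isUnit_iff_ne_zero.2 hf)
  have hpt : p.map ψ' = (locPt i.e i.r).map χ := by
    refine (hp.map ψ').cls_inj (i.good.map χ) ?_
    rw [hp.cls_map, hpc, ← Cls.map_comp, awayTo_comp, hK, ← hL]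
    rfl
  have ha : ψ' (ChartRing.lift p i.r) ≠ 0 := by
    have e : ψ'.comp (ChartRing.lift p) = χ.comp (toAway k i.r) := by
      rw [← ChartRing.lift_map, hpt, ChartPt.map_map]
      exact (ChartRing.equiv).symm_apply_apply _
    rw [show ψ' (ChartRing.lift p i.r) = χ (toAway k i.r i.r) from AlgHom.congr_fun e i.r]
    exact ((isUnit_toAway_of_dvd (k := k) (dvd_refl i.r)).map χ).ne_zero
  obtain ⟨f', hd, hf', hu⟩ := exists_isUnit_awayLE f _ ψ' ha
  refine ⟨f', ?_, i.exists_hom (hp.map (awayLE hd)) ?_ _ ?_⟩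
  · rwa [show ψ' (toAway k f f') = ψ f' from AlgHom.congr_fun (awayTo_comp ψ (isUnit_iff_ne_zero.2 hf)) f'] at hf'
  · rw [ChartRing.lift_map]; exact hu
  · rw [hp.cls_map, hpc, Cls.map_map_toAway]
    exact (i.twist_map x.1 _).symm

/-- The points where a class lies in the chart. -/
def locus (x : (zeroFun X).obj A) : Opens (PrimeSpectrum A) where
  carrier := ⋃ f ∈ {f : A | ∃ χ : i.R →ₐ[k] Localization.Away f,
    (zeroFun X).map χ i.univ = (zeroFun X).map (toAway k f) x},
      (PrimeSpectrum.basicOpen f : Set (PrimeSpectrum A))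
  is_open' := isOpen_biUnion fun f _ => (PrimeSpectrum.basicOpen f).2

theorem mem_locus {x : (zeroFun X).obj A} {P : PrimeSpectrum A} :
    P ∈ i.locus x ↔ ∃ f ∉ P.asIdeal, ∃ χ : i.R →ₐ[k] Localization.Away f,
      (zeroFun X).map χ i.univ = (zeroFun X).map (toAway k f) x := by
  show P ∈ ⋃ f ∈ _, _ ↔ _
  simp only [Set.mem_iUnion, Set.mem_ofPred_eq, SetLike.mem_coe, PrimeSpectrum.mem_basicOpen]
  exact ⟨fun ⟨f, h, hP⟩ => ⟨f, hP, h⟩, fun ⟨f, hP, h⟩ => ⟨f, h, hP⟩⟩

end ChartIdx

/-- A geometric point over a prime. -/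
theorem exists_geometric_point (P : PrimeSpectrum A) :
    ∃ (K : Type u) (_ : Field K) (_ : IsAlgClosed K) (_ : Algebra k K) (ψ : A →ₐ[k] K),
      ∀ f, ψ f ≠ 0 ↔ f ∉ P.asIdeal := by
  haveI := P.isPrime
  let K := AlgebraicClosure (FractionRing (A ⧸ P.asIdeal))
  let φ : A →+* K := ((algebraMap (FractionRing (A ⧸ P.asIdeal)) K).comp
    (algebraMap (A ⧸ P.asIdeal) (FractionRing (A ⧸ P.asIdeal)))).comp (Ideal.Quotient.mk P.asIdeal)
  letI : Algebra k K := (φ.comp (algebraMap k A)).toAlgebra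
  refine ⟨K, inferInstance, inferInstance, inferInstance,
    { φ with commutes' := fun _ => rfl }, fun f => ?_⟩
  show φ f ≠ 0 ↔ _
  rw [not_iff_not]
  simp only [φ, RingHom.comp_apply]
  rw [map_eq_zero_iff _ (FaithfulSMul.algebraMap_injective _ _),
    map_eq_zero_iff _ (IsFractionRing.injective (A ⧸ P.asIdeal) _), Ideal.Quotient.eq_zero_iff_mem]

theorem ChartIdx.mem_iff (hX : HasConst X) (i : ChartIdx X) (x : (zeroFun X).obj A)
    (φ : A →ₐ[k] A') :
    (∃ ψ : i.R →ₐ[k] A', (zeroFun X).map ψ i.univ = (zeroFun X).map φ x) ↔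
      Set.range (PrimeSpectrum.comap φ.toRingHom) ⊆ (i.locus x : Set (PrimeSpectrum A)) := by
  constructor
  · rintro ⟨ψ, hψ⟩ _ ⟨Q, rfl⟩
    obtain ⟨K, _, _, _, π, hπ⟩ := exists_geometric_point (k := k) Q
    obtain ⟨f, hf, χ, hχ⟩ := i.exists_near x (π.comp φ) (π.comp ψ)
      (by rw [(zeroFun X).map_comp, hψ, ← (zeroFun X).map_comp])
    exact i.mem_locus.2 ⟨f, (hπ _).1 hf, χ, hχ⟩
  · intro h
    obtain ⟨m, r, hr, hP⟩ := AlgFun.Atlas.exists_span_cover (A := A')
      (fun s : A' => ∃ f : A, s = φ f ∧ ∃ χ : i.R →ₐ[k] Localization.Away f,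
        (zeroFun X).map χ i.univ = (zeroFun X).map (toAway k f) x) fun Q => by
      obtain ⟨f, hf, hχ⟩ := i.mem_locus.1 (h ⟨Q, rfl⟩)
      exact ⟨φ f, hf, f, rfl, hχ⟩
    choose f hrf χ hχ using hP
    obtain rfl : r = fun a => φ (f a) := funext hrf
    let χ' := fun a => (awayMap φ (f a)).comp (χ a)
    have hχ' : ∀ a, (zeroFun X).map (χ' a) i.univ =
        (zeroFun X).map ((toAway k (φ (f a))).comp φ) x := fun a => by
      rw [(zeroFun X).map_comp, hχ, ← (zeroFun X).map_comp, awayMap_comp]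
    obtain ⟨Ψ, hΨ⟩ := exists_glue_algHom _ hr χ' fun a b => i.inj _ _ (by
      refine ((zeroFun X).map_comp _ _ _).trans ((congrArg _ (hχ' a)).trans
        (Eq.trans ?_ (((zeroFun X).map_comp _ _ _).trans (congrArg _ (hχ' b))).symm))
      rw [← (zeroFun X).map_comp, ← (zeroFun X).map_comp, ← AlgHom.comp_assoc, ← AlgHom.comp_assoc,
        awayLE_comp, awayLE_comp])
    refine ⟨Ψ, (isSheaf_zeroFun hX).sep m _ hr _ _ fun a => ?_⟩
    rw [← (zeroFun X).map_comp, ← (zeroFun X).map_comp, hΨ, hχ']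

variable {C : Scheme.{u}} {c : C ⟶ Spec (CommRingCat.of k)}
  {ε : SchemeHomOver (𝟙 (Spec (CommRingCat.of k))) c}

theorem isZero_map_of_isDegZero {A'' : Type u} [CommRing A''] [Algebra k A''] (L : RigDatum X A)
    {f : A →ₐ[k] A'} {g : A' →ₐ[k] A''} {h : A →ₐ[k] A''} (hgf : g.comp f = h)
    (hd : (L.1.map f).IsDegZero) : (Cls.map h (Quot.mk _ L : Cls X A)).IsZero := by
  have e : Cls.map h (Quot.mk _ L : Cls X A) = Cls.map g (Cls.map f (Quot.mk _ L : Cls X A)) := by
    rw [← hgf]; exact Cls.map_comp f g _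
  exact (congrArg Cls.IsZero e).mpr
    (Cls.IsZero.map ((Cls.isZero_mk (L := ⟨L.1.map f, L.2.map f⟩)).2 hd) g)

/-- **The charts cover.** -/
theorem exists_chartIdx [IsAlgClosed k] [IsProper c] [SmoothOfRelativeDimension 1 c] [IsIntegral C]
    (F : Frame c ε) (x : (zeroFun F.X).obj A) (P : PrimeSpectrum A) :
    ∃ i : ChartIdx F.X, P ∈ i.locus x := by
  have hB := F.goodChart
  haveI := hB.finiteType
  obtain ⟨K, _, _, _, ψ, hψ⟩ := exists_geometric_point (k := k) P
  set xK := (zeroFun F.X).map ψ x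
  obtain ⟨L, hL⟩ := Quot.exists_rep xK.1
  obtain ⟨T, hchi, hs, p, hp, hpt, hg⟩ := F.exists_twist L.1
  obtain ⟨n, e, q, s₁, s₂, hcut, hev, hH, hspan⟩ := exists_cuts_of_section hchi hs p hp hpt hg
  have hq : q.IsGood := ⟨hev, _, s₁, s₂, hcut, hH, hspan⟩
  have hqc : hq.cls = xK.1 * baseCls K (Cls.of T) := by
    rw [← hL]
    exact hq.cls_eq_mk_iff.2 ⟨_, _, hcut⟩
  set q₀ := ChartRing.lift q
  obtain ⟨f₁, hf₁, hgood⟩ := exists_good_open hB (ChartRing.univPt k e) q₀
    (by rw [ChartRing.univPt_map_lift]; exact hq)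
  let q₁ : Localization.Away f₁ →ₐ[k] K := awayTo q₀ (isUnit_iff_ne_zero.2 hf₁)
  have hq₁ : (hgood.map q₁).cls = hq.cls := ChartPt.IsGood.cls_congr _ hq
    (by rw [ChartPt.map_map, awayTo_comp, ChartRing.univPt_map_lift])
  set y := hgood.cls * (baseCls (Localization.Away f₁) (Cls.of T))⁻¹ with hy
  have hyK : Cls.map q₁ y = xK.1 := by
    rw [hy, Cls.map_mul, Cls.map_inv, map_baseCls, ← hgood.cls_map, hq₁, hqc, mul_inv_cancel_right]
  obtain ⟨Y, hY⟩ := Quot.exists_rep y
  haveI : Algebra.FiniteType k (ChartRing k e) := ChartRing.finiteType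
  haveI : IsNoetherianRing (ChartRing k e) := Algebra.FiniteType.isNoetherianRing k _
  haveI : IsNoetherianRing (Localization.Away f₁) :=
    IsLocalization.isNoetherianRing (Submonoid.powers f₁) _ inferInstance
  have hchiY : (Y.1.map q₁).chi = (Datum.one F.X K).chi := by
    have hz : Cls.IsZero (Quot.mk _ ⟨Y.1.map q₁, Y.2.map q₁⟩ : Cls F.X K) := by
      show Cls.IsZero (Cls.map q₁ (Quot.mk _ Y))
      rw [hY, hyK]
      exact xK.2
    have := Cls.isZero_mk.1 hz K (AlgHom.id k K)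
    rwa [Datum.map_id] at this
  obtain ⟨a, ha, hdeg⟩ := exists_isDegZero_near Y.1 K q₁ hchiY
  obtain ⟨r, hd, hr, hu⟩ := exists_isUnit_awayLE f₁ a q₁ ha
  let j : Localization.Away a →ₐ[k] Localization.Away r := awayTo (awayLE hd) hu
  have hgood' : (locPt e r).IsGood := by
    have := hgood.map (awayLE (k := k) hd)
    rwa [ChartPt.map_map, awayLE_comp] at this
  have hclsr : hgood'.cls = Cls.map (awayLE (k := k) hd) hgood.cls := by
    rw [← hgood.cls_map]
    exact ChartPt.IsGood.cls_congr _ _ (by rw [ChartPt.map_map, awayLE_comp])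
  have hzero : (hgood'.cls * (baseCls (Localization.Away r) (Cls.of T))⁻¹).IsZero := by
    have e : hgood'.cls * (baseCls (Localization.Away r) (Cls.of T))⁻¹ =
        Cls.map (awayLE (k := k) hd) y := by
      rw [hy, Cls.map_mul, Cls.map_inv, map_baseCls, hclsr]
    rw [e, ← hY]
    exact isZero_map_of_isDegZero Y (awayTo_comp (awayLE (k := k) hd) hu) hdeg
  let i : ChartIdx F.X := ⟨n, e, T, r, hgood', hzero⟩
  have hq₀r : IsUnit (q₀ r) := by
    have h' : q₁ (toAway k f₁ r) = q₀ r := AlgHom.congr_fun (awayTo_comp q₀ (isUnit_iff_ne_zero.2 hf₁)) r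
    rw [← h']
    exact isUnit_iff_ne_zero.2 hr
  obtain ⟨χ, hχ⟩ := i.exists_hom hq hq₀r xK hqc
  obtain ⟨f, hf, hf'⟩ := i.exists_near x ψ χ hχ
  exact ⟨i, i.mem_locus.2 ⟨f, (hψ _).1 hf, hf'⟩⟩

/-- The atlas. -/
def chartAtlas [IsAlgClosed k] [IsProper c] [SmoothOfRelativeDimension 1 c] [IsIntegral C]
    (F : Frame c ε) : (zeroFun F.X).Atlas where
  ι := ChartIdx F.X
  R i := i.R
  univ i := i.univ
  inj i _ _ _ f g h := i.inj f g h
  locus i _ _ _ x := i.locus x
  mem_iff i _ _ _ x _ _ _ φ := i.mem_iff F.hasConst x φ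
  cover x P := exists_chartIdx F x P

/-- **Representability.** -/
theorem targetRep : TargetRep.{u} := by
  intro k _ _ C c _ _ _ ε F Δ
  refine exists_rep_of_atlas Δ F.hasConst (chartAtlas F) fun i => ?_
  haveI := (F.goodChart).finiteType
  haveI : Algebra.FiniteType k (ChartRing k i.e) := ChartRing.finiteType
  show Algebra.FiniteType k (Localization.Away i.r)
  exact Algebra.FiniteType.trans (S := ChartRing k i.e) inferInstance inferInstance

end FLTAgent.PicScheme
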