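import Fermat.Agent.PicScheme.Rigid
import Fermat.Agent.PicScheme.Sheaf.Local
import Fermat.Agent.PicScheme.Degree.Chi

/-!
# Classes of rigidifiable data form a Zariski sheaf on algebras

Rigidified isomorphisms are unique, so isomorphisms of data given locally glue, and data given
locally glue through block idempotents built from lifts of the transition matrices.
-/

set_option autoImplicit false
set_option linter.unusedSectionVars false

noncomputable section

universe u

open TensorProduct Matrix Filter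

namespace FLTAgent.PicScheme


variable {k : Type u} [Field k] {X : Charts k} {A A' A'' S S' : Type u}
  [CommRing A] [Algebra k A] [CommRing A'] [Algebra k A'] [CommRing A''] [Algebra k A'']
  [CommRing S] [Algebra k S] [CommRing S'] [Algebra k S']

namespace Datum

theorem map_chartMap_res₁ {l m : Type*} (φ : A →ₐ[k] A') (M : Matrix l m (X.R₁ A)) :
    (M.map (X.res₁ A)).map (chartMap X.B₀ φ) = (M.map (chartMap X.B₁ φ)).map (X.res₁ A') :=
  Matrix.ext fun i j => chartMap_res₁ φ (M i j)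

theorem map_chartMap_res₂ {l m : Type*} (φ : A →ₐ[k] A') (M : Matrix l m (X.R₂ A)) :
    (M.map (X.res₂ A)).map (chartMap X.B₀ φ) = (M.map (chartMap X.B₂ φ)).map (X.res₂ A') :=
  Matrix.ext fun i j => chartMap_res₂ φ (M i j)

namespace Mor

variable {L : Datum X S} {L' : Datum X S'} {f : S →ₐ[k] A'} {f' : S' →ₐ[k] A'}

/-- A morphism between base changes, pushed forward. -/
def push (φ : Mor (L.map f) (L'.map f')) (q : A' →ₐ[k] A'') {F : S →ₐ[k] A''} {F' : S' →ₐ[k] A''}
    (hF : q.comp f = F) (hF' : q.comp f' = F') : Mor (L.map F) (L'.map F') where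
  a₁ := φ.a₁.map (chartMap X.B₁ q)
  a₂ := φ.a₂.map (chartMap X.B₂ q)
  left₁ := by
    subst hF'
    have h := (φ.map q).left₁
    simp only [Mor.map, Datum.map, map_chartMap_comp] at h
    exact h
  right₁ := by
    subst hF
    have h := (φ.map q).right₁
    simp only [Mor.map, Datum.map, map_chartMap_comp] at h
    exact h
  left₂ := by
    subst hF'
    have h := (φ.map q).left₂
    simp only [Mor.map, Datum.map, map_chartMap_comp] at h
    exact h
  right₂ := by
    subst hF
    have h := (φ.map q).right₂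
    simp only [Mor.map, Datum.map, map_chartMap_comp] at h
    exact h
  compat := by
    subst hF hF'
    have h : (L'.u.map (chartMap X.B₀ f')).map (chartMap X.B₀ q) * _ =
        _ * (L.u.map (chartMap X.B₀ f)).map (chartMap X.B₀ q) := (φ.map q).compat
    rw [map_chartMap_comp, map_chartMap_comp] at h
    exact h

variable {A₀ : Type u} [CommRing A₀] [Algebra k A₀] {M M' M'' : Datum X A₀}

/-- The composite with the transition function, from the first to the second chart. -/
def w (φ : Mor M M') : Matrix (Fin M'.n₂) (Fin M.n₁) (X.R₀ A₀) := M'.u * φ.a₁.map (X.res₁ A₀)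

/-- The composite with the transition function, from the second to the first chart. -/
def z (φ : Mor M M') : Matrix (Fin M'.n₁) (Fin M.n₂) (X.R₀ A₀) := M'.v * φ.a₂.map (X.res₂ A₀)

theorem id_w (M : Datum X A₀) : (Mor.id M).w = M.u := M.u_cut

theorem w_mul_z (φ : Mor M M') (ψ : Mor M' M'') :
    ψ.w * φ.z = (φ.comp ψ).a₂.map (X.res₂ A₀) := by
  show (M''.u * ψ.a₁.map (X.res₁ A₀)) * (M'.v * φ.a₂.map (X.res₂ A₀)) =
    (ψ.a₂ * φ.a₂).map (X.res₂ A₀)
  rw [ψ.compat, Matrix.mul_assoc, ← Matrix.mul_assoc M'.u, M'.uv, ← Matrix.map_mul, φ.left₂,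
    Matrix.map_mul]

theorem z_mul_w (φ : Mor M M') (ψ : Mor M' M'') :
    ψ.z * φ.w = (φ.comp ψ).a₁.map (X.res₁ A₀) := by
  show (M''.v * ψ.a₂.map (X.res₂ A₀)) * (M'.u * φ.a₁.map (X.res₁ A₀)) =
    (ψ.a₁ * φ.a₁).map (X.res₁ A₀)
  rw [Matrix.mul_assoc, ← Matrix.mul_assoc (ψ.a₂.map _), ← ψ.compat, ← Matrix.mul_assoc,
    ← Matrix.mul_assoc, M''.vu, ← Matrix.map_mul, ψ.left₁, Matrix.map_mul]

theorem w_mul_a₁ (φ : Mor M M') (ψ : Mor M' M'') :
    ψ.w * φ.a₁.map (X.res₁ A₀) = (φ.comp ψ).w := by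
  show (M''.u * ψ.a₁.map (X.res₁ A₀)) * _ = M''.u * (ψ.a₁ * φ.a₁).map (X.res₁ A₀)
  rw [Matrix.map_mul, Matrix.mul_assoc]

theorem z_mul_a₂ (φ : Mor M M') (ψ : Mor M' M'') :
    ψ.z * φ.a₂.map (X.res₂ A₀) = (φ.comp ψ).z := by
  show (M''.v * ψ.a₂.map (X.res₂ A₀)) * _ = M''.v * (ψ.a₂ * φ.a₂).map (X.res₂ A₀)
  rw [Matrix.map_mul, Matrix.mul_assoc]

theorem a₂_mul_w (φ : Mor M M') (ψ : Mor M' M'') :
    ψ.a₂.map (X.res₂ A₀) * φ.w = (φ.comp ψ).w := by
  show _ * (M'.u * φ.a₁.map (X.res₁ A₀)) = M''.u * (ψ.a₁ * φ.a₁).map (X.res₁ A₀)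
  rw [← Matrix.mul_assoc, ← ψ.compat, Matrix.map_mul, Matrix.mul_assoc]

theorem push_w (φ : Mor (L.map f) (L'.map f')) (q : A' →ₐ[k] A'') {F : S →ₐ[k] A''}
    {F' : S' →ₐ[k] A''} (hF : q.comp f = F) (hF' : q.comp f' = F') :
    (φ.push q hF hF').w = φ.w.map (chartMap X.B₀ q) := by
  subst hF hF'
  exact (congrArg₂ (fun (M : Matrix (Fin L'.n₂) (Fin L'.n₁) _) (M' : Matrix (Fin L'.n₁) (Fin L.n₁) _) =>
    M * M') (map_chartMap_comp f' q L'.u).symm (map_chartMap_res₁ q φ.a₁).symm).trans
      (Matrix.map_mul (f := chartMap X.B₀ q)).symm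

theorem push_z (φ : Mor (L.map f) (L'.map f')) (q : A' →ₐ[k] A'') {F : S →ₐ[k] A''}
    {F' : S' →ₐ[k] A''} (hF : q.comp f = F) (hF' : q.comp f' = F') :
    (φ.push q hF hF').z = φ.z.map (chartMap X.B₀ q) := by
  subst hF hF'
  exact (congrArg₂ (fun (M : Matrix (Fin L'.n₁) (Fin L'.n₂) _) (M' : Matrix (Fin L'.n₂) (Fin L.n₂) _) =>
    M * M') (map_chartMap_comp f' q L'.v).symm (map_chartMap_res₂ q φ.a₂).symm).trans
      (Matrix.map_mul (f := chartMap X.B₀ q)).symm

end Mor

/-- A rigidified isomorphism between base changes, pushed forward. -/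
def RigIso.push {L : Datum X S} {L' : Datum X S'} {r : Rig L} {r' : Rig L'} {f : S →ₐ[k] A'}
    {f' : S' →ₐ[k] A'} (φ : RigIso (r.map f) (r'.map f')) (q : A' →ₐ[k] A'') {F : S →ₐ[k] A''}
    {F' : S' →ₐ[k] A''} (hF : q.comp f = F) (hF' : q.comp f' = F') :
    RigIso (r.map F) (r'.map F') where
  hom := φ.hom.push q hF hF'
  inv := φ.inv.push q hF' hF
  hom_inv := by
    subst hF hF'
    exact Mor.ext ((congrArg Mor.a₁ (φ.map q).hom_inv).trans (map_chartMap_comp f q L.e₁))
      ((congrArg Mor.a₂ (φ.map q).hom_inv).trans (map_chartMap_comp f q L.e₂))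
  inv_hom := by
    subst hF hF'
    exact Mor.ext ((congrArg Mor.a₁ (φ.map q).inv_hom).trans (map_chartMap_comp f' q L'.e₁))
      ((congrArg Mor.a₂ (φ.map q).inv_hom).trans (map_chartMap_comp f' q L'.e₂))
  val_hom := by
    subst hF hF'
    exact (φ.map q).val_hom

end Datum

open Datum

/-- A scalar in a localisation lifts after multiplication by a large power. -/
theorem eventually_lift_scalar (t : A) (x : Localization.Away t) :
    ∀ᶠ N in atTop, ∃ y : A, toAway k t y = toAway k t (t ^ N) * x := by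
  obtain ⟨⟨a, ⟨_, N₀, rfl⟩⟩, hs⟩ := IsLocalization.surj (Submonoid.powers t) x
  refine eventually_atTop.2 ⟨N₀, fun N hN => ?_⟩
  obtain ⟨d, rfl⟩ := Nat.exists_eq_add_of_le hN
  refine ⟨t ^ d * a, ?_⟩
  rw [map_mul, show toAway k t a = x * toAway k t (t ^ N₀) from hs.symm, pow_add, map_mul]
  ring

theorem eventually_eq_scalar (t : A) {x y : A} (h : toAway k t x = toAway k t y) :
    ∀ᶠ M in atTop, t ^ M * x = t ^ M * y := by
  obtain ⟨⟨_, M₀, rfl⟩, hM₀⟩ :=
    (IsLocalization.eq_iff_exists (Submonoid.powers t) (Localization.Away t)).1 h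
  refine eventually_atTop.2 ⟨M₀, fun M hM => ?_⟩
  rw [← Nat.sub_add_cancel hM, pow_add, mul_assoc, mul_assoc]
  exact congrArg _ hM₀

/-- Minors of products through a rank one idempotent. -/
theorem IsRankOne.minors_mid {R : Type*} [CommRing R] {n a b c d : ℕ}
    {e : Matrix (Fin n) (Fin n) R} (he : IsRankOne e) (P : Matrix (Fin a) (Fin n) R)
    (Q : Matrix (Fin n) (Fin b) R) (P' : Matrix (Fin c) (Fin n) R) (Q' : Matrix (Fin n) (Fin d) R)
    (i : Fin a) (j : Fin b) (l : Fin c) (m : Fin d) :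
    (P * e * Q) i j * (P' * e * Q') l m = (P * e * Q') i m * (P' * e * Q) l j := by
  have h : ∀ p q, (P * e) i p * (P' * e) l q = (P * e) i q * (P' * e) l p := fun p q => by
    simp only [Matrix.mul_apply, Finset.sum_mul, Finset.mul_sum]
    refine Finset.sum_congr rfl fun t _ => Finset.sum_congr rfl fun t' _ => ?_
    linear_combination P' l t * P i t' * he.minors t' p t q
  rw [Matrix.mul_apply, Matrix.mul_apply (M := P' * e) (N := Q'), Matrix.mul_apply (M := P * e) (N := Q'),
    Matrix.mul_apply (M := P' * e) (N := Q), Finset.sum_mul_sum, Finset.sum_mul_sum]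
  conv_rhs => rw [Finset.sum_comm]
  refine Finset.sum_congr rfl fun p _ => Finset.sum_congr rfl fun q _ => ?_
  linear_combination Q p j * Q' q m * h p q

theorem trace_image {B : Type u} [CommRing B] [Algebra k B] {n N : ℕ} (t : A)
    {G : Matrix (Fin n) (Fin n) (A ⊗[k] B)} {y : A}
    {x e : Matrix (Fin n) (Fin n) (Localization.Away t ⊗[k] B)}
    (h : G.map (chartMap B (toAway k t)) = toAway k t y • x) (hx : x = e) (he : e.trace = 1)
    (hy : y = t ^ (2 * N)) :
    chartMap B (toAway k t) (G.trace - algebraMap A (A ⊗[k] B) (t ^ (2 * N))) = 0 := by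
  subst hx hy
  rw [map_sub, sub_eq_zero, AddMonoidHom.map_trace (chartMap B (toAway k t)), h, Matrix.trace_smul,
    he, Algebra.smul_def, mul_one]
  simp [chartMap, Algebra.TensorProduct.algebraMap_apply]

theorem trace_scaled {B : Type u} [CommRing B] [Algebra k B] {n N M : ℕ} (t : A)
    (G : Matrix (Fin n) (Fin n) (A ⊗[k] B))
    (h : t ^ M • (G.trace - algebraMap A (A ⊗[k] B) (t ^ (2 * N))) = 0) :
    ((t * t) ^ M • G).trace = algebraMap A (A ⊗[k] B) (t ^ (2 * (N + M))) := by
  rw [smul_sub, sub_eq_zero] at h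
  rw [Matrix.trace_smul, mul_pow, mul_smul, h, smul_smul, Algebra.smul_def, ← map_mul]
  congr 1
  ring

theorem smul_map_mul {B : Type u} [CommRing B] [Algebra k B] {l n o : ℕ} (φ : A →ₐ[k] A')
    {d e : A'} {M : Matrix (Fin l) (Fin n) (A ⊗[k] B)} {N : Matrix (Fin n) (Fin o) (A ⊗[k] B)}
    {P : Matrix (Fin l) (Fin o) (A' ⊗[k] B)} (h : (M * N).map (chartMap B φ) = e • P)
    (hd : d * d * e = 1) :
    (d • M.map (chartMap B φ)) * (d • N.map (chartMap B φ)) = P := by
  rw [Matrix.smul_mul, Matrix.mul_smul, ← Matrix.map_mul, h, smul_smul, smul_smul, hd,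
    one_smul]

section Glue

variable (hX : HasConst X) {m : ℕ} (r : Fin m → A)
  (L : ∀ a, Datum X (Localization.Away (r a))) (ρ : ∀ a, Rig (L a))

/-- The two maps into the overlap of two principal opens. -/
abbrev jL (a b : Fin m) : Localization.Away (r a) →ₐ[k] Localization.Away (r a * r b) :=
  awayLE (dvd_mul_right (r a) (r b))

/-- The two maps into the overlap of two principal opens. -/
abbrev jR (a b : Fin m) : Localization.Away (r b) →ₐ[k] Localization.Away (r a * r b) :=
  awayLE (dvd_mul_left (r b) (r a))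

variable (g : ∀ a b, RigIso ((ρ b).map (jR r a b)) ((ρ a).map (jL r a b)))

/-- The transition matrices on the first chart. -/
abbrev tg₁ (a b : Fin m) :
    Matrix (Fin (L a).n₁) (Fin (L b).n₁) (X.R₁ (Localization.Away (r a * r b))) := (g a b).hom.a₁

/-- The transition matrices on the second chart. -/
abbrev tg₂ (a b : Fin m) :
    Matrix (Fin (L a).n₂) (Fin (L b).n₂) (X.R₂ (Localization.Away (r a * r b))) := (g a b).hom.a₂

/-- The transition matrices from the first to the second chart. -/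
abbrev tw (a b : Fin m) :
    Matrix (Fin (L a).n₂) (Fin (L b).n₁) (X.R₀ (Localization.Away (r a * r b))) := (g a b).hom.w

/-- The transition matrices from the second to the first chart. -/
abbrev tz (a b : Fin m) :
    Matrix (Fin (L a).n₁) (Fin (L b).n₂) (X.R₀ (Localization.Away (r a * r b))) := (g a b).hom.z

theorem comp_jL {a b : Fin m} {φ : A →ₐ[k] A'} {P : Localization.Away (r a * r b) →ₐ[k] A'}
    (hP : P.comp (toAway k (r a * r b)) = φ) : (P.comp (jL r a b)).comp (toAway k (r a)) = φ := by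
  rw [AlgHom.comp_assoc, awayLE_comp, hP]

theorem comp_jR {a b : Fin m} {φ : A →ₐ[k] A'} {P : Localization.Away (r a * r b) →ₐ[k] A'}
    (hP : P.comp (toAway k (r a * r b)) = φ) : (P.comp (jR r a b)).comp (toAway k (r b)) = φ := by
  rw [AlgHom.comp_assoc, awayLE_comp, hP]

include hX

/-- The cocycle identity. -/
theorem cocycle (a b c : Fin m) (φ : A →ₐ[k] A') {P : Localization.Away (r a * r b) →ₐ[k] A'}
    {Q : Localization.Away (r b * r c) →ₐ[k] A'} {R : Localization.Away (r a * r c) →ₐ[k] A'}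
    (hP : P.comp (toAway k (r a * r b)) = φ) (hQ : Q.comp (toAway k (r b * r c)) = φ)
    (hR : R.comp (toAway k (r a * r c)) = φ) :
    ∃ (fa : Localization.Away (r a) →ₐ[k] A') (fb : Localization.Away (r b) →ₐ[k] A')
      (fc : Localization.Away (r c) →ₐ[k] A') (hab : P.comp (jR r a b) = fb)
      (hab' : P.comp (jL r a b) = fa) (hbc : Q.comp (jR r b c) = fc)
      (hbc' : Q.comp (jL r b c) = fb) (hac : R.comp (jR r a c) = fc)
      (hac' : R.comp (jL r a c) = fa),
      ((g b c).hom.push Q hbc hbc').comp ((g a b).hom.push P hab hab') =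
        (g a c).hom.push R hac hac' := by
  have hbc' : Q.comp (jL r b c) = P.comp (jR r a b) :=
    away_ext ((comp_jL r hQ).trans (comp_jR r hP).symm)
  have hac : R.comp (jR r a c) = Q.comp (jR r b c) :=
    away_ext ((comp_jR r hR).trans (comp_jR r hQ).symm)
  have hac' : R.comp (jL r a c) = P.comp (jL r a b) :=
    away_ext ((comp_jL r hR).trans (comp_jL r hP).symm)
  exact ⟨_, _, _, rfl, rfl, rfl, hbc', hac, hac',
    RigIso.hom_eq hX (((g b c).push Q rfl hbc').trans ((g a b).push P rfl rfl))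
      ((g a c).push R hac hac')⟩

/-- The identities between the transition matrices. -/
theorem transition_mul (a b c : Fin m) (φ : A →ₐ[k] A') {P : Localization.Away (r a * r b) →ₐ[k] A'}
    {Q : Localization.Away (r b * r c) →ₐ[k] A'} {R : Localization.Away (r a * r c) →ₐ[k] A'}
    (hP : P.comp (toAway k (r a * r b)) = φ) (hQ : Q.comp (toAway k (r b * r c)) = φ)
    (hR : R.comp (toAway k (r a * r c)) = φ) :
    ((tg₁ r L ρ g a b).map (chartMap X.B₁ P) * (tg₁ r L ρ g b c).map (chartMap X.B₁ Q) =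
      (tg₁ r L ρ g a c).map (chartMap X.B₁ R)) ∧
    ((tg₂ r L ρ g a b).map (chartMap X.B₂ P) * (tg₂ r L ρ g b c).map (chartMap X.B₂ Q) =
      (tg₂ r L ρ g a c).map (chartMap X.B₂ R)) ∧
    ((tw r L ρ g a b).map (chartMap X.B₀ P) * (tz r L ρ g b c).map (chartMap X.B₀ Q) =
      ((tg₂ r L ρ g a c).map (X.res₂ _)).map (chartMap X.B₀ R)) ∧
    ((tz r L ρ g a b).map (chartMap X.B₀ P) * (tw r L ρ g b c).map (chartMap X.B₀ Q) =
      ((tg₁ r L ρ g a c).map (X.res₁ _)).map (chartMap X.B₀ R)) ∧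
    ((tw r L ρ g a b).map (chartMap X.B₀ P) *
        ((tg₁ r L ρ g b c).map (X.res₁ _)).map (chartMap X.B₀ Q) =
      (tw r L ρ g a c).map (chartMap X.B₀ R)) ∧
    ((tz r L ρ g a b).map (chartMap X.B₀ P) *
        ((tg₂ r L ρ g b c).map (X.res₂ _)).map (chartMap X.B₀ Q) =
      (tz r L ρ g a c).map (chartMap X.B₀ R)) ∧
    (((tg₂ r L ρ g a b).map (X.res₂ _)).map (chartMap X.B₀ P) *
        (tw r L ρ g b c).map (chartMap X.B₀ Q) =
      (tw r L ρ g a c).map (chartMap X.B₀ R)) := by
  obtain ⟨fa, fb, fc, h1, h2, h3, h4, h5, h6, h⟩ := cocycle hX r L ρ g a b c φ hP hQ hR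
  set f := (g b c).hom.push Q h3 h4
  set f' := (g a b).hom.push P h1 h2
  have e₃ := Mor.w_mul_z f f'
  have e₄ := Mor.z_mul_w f f'
  have e₅ := Mor.w_mul_a₁ f f'
  have e₆ := Mor.z_mul_a₂ f f'
  have e₇ := Mor.a₂_mul_w f f'
  rw [h] at e₃ e₄ e₅ e₆ e₇
  simp only [f, f', Mor.push_w, Mor.push_z] at e₃ e₄ e₅ e₆ e₇
  refine ⟨congrArg Mor.a₁ h, congrArg Mor.a₂ h, e₃.trans (map_chartMap_res₂ R _).symm,
    e₄.trans (map_chartMap_res₁ R _).symm, ?_, ?_, ?_⟩
  · rw [map_chartMap_res₁]; exact e₅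
  · rw [map_chartMap_res₂]; exact e₆
  · rw [map_chartMap_res₂]; exact e₇

/-- The transition from a piece to itself is the identity. -/
theorem diag (a : Fin m) (φ : A →ₐ[k] A') {P : Localization.Away (r a * r a) →ₐ[k] A'}
    (hP : P.comp (toAway k (r a * r a)) = φ) :
    ((tg₁ r L ρ g a a).map (chartMap X.B₁ P) = (L a).e₁.map (chartMap X.B₁ (P.comp (jL r a a)))) ∧
    ((tg₂ r L ρ g a a).map (chartMap X.B₂ P) = (L a).e₂.map (chartMap X.B₂ (P.comp (jL r a a)))) ∧
    ((tw r L ρ g a a).map (chartMap X.B₀ P) = (L a).u.map (chartMap X.B₀ (P.comp (jL r a a)))) := by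
  have h : P.comp (jR r a a) = P.comp (jL r a a) :=
    away_ext ((comp_jR r hP).trans (comp_jL r hP).symm)
  have := RigIso.hom_eq hX ((g a a).push P h rfl) (RigIso.refl ((ρ a).map (P.comp (jL r a a))))
  change (g a a).hom.push P h rfl = Mor.id _ at this
  have e := congrArg Mor.w this
  rw [Mor.push_w, Mor.id_w] at e
  exact ⟨congrArg Mor.a₁ this, congrArg Mor.a₂ this, e⟩

variable {B : Type u} [CommRing B] [Algebra k B]

omit hX in
/-- Identities between lifted products hold exactly after multiplication by a large power. -/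
theorem eventually_mul {p q o : Fin m → ℕ}
    {x : ∀ a b, Matrix (Fin (p a)) (Fin (q b)) (Localization.Away (r a * r b) ⊗[k] B)}
    {y : ∀ a b, Matrix (Fin (q a)) (Fin (o b)) (Localization.Away (r a * r b) ⊗[k] B)}
    {z : ∀ a b, Matrix (Fin (p a)) (Fin (o b)) (Localization.Away (r a * r b) ⊗[k] B)}
    {Gx : ∀ a b, Matrix (Fin (p a)) (Fin (q b)) (A ⊗[k] B)}
    {Gy : ∀ a b, Matrix (Fin (q a)) (Fin (o b)) (A ⊗[k] B)}
    {Gz : ∀ a b, Matrix (Fin (p a)) (Fin (o b)) (A ⊗[k] B)} {N : ℕ}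
    (hx : ∀ a b, (Gx a b).map (chartMap B (toAway k (r a * r b))) =
      toAway k (r a * r b) ((r a * r b) ^ N) • x a b)
    (hy : ∀ a b, (Gy a b).map (chartMap B (toAway k (r a * r b))) =
      toAway k (r a * r b) ((r a * r b) ^ N) • y a b)
    (hz : ∀ a b, (Gz a b).map (chartMap B (toAway k (r a * r b))) =
      toAway k (r a * r b) ((r a * r b) ^ N) • z a b)
    (h : ∀ (a b c : Fin m) (A' : Type u) [CommRing A'] [Algebra k A'] (φ : A →ₐ[k] A')
      (P : Localization.Away (r a * r b) →ₐ[k] A') (Q : Localization.Away (r b * r c) →ₐ[k] A')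
      (R : Localization.Away (r a * r c) →ₐ[k] A'), P.comp (toAway k (r a * r b)) = φ →
      Q.comp (toAway k (r b * r c)) = φ → R.comp (toAway k (r a * r c)) = φ →
        (x a b).map (chartMap B P) * (y b c).map (chartMap B Q) = (z a c).map (chartMap B R)) :
    ∀ᶠ M in atTop, ∀ a b c, ((r a * r b) ^ M • Gx a b) * ((r b * r c) ^ M • Gy b c) =
      r b ^ (2 * (N + M)) • ((r a * r c) ^ M • Gz a c) := by
  filter_upwards [eventually_all.2 fun a => eventually_all.2 fun b => eventually_all.2 fun c =>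
    eventually_eq (r a * r b * r c) (G := Gx a b * Gy b c) (H := r b ^ (2 * N) • Gz a c) (by
      have dab : r a * r b ∣ r a * r b * r c := dvd_mul_right _ _
      have dbc : r b * r c ∣ r a * r b * r c := ⟨r a, by ring⟩
      have dac : r a * r c ∣ r a * r b * r c := ⟨r b, by ring⟩
      rw [Matrix.map_mul, map_chartMap_smul, lift_push (hx a b) _ _ (awayLE_comp dab),
        lift_push (hy b c) _ _ (awayLE_comp dbc), lift_push (hz a c) _ _ (awayLE_comp dac),
        Matrix.smul_mul, Matrix.mul_smul, smul_smul, smul_smul,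
        h a b c _ _ _ _ _ (awayLE_comp dab) (awayLE_comp dbc) (awayLE_comp dac), ← map_mul,
        ← map_mul]
      congr 2
      ring)] with M hM a b c
  rw [Matrix.smul_mul, Matrix.mul_smul, smul_smul, smul_smul,
    show (r a * r b) ^ M * (r b * r c) ^ M = r b ^ M * (r a * r b * r c) ^ M by ring,
    mul_smul, hM a b c, smul_smul, smul_smul]
  congr 1
  ring

omit hX in
/-- Minors of lifted transitions hold exactly after multiplication by a large power. -/
theorem eventually_minors {p : Fin m → ℕ}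
    {x : ∀ a b, Matrix (Fin (p a)) (Fin (p b)) (Localization.Away (r a * r b) ⊗[k] B)}
    {Gx : ∀ a b, Matrix (Fin (p a)) (Fin (p b)) (A ⊗[k] B)} {N : ℕ}
    (hx : ∀ a b, (Gx a b).map (chartMap B (toAway k (r a * r b))) =
      toAway k (r a * r b) ((r a * r b) ^ N) • x a b)
    (hmul : ∀ (a b c : Fin m) (A' : Type u) [CommRing A'] [Algebra k A'] (φ : A →ₐ[k] A')
      (P : Localization.Away (r a * r b) →ₐ[k] A') (Q : Localization.Away (r b * r c) →ₐ[k] A')
      (R : Localization.Away (r a * r c) →ₐ[k] A'), P.comp (toAway k (r a * r b)) = φ →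
      Q.comp (toAway k (r b * r c)) = φ → R.comp (toAway k (r a * r c)) = φ →
        (x a b).map (chartMap B P) * (x b c).map (chartMap B Q) = (x a c).map (chartMap B R))
    (hrank : ∀ (a : Fin m) (A' : Type u) [CommRing A'] [Algebra k A'] (φ : A →ₐ[k] A')
      (P : Localization.Away (r a * r a) →ₐ[k] A'), P.comp (toAway k (r a * r a)) = φ →
        IsRankOne ((x a a).map (chartMap B P))) :
    ∀ᶠ M in atTop, ∀ a b a' b' i j i' j',
      ((r a * r b) ^ M • Gx a b) i j * ((r a' * r b') ^ M • Gx a' b') i' j' =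
        ((r a * r b') ^ M • Gx a b') i j' * ((r a' * r b) ^ M • Gx a' b) i' j := by
  filter_upwards [eventually_all.2 fun a => eventually_all.2 fun b => eventually_all.2 fun a' =>
    eventually_all.2 fun b' => eventually_all.2 fun i => eventually_all.2 fun j =>
    eventually_all.2 fun i' => eventually_all.2 fun j' =>
    eventually_pow_smul_eq_zero (r a * r b * (r a' * r b'))
      (Gx a b i j * Gx a' b' i' j' - Gx a b' i j' * Gx a' b i' j) (by
      set t := r a * r b * (r a' * r b')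
      have lp : ∀ (p' q' : Fin m) (hd : r p' * r q' ∣ t),
          ∀ i'' j'', chartMap B (toAway k t) (Gx p' q' i'' j'') =
            toAway k t ((r p' * r q') ^ N) •
              (x p' q').map (chartMap B (awayLE hd)) i'' j'' := fun p' q' hd i'' j'' =>
        congrFun (congrFun (lift_push (hx p' q') _ _ (awayLE_comp hd)) i'') j''
      have d₁ : r a * r b ∣ t := dvd_mul_right _ _
      have d₂ : r a' * r b' ∣ t := dvd_mul_left _ _
      have d₃ : r a * r b' ∣ t := ⟨r b * r a', by ring⟩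
      have d₄ : r a' * r b ∣ t := ⟨r a * r b', by ring⟩
      have u₁ : IsUnit (toAway k t (r a')) :=
        isUnit_toAway_of_dvd ((dvd_mul_right (r a') (r b)).trans d₄)
      have d₅ : IsUnit (toAway k t (r a * r a')) := by
        rw [map_mul]
        exact (isUnit_toAway_of_dvd ((dvd_mul_right _ _).trans d₁)).mul u₁
      have d₆ : IsUnit (toAway k t (r a' * r a')) := by rw [map_mul]; exact u₁.mul u₁
      let Pac := awayTo (toAway k t) d₅
      let Pcc := awayTo (toAway k t) d₆
      have hac : Pac.comp (toAway k (r a * r a')) = toAway k t := awayTo_comp _ _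
      have hcc : Pcc.comp (toAway k (r a' * r a')) = toAway k t := awayTo_comp _ _
      rw [map_sub, map_mul, map_mul, lp a b d₁, lp a' b' d₂, lp a b' d₃, lp a' b d₄, sub_eq_zero,
        smul_mul_smul_comm, smul_mul_smul_comm, ← map_mul, ← map_mul]
      refine congrArg₂ (fun (s : A) v => toAway k t s • v) (by ring) ?_
      have e₁ := hmul a a' b _ _ _ _ _ hac (awayLE_comp d₄) (awayLE_comp d₁)
      have e₂ := hmul a a' b' _ _ _ _ _ hac (awayLE_comp d₂) (awayLE_comp d₃)
      have e₃ := hmul a' a' b _ _ _ _ _ hcc (awayLE_comp d₄) (awayLE_comp d₄)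
      have e₄ := hmul a' a' b' _ _ _ _ _ hcc (awayLE_comp d₂) (awayLE_comp d₂)
      have he := hrank a' _ _ _ hcc
      have := he.minors_mid ((x a a').map (chartMap B Pac)) ((x a' b).map (chartMap B (awayLE d₄)))
        ((x a' a').map (chartMap B Pcc)) ((x a' b').map (chartMap B (awayLE d₂))) i j i' j'
      rw [he.idem, Matrix.mul_assoc, e₃, e₁, e₄, Matrix.mul_assoc, e₄, e₂] at this
      exact this)] with M hM a b a' b' i j i' j'
  have h := hM a b a' b' i j i' j'
  rw [smul_sub, sub_eq_zero] at h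
  simp only [Matrix.smul_apply, smul_mul_smul_comm]
  convert h using 2 <;> ring

omit hX in
/-- Lifted transitions at the marked point are products of lifted trivialisations. -/
theorem ev_image {N : ℕ} (a b : Fin m) {G : Matrix (Fin (L a).n₁) (Fin (L b).n₁) (X.R₁ A)}
    {α : Fin (L a).n₁ → A} {β : Fin (L b).n₁ → A}
    (hG : G.map (chartMap X.B₁ (toAway k (r a * r b))) =
      toAway k (r a * r b) ((r a * r b) ^ N) • tg₁ r L ρ g a b)
    (hα : ∀ i, toAway k (r a) (α i) = toAway k (r a) (r a ^ N) * (ρ a).a i)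
    (hβ : ∀ j, toAway k (r b) (β j) = toAway k (r b) (r b ^ N) * (ρ b).b j)
    (i : Fin (L a).n₁) (j : Fin (L b).n₁) :
    X.evPt _ (chartMap X.B₁ (toAway k (r a * r b)) (G i j)) =
      toAway k (r a * r b) (α i * β j) := by
  set ψ := g a b
  have h0 : ψ.hom.a₁.map (X.evPt _) * ((L b).map (jR (k := k) r a b)).e₁.map (X.evPt _) =
      ψ.hom.a₁.map (X.evPt _) :=
    (Matrix.map_mul (f := X.evPt _)).symm.trans (congrArg (fun M => M.map (X.evPt _)) ψ.hom.right₁)
  rw [((ρ b).map (jR (k := k) r a b)).eq, Matrix.mul_vecMulVec,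
    Mor.mulVec_a _ ((ρ b).map (jR (k := k) r a b)) ((ρ a).map (jL (k := k) r a b)), ψ.val_hom, one_smul] at h0
  have h1 : X.evPt (Localization.Away (r a * r b)) (tg₁ r L ρ g a b i j) = jL (k := k) r a b ((ρ a).a i) * jR (k := k) r a b ((ρ b).b j) :=
    (congrFun (congrFun h0 i) j).symm
  have eL := congrArg (jL (k := k) r a b) (hα i)
  have eR := congrArg (jR (k := k) r a b) (hβ j)
  rw [map_mul] at eL eR
  have pL := fun y => AlgHom.congr_fun (awayLE_comp (k := k) (dvd_mul_right (r a) (r b))) y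
  have pR := fun y => AlgHom.congr_fun (awayLE_comp (k := k) (dvd_mul_left (r b) (r a))) y
  simp only [AlgHom.comp_apply] at pL pR
  rw [pL, pL] at eL
  rw [pR, pR] at eR
  refine (congrArg _ (congrFun (congrFun hG i) j)).trans ?_
  rw [Matrix.smul_apply, map_smul, smul_eq_mul, h1, map_mul (toAway k _) (α i), eL, eR, mul_pow,
    map_mul]
  ring

include g

/-- Data on a cover by principal opens with rigidified transitions glue. -/
theorem exists_glued (hr : Ideal.span (Set.range r) = ⊤) :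
    ∃ D : Datum X A, D.IsRigidifiable ∧
      ∀ a, Nonempty (Iso (D.map (toAway k (r a))) (L a)) := by
  obtain ⟨N, hN⟩ := (eventually_all.2 fun a => eventually_all.2 fun b =>
    ((eventually_lift (r a * r b) (tg₁ r L ρ g a b)).and
    ((eventually_lift (r a * r b) (tg₂ r L ρ g a b)).and
    ((eventually_lift (r a * r b) (tw r L ρ g a b)).and
    ((eventually_lift (r a * r b) (tz r L ρ g a b)).and
    ((eventually_all.2 fun i => eventually_lift_scalar (k := k) (r a) ((ρ a).a i)).and
      (eventually_all.2 fun i => eventually_lift_scalar (k := k) (r a) ((ρ a).b i)))))))).exists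
  choose G₁ hG₁ using fun a b => (hN a b).1
  choose G₂ hG₂ using fun a b => (hN a b).2.1
  choose W hW using fun a b => (hN a b).2.2.1
  choose Z hZ using fun a b => (hN a b).2.2.2.1
  choose α hα using fun a => (hN a a).2.2.2.2.1
  choose β hβ using fun a => (hN a a).2.2.2.2.2
  have hG₁r : ∀ a b, ((G₁ a b).map (X.res₁ A)).map (chartMap X.B₀ (toAway k (r a * r b))) =
      toAway k (r a * r b) ((r a * r b) ^ N) • (tg₁ r L ρ g a b).map (X.res₁ _) := fun a b => by
    rw [map_chartMap_res₁, hG₁, map_smul_res₁]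
  have hG₂r : ∀ a b, ((G₂ a b).map (X.res₂ A)).map (chartMap X.B₀ (toAway k (r a * r b))) =
      toAway k (r a * r b) ((r a * r b) ^ N) • (tg₂ r L ρ g a b).map (X.res₂ _) := fun a b => by
    rw [map_chartMap_res₂, hG₂, map_smul_res₂]
  let k' : ∀ a, Localization.Away (r a * r a) →ₐ[k] Localization.Away (r a) := fun a =>
    awayTo (toAway k (r a)) (by
      rw [map_mul]
      exact (isUnit_toAway_of_dvd dvd_rfl).mul (isUnit_toAway_of_dvd dvd_rfl))
  have hk : ∀ a, (k' a).comp (toAway k (r a * r a)) = toAway k (r a) := fun a => awayTo_comp _ _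
  have hkj : ∀ a, (k' a).comp (jL r a a) = AlgHom.id k _ := fun a =>
    away_ext (comp_jL r (hk a))
  have ev := ((eventually_mul r hG₁ hG₁ hG₁ fun a b c A' _ _ φ P Q R hP hQ hR =>
      (transition_mul hX r L ρ g a b c φ hP hQ hR).1).and
    ((eventually_mul r hG₂ hG₂ hG₂ fun a b c A' _ _ φ P Q R hP hQ hR =>
      (transition_mul hX r L ρ g a b c φ hP hQ hR).2.1).and
    ((eventually_mul r hW hZ hG₂r fun a b c A' _ _ φ P Q R hP hQ hR =>
      (transition_mul hX r L ρ g a b c φ hP hQ hR).2.2.1).and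
    ((eventually_mul r hZ hW hG₁r fun a b c A' _ _ φ P Q R hP hQ hR =>
      (transition_mul hX r L ρ g a b c φ hP hQ hR).2.2.2.1).and
    ((eventually_mul r hW hG₁r hW fun a b c A' _ _ φ P Q R hP hQ hR =>
      (transition_mul hX r L ρ g a b c φ hP hQ hR).2.2.2.2.1).and
    ((eventually_mul r hZ hG₂r hZ fun a b c A' _ _ φ P Q R hP hQ hR =>
      (transition_mul hX r L ρ g a b c φ hP hQ hR).2.2.2.2.2.1).and
    ((eventually_mul r hG₂r hW hW fun a b c A' _ _ φ P Q R hP hQ hR =>
      (transition_mul hX r L ρ g a b c φ hP hQ hR).2.2.2.2.2.2).and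
    ((eventually_minors r hG₁ (fun a b c A' _ _ φ P Q R hP hQ hR =>
      (transition_mul hX r L ρ g a b c φ hP hQ hR).1) fun a A' _ _ φ P hP => by
      rw [(diag hX r L ρ g a φ hP).1]; exact IsRankOne.map (chartMap X.B₁ _).toRingHom (L a).rank₁).and
    ((eventually_minors r hG₂ (fun a b c A' _ _ φ P Q R hP hQ hR =>
      (transition_mul hX r L ρ g a b c φ hP hQ hR).2.1) fun a A' _ _ φ P hP => by
      rw [(diag hX r L ρ g a φ hP).2.1]; exact IsRankOne.map (chartMap X.B₂ _).toRingHom (L a).rank₂).and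
    ((eventually_all.2 fun a => eventually_pow_smul_eq_zero (r a)
      ((G₁ a a).trace - algebraMap A (X.R₁ A) (r a ^ (2 * N)))
      (trace_image (r a) (lift_push (hG₁ a a) _ _ (hk a)) ((diag hX r L ρ g a _ (hk a)).1.trans
        (by rw [hkj, chartMap_id]; rfl)) (L a).rank₁.trace (by ring))).and
    ((eventually_all.2 fun a => eventually_pow_smul_eq_zero (r a)
      ((G₂ a a).trace - algebraMap A (X.R₂ A) (r a ^ (2 * N)))
      (trace_image (r a) (lift_push (hG₂ a a) _ _ (hk a)) ((diag hX r L ρ g a _ (hk a)).2.1.trans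
        (by rw [hkj, chartMap_id]; rfl)) (L a).rank₂.trace (by ring))).and
    ((eventually_all.2 fun a => eventually_all.2 fun b => eventually_all.2 fun i =>
      eventually_all.2 fun j => eventually_eq_scalar (k := k) (r a * r b)
        (x := X.evPt A (G₁ a b i j)) (y := α a i * β b j) (by
        exact (evPt_chartMap _ _).symm.trans
          (ev_image r L ρ g a b (hG₁ a b) (hα a) (hβ b) i j))).and
    (eventually_all.2 fun a => eventually_eq_scalar (k := k) (r a) (x := β a ⬝ᵥ α a)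
      (y := r a ^ (2 * N)) (by
        refine ((RingHom.map_dotProduct (toAway k (r a)).toRingHom _ _).trans ?_)
        have e : (toAway k (r a)).toRingHom ∘ α a = toAway k (r a) (r a ^ N) • (ρ a).a :=
          funext (hα a)
        have e' : (toAway k (r a)).toRingHom ∘ β a = toAway k (r a) (r a ^ N) • (ρ a).b :=
          funext (hβ a)
        rw [e, e', smul_dotProduct, dotProduct_smul, (ρ a).dot, smul_eq_mul, smul_eq_mul,
          mul_one, ← map_mul, ← pow_add, two_mul]))))))))))))))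
  obtain ⟨M, m₁, m₂, mWZ, mZW, mWG, mZG, mGW, n₁, n₂, t₁, t₂, mev, mdot⟩ := ev.exists
  let H₁ : ∀ a b, Matrix (Fin (L a).n₁) (Fin (L b).n₁) (X.R₁ A) :=
    fun a b => (r a * r b) ^ M • G₁ a b
  let H₂ : ∀ a b, Matrix (Fin (L a).n₂) (Fin (L b).n₂) (X.R₂ A) :=
    fun a b => (r a * r b) ^ M • G₂ a b
  let U : ∀ a b, Matrix (Fin (L a).n₂) (Fin (L b).n₁) (X.R₀ A) := fun a b => (r a * r b) ^ M • W a b
  let V : ∀ a b, Matrix (Fin (L a).n₁) (Fin (L b).n₂) (X.R₀ A) := fun a b => (r a * r b) ^ M • Z a b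
  let K₁ : ∀ a b, Matrix (Fin (L a).n₁) (Fin (L b).n₁) (X.R₀ A) :=
    fun a b => (r a * r b) ^ M • (G₁ a b).map (X.res₁ A)
  let K₂ : ∀ a b, Matrix (Fin (L a).n₂) (Fin (L b).n₂) (X.R₀ A) :=
    fun a b => (r a * r b) ^ M • (G₂ a b).map (X.res₂ A)
  let s : Fin m → A := fun a => r a ^ (2 * (N + M))
  obtain ⟨c, hc⟩ := exists_sum_pow r hr (2 * (N + M))
  have hsc : ∑ a, c a * s a = 1 := hc
  have hK₁ : (blk c H₁).map (X.res₁ A) = blk c K₁ :=
    Matrix.ext fun i j => by simp [blk, H₁, K₁]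
  have hK₂ : (blk c H₂).map (X.res₂ A) = blk c K₂ :=
    Matrix.ext fun i j => by simp [blk, H₂, K₂]
  have hdiag₁ : ∀ a, (H₁ a a).map (chartMap X.B₁ (toAway k (r a))) =
      toAway k (r a) (s a) • (L a).e₁ := fun a => by
    show ((r a * r a) ^ M • G₁ a a).map _ = _
    rw [lift_push (lift_smul (hG₁ a a) M) _ _ (hk a), (diag hX r L ρ g a _ (hk a)).1, hkj,
      chartMap_id, show (r a * r a) ^ (N + M) = s a by simp only [s]; ring]
    rfl
  have hdiag₂ : ∀ a, (H₂ a a).map (chartMap X.B₂ (toAway k (r a))) =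
      toAway k (r a) (s a) • (L a).e₂ := fun a => by
    show ((r a * r a) ^ M • G₂ a a).map _ = _
    rw [lift_push (lift_smul (hG₂ a a) M) _ _ (hk a), (diag hX r L ρ g a _ (hk a)).2.1, hkj,
      chartMap_id, show (r a * r a) ^ (N + M) = s a by simp only [s]; ring]
    rfl
  have hdiagU : ∀ a, (U a a).map (chartMap X.B₀ (toAway k (r a))) =
      toAway k (r a) (s a) • (L a).u := fun a => by
    show ((r a * r a) ^ M • W a a).map _ = _
    rw [lift_push (lift_smul (hW a a) M) _ _ (hk a), (diag hX r L ρ g a _ (hk a)).2.2, hkj,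
      chartMap_id, show (r a * r a) ^ (N + M) = s a by simp only [s]; ring]
    rfl
  have htr₁ : ∀ a, (H₁ a a).trace = algebraMap A (X.R₁ A) (s a) := fun a =>
    trace_scaled (r a) (G₁ a a) (t₁ a)
  have htr₂ : ∀ a, (H₂ a a).trace = algebraMap A (X.R₂ A) (s a) := fun a =>
    trace_scaled (r a) (G₂ a a) (t₂ a)
  let D : Datum X A :=
    { n₁ := ∑ a, (L a).n₁
      n₂ := ∑ a, (L a).n₂
      e₁ := blk c H₁
      e₂ := blk c H₂
      u := blk c U
      v := blk c V
      rank₁ := ⟨blk_mul m₁ hsc, trace_blk htr₁ hsc, minors_blk n₁⟩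
      rank₂ := ⟨blk_mul m₂ hsc, trace_blk htr₂ hsc, minors_blk n₂⟩
      uv := by rw [hK₂]; exact blk_mul mWZ hsc
      vu := by rw [hK₁]; exact blk_mul mZW hsc
      u_cut := by rw [hK₁]; exact blk_mul mWG hsc
      v_cut := by rw [hK₂]; exact blk_mul mZG hsc }
  refine ⟨D, ⟨fun i => c (finSigmaFinEquiv.symm i).1 * (r (finSigmaFinEquiv.symm i).1 ^ M *
        α (finSigmaFinEquiv.symm i).1 (finSigmaFinEquiv.symm i).2),
      fun j => r (finSigmaFinEquiv.symm j).1 ^ M *
        β (finSigmaFinEquiv.symm j).1 (finSigmaFinEquiv.symm j).2, ?_, ?_⟩, fun a => ?_⟩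
  · show ∑ t, _ * _ = 1
    rw [Equiv.sum_comp (finSigmaFinEquiv (n := fun a => (L a).n₁)).symm
      (fun t : (b : Fin m) × Fin (L b).n₁ => (r t.1 ^ M * β t.1 t.2) *
        (c t.1 * (r t.1 ^ M * α t.1 t.2))), Fintype.sum_sigma, ← hsc]
    refine Finset.sum_congr rfl fun a _ => ?_
    have h := mdot a
    calc ∑ i, r a ^ M * β a i * (c a * (r a ^ M * α a i))
        = c a * r a ^ M * (r a ^ M * (β a ⬝ᵥ α a)) := by
          simp only [dotProduct, Finset.mul_sum]
          exact Finset.sum_congr rfl fun i _ => by ring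
      _ = c a * s a := by rw [h]; simp only [s]; ring
  · refine Matrix.ext fun i j => ?_
    show X.evPt A (c _ • ((r _ * r _) ^ M • G₁ _ _ _ _)) = (c _ * (_ * α _ _)) * (_ * β _ _)
    rw [map_smul, map_smul, smul_eq_mul, smul_eq_mul, mev]
    ring
  · obtain ⟨d, hd⟩ : ∃ d, d * toAway k (r a) (r a ^ (N + M)) = 1 := by
      obtain ⟨w, hw⟩ := (isUnit_toAway_of_dvd (k := k) (dvd_refl (r a))).pow (N + M)
      exact ⟨↑w⁻¹, by rw [map_pow, ← hw, Units.inv_mul]⟩
    have hds : d * d * toAway k (r a) (s a) = 1 := by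
      show d * d * toAway k (r a) (r a ^ (2 * (N + M))) = 1
      rw [two_mul, pow_add, map_mul]
      linear_combination (d * toAway k (r a) (r a ^ (N + M)) + 1) * hd
    refine ⟨⟨d • (hrow H₁ a).map (chartMap X.B₁ (toAway k (r a))),
      d • (vcol c H₁ a).map (chartMap X.B₁ (toAway k (r a))),
      d • (hrow H₂ a).map (chartMap X.B₂ (toAway k (r a))),
      d • (vcol c H₂ a).map (chartMap X.B₂ (toAway k (r a))),
      ?_, ?_, ?_, ?_, ?_⟩⟩
    · exact smul_map_mul _ ((congrArg (fun M => M.map (chartMap X.B₁ (toAway k (r a))))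
        (hrow_mul_vcol m₁ hsc a a)).trans (hdiag₁ a)) hds
    · exact smul_map_mul _ ((congrArg (fun M => M.map (chartMap X.B₁ (toAway k (r a))))
        (vcol_mul_hrow m₁ a)).trans (map_chartMap_smul _ _ _)) hds
    · exact smul_map_mul _ ((congrArg (fun M => M.map (chartMap X.B₂ (toAway k (r a))))
        (hrow_mul_vcol m₂ hsc a a)).trans (hdiag₂ a)) hds
    · exact smul_map_mul _ ((congrArg (fun M => M.map (chartMap X.B₂ (toAway k (r a))))
        (vcol_mul_hrow m₂ a)).trans (map_chartMap_smul _ _ _)) hds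
    · show (L a).u * (d • (hrow H₁ a).map (chartMap X.B₁ (toAway k (r a)))).map (X.res₁ _) *
          ((blk c H₁).map (chartMap X.B₁ (toAway k (r a)))).map (X.res₁ _) =
        (d • (hrow H₂ a).map (chartMap X.B₂ (toAway k (r a)))).map (X.res₂ _) *
          (blk c U).map (chartMap X.B₀ (toAway k (r a)))
      rw [map_smul_res₁, map_smul_res₂, ← map_chartMap_res₁, ← map_chartMap_res₁,
        ← map_chartMap_res₂, hK₁]
      have r₁ : (hrow H₁ a).map (X.res₁ A) = hrow K₁ a :=
        Matrix.ext fun i j => by simp [hrow, H₁, K₁]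
      have r₂ : (hrow H₂ a).map (X.res₂ A) = hrow K₂ a :=
        Matrix.ext fun i j => by simp [hrow, H₂, K₂]
      have mKK : ∀ a b b', K₁ a b * K₁ b b' = s b • K₁ a b' := fun a b b' => by
        have h := congrArg (fun M => M.map (X.res₁ A)) (m₁ a b b')
        simp only [Matrix.map_mul, map_smul_res₁] at h
        exact h
      rw [r₁, r₂, Matrix.mul_assoc, Matrix.smul_mul, ← Matrix.map_mul, hrow_mul_blk mKK hsc,
        Matrix.smul_mul, ← Matrix.map_mul, hrow_mul_blk mGW hsc, Matrix.mul_smul]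
      congr 1
      have h := congrArg (fun M => M.map (chartMap X.B₀ (toAway k (r a)))) (mul_hrow mWG a)
      replace h : (U a a * hrow K₁ a).map (chartMap X.B₀ (toAway k (r a))) =
          (s a • hrow U a).map (chartMap X.B₀ (toAway k (r a))) := h
      rw [Matrix.map_mul, map_chartMap_smul (toAway k (r a)) (s a), hdiagU, Matrix.smul_mul] at h
      have hu : IsUnit (toAway k (r a) (s a)) := IsUnit.of_mul_eq_one_right _ hds
      exact hu.smul_left_cancel.1 h

end Glue

end FLTAgent.PicScheme
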